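/-
TEAM TW56 -> S56, block TAME (architect helper61): the structure of the Galois group of a finite Galois
extension of local fields, in the language `LocAct Γ L` of `CFT/Local/Interface.lean`
(`Γ` a finite group acting faithfully and isometrically on the local field `L`; base field `K = L^Γ`).

   `1 ≤ P ≤ I ≤ Γ`,  `I` = inertia (`IsIn`), `P` = wild inertia (`IsWild`);
   `Γ/I` cyclic generated by a Frobenius, `I/P` cyclic of order prime to the residue characteristic `ℓ`,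
   `P` an `ℓ`-group, `φ s φ⁻¹ ≡ s^q mod P`, `L^I/K` unramified, averaging over `I/P`.

Consumers: COUNT (LocAx of `Flat/Defs.lean`) and LOCQ (local condition at `q ∈ Smin`).
Residue field API: `CFT/Local/Reps.lean` (`repsO`, `ResField`, `red`, `red_eq_red_iff`, ...),
`CFT/Local/FrobPow.lean` (`frobPowResHom` : maps induced on residue fields).
-/
import Fermat.Agent.CFT.Local.All

set_option autoImplicit false

noncomputable section

namespace Fermat.Agent.TW56.Count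

open Fermat.Agent.CFT.Local

section Defs

variable {Γ : Type} (L : Type) [Group Γ] [NormedField L] [MulSemiringAction Γ L]

/-- `g` lies in the inertia group: it acts trivially on the residue field. -/
def IsIn (g : Γ) : Prop := ∀ x : L, ‖x‖ ≤ 1 → ‖g • x - x‖ < 1

/-- `g` lies in the wild inertia group: `g x / x ≡ 1` for all `x ≠ 0`. -/
def IsWild (g : Γ) : Prop := ∀ x : L, x ≠ 0 → ‖g • x - x‖ < ‖x‖

end Defs

/-- TM1. inertia and wild inertia are normal subgroups. -/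
def Stmt_tameSub : Prop :=
  ∀ (Γ L : Type) [Group Γ] [Finite Γ] [NormedField L] [MulSemiringAction Γ L], LocAct Γ L →
    ∃ I P : Subgroup Γ, I.Normal ∧ P.Normal ∧ P ≤ I ∧ (∀ g, g ∈ I ↔ IsIn L g) ∧
      (∀ g, g ∈ P ↔ IsWild L g)

/-- TM-RES. the fixed field of `Γ` in the residue field of `L` is the residue field of `K = L^Γ`.
[`∏_g (X - g x) ∈ O_K[X]` reduces to `(X - x̄)^n`, `n = ℓ^a m`: `m x̄^(ℓ^a) ∈ κ_K`, and `κ_K` is perfect
(`y^(q_K) = y`).  In norms: `y := (1/m) e_{ℓ^a}`-th coefficient ..., then take a `q_K^b/ℓ^a`-th power.] -/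
def Stmt_resFix : Prop :=
  ∀ (Γ L : Type) [Group Γ] [Finite Γ] [NormedField L] [MulSemiringAction Γ L], LocAct Γ L →
    ∀ x : L, ‖x‖ ≤ 1 → (∀ g : Γ, ‖g • x - x‖ < 1) → ∃ y : L, (∀ g : Γ, g • y = y) ∧ ‖x - y‖ < 1

/-- TM2. Frobenius: `Γ/I` is cyclic, generated by an element inducing `x ↦ x^q` on the residue field,
`q = # κ_K`.  [`Γ` acts on the finite field `κ_L` with fixed field `κ_K` (TM-RES); Artin: the image is
`Gal(κ_L/κ_K)`, which is generated by the `q`-Frobenius.] -/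
def Stmt_frob : Prop :=
  ∀ (Γ L : Type) [Group Γ] [Finite Γ] [NormedField L] [MulSemiringAction Γ L], LocAct Γ L →
    ∃ φ : Γ, (∀ x : L, ‖x‖ ≤ 1 → ‖φ • x - x ^ resCard (FixedPoints.subfield Γ L)‖ < 1) ∧
      ∀ g : Γ, ∃ n : ℕ, ∃ s : Γ, IsIn L s ∧ g = φ ^ n * s

/-- TM7. `θ_x(s) = s x / x mod 𝔪` only depends on `‖x‖`. -/
def Stmt_thetaNorm : Prop :=
  ∀ (Γ L : Type) [Group Γ] [Finite Γ] [NormedField L] [MulSemiringAction Γ L], LocAct Γ L →
    ∀ s : Γ, IsIn L s → ∀ x y : L, x ≠ 0 → y ≠ 0 → ‖x‖ = ‖y‖ → ‖s • x / x - s • y / y‖ < 1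

/-- TM3. `I/P` is cyclic.  [`θ : I → κ_Lˣ`, `s ↦ red (s ϖ / ϖ)` is a homomorphism with kernel `P`
(TM7), and `κ_Lˣ` is cyclic.] -/
def Stmt_tameCyc : Prop :=
  ∀ (Γ L : Type) [Group Γ] [Finite Γ] [NormedField L] [MulSemiringAction Γ L], LocAct Γ L →
    ∃ s₀ : Γ, IsIn L s₀ ∧ ∀ s : Γ, IsIn L s → ∃ n : ℕ, ∃ u : Γ, IsWild L u ∧ s = s₀ ^ n * u

/-- TM5. `I/P` is killed by `q_L - 1`. -/
def Stmt_tameOrd : Prop :=
  ∀ (Γ L : Type) [Group Γ] [Finite Γ] [NormedField L] [MulSemiringAction Γ L], LocAct Γ L →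
    ∀ s : Γ, IsIn L s → IsWild L (s ^ (resCard L - 1))

/-- TM4. `P` is an `ℓ`-group.  [`u` wild of order `n` prime to `ℓ`: `y = (1/n) ∑ u^i x` is fixed by `u`
and `‖x - y‖ < ‖x‖`; iterate: `x` is a limit of fixed elements, so fixed (`fixedLoc_isClosed`); `u = 1`
by faithfulness.  General `u`: `u^(ℓ^a)` has order prime to `ℓ`.] -/
def Stmt_wildP : Prop :=
  ∀ (Γ L : Type) [Group Γ] [Finite Γ] [NormedField L] [MulSemiringAction Γ L], LocAct Γ L →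
    ∀ ℓ : ℕ, ℓ.Prime → ‖(ℓ : L)‖ < 1 → ∀ u : Γ, IsWild L u → ∃ m : ℕ, u ^ ℓ ^ m = 1

/-- TM6. `φ s φ⁻¹ ≡ s^Q mod P` if `φ` induces `x ↦ x^Q` on the residue field.
[`ϖ' = φ⁻¹ ϖ`, `t = s ϖ'/ϖ'`: `(φ s φ⁻¹) ϖ / ϖ = φ t ≡ t^Q ≡ (s ϖ/ϖ)^Q ≡ s^Q ϖ/ϖ`.] -/
def Stmt_frobConj : Prop :=
  ∀ (Γ L : Type) [Group Γ] [Finite Γ] [NormedField L] [MulSemiringAction Γ L], LocAct Γ L →
    ∀ (φ : Γ) (Q : ℕ), (∀ x : L, ‖x‖ ≤ 1 → ‖φ • x - x ^ Q‖ < 1) → ∀ s : Γ, IsIn L s →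
      ∃ u : Γ, IsWild L u ∧ φ * s * φ⁻¹ = s ^ Q * u

/-- TM8. averaging over `I/P`: an element of `L^P` on which `I` acts trivially to first order has the
norm (and the leading term) of an element of `L^I`.  [`z' = (1/n) ∑_{i<n} s₀^i z`, `n = q_L - 1`.] -/
def Stmt_tameAvg : Prop :=
  ∀ (Γ L : Type) [Group Γ] [Finite Γ] [NormedField L] [MulSemiringAction Γ L], LocAct Γ L →
    ∀ z : L, z ≠ 0 → (∀ u : Γ, IsWild L u → u • z = z) → (∀ s : Γ, IsIn L s → ‖s • z - z‖ < ‖z‖) →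
      ∃ z' : L, (∀ s : Γ, IsIn L s → s • z' = z') ∧ ‖z' - z‖ < ‖z‖

/-- TM9. `L^I/K` is unramified.  [`φ^i z = w_i z`; by independence of the distinct automorphisms
`φ̄^i` (`i < [Γ:I]`) of `κ_L = κ_{L^I}` (TM-RES for `I`) there is a unit `u ∈ L^I` with
`∑ φ̄^i(ū) w̄_i ≠ 0`; `y = ∑_i φ^i (u z)`.  Or: `Local.all_card` for `(Γ/I, L^I)` and
`# κ_L = q^[Γ:I]`.] -/
def Stmt_unramVal : Prop :=
  ∀ (Γ L : Type) [Group Γ] [Finite Γ] [NormedField L] [MulSemiringAction Γ L], LocAct Γ L →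
    ∀ z : L, z ≠ 0 → (∀ s : Γ, IsIn L s → s • z = z) → ∃ y : L, (∀ g : Γ, g • y = y) ∧ ‖y‖ = ‖z‖

/-- TM10. residue fields of the unramified layers: `# κ_{L^{G'}} = q^[Γ:G']` for `I ≤ G'`.
[`Local.all_card` needs `G'` normal: `Γ/I` is abelian so `G'` is normal; ramification index `1` by
TM9.] -/
def Stmt_unramCard : Prop :=
  ∀ (Γ L : Type) [Group Γ] [Finite Γ] [NormedField L] [MulSemiringAction Γ L], LocAct Γ L →
    ∀ G' : Subgroup Γ, (∀ s : Γ, IsIn L s → s ∈ G') →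
      resCard (FixedPoints.subfield G' L) = resCard (FixedPoints.subfield Γ L) ^ G'.index

end Fermat.Agent.TW56.Count

end
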