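/-
TEAM TW56 -> S56, block COUNT (architect helper68): `Flat.Stmt_COUNT` : `KB M ⟹ LocAx`.

Language: `LocAct Γ L` of CFT/Local (`Γ` finite, acting faithfully and isometrically on the local field
`L`), `IsIn`, `IsWild` of `Count/Tame.lean`.  `Ctx p Γ L ζ` : `L^I` is unramified over `ℚ_p`, `ζ` a primitive
`p`-th root of unity, and the Kummer bound `KB` for all subgroups `N` of `Γ`.  The context is used for
`Γ = Gal(M/ℚ_p)` and for `Γ = G'` (a subgroup containing the inertia group).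

PLAN.  `f ∈ Z¹(Γ, k(η))`, `N ◁ Γ` of index prime to `p`, `N ≤ ker η`, `N` fixes `ζ`; `K = L^N`.
`T : k →+ 𝔽_p` non degenerate.  For `x : k` the map `n ↦ T (x f(n))` is a character of `N`, so (Hilbert 90)
there is `α ≠ 0` with `n α = ζ^{T(x f n)} α` (`IsKum x α`); `α^p ∈ K`.  `g α` is Kummer for `c_g x`,
`c_g = ω(g)/η(g)` (`cc`).  `LevJ e j` : for ALL `x` there is such an `α` with `‖α^p - 1‖^e ≤ p^{-j}`.
`KB` gives the first level, `stepLin`/`stepPow` climb, at the top level `j(p-1) = pe` inertia fixes `α` (AS),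
so `f` kills `I ∩ N`.  At the unique jump `j₁` one counts the leading terms `Ψ x = rd ((α^p-1)/y₁)`.
-/
import Fermat.Agent.TW56.Count.Tame
import Fermat.Agent.TW56.Flat.RamInterface

set_option autoImplicit false

noncomputable section

namespace Fermat.Agent.TW56.Count

open Fermat.Agent.CFT.Local Fermat.Agent.TW56.Flat

/-! ## Definitions -/

/-- the context of COUNT -/
structure Ctx (p : ℕ) (Γ L : Type) [Group Γ] [Finite Γ] [NormedField L] [MulSemiringAction Γ L]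
    (ζ : L) : Prop where
  act : LocAct Γ L
  normp : ‖(p : L)‖ = (p : ℝ)⁻¹
  /-- `L^I` is unramified over `ℚ_p` -/
  unr : ∀ x : L, (∀ s : Γ, IsIn L s → s • x = x) → ‖x‖ < 1 → ‖x‖ ≤ (p : ℝ)⁻¹
  ne_one : ζ ≠ 1
  pow_p : ζ ^ p = 1
  /-- the Kummer bound -/
  kb : ∀ N : Subgroup Γ, (∀ n ∈ N, n • ζ = ζ) → ∀ a : L, (∀ n ∈ N, n • a = a) → a ≠ 0 →
    (∃ α : L, α ^ p = a) → ∃ b : L, (∀ n ∈ N, n • b = b) ∧ b ≠ 0 ∧
      ‖a * b ^ p - 1‖ ^ ((p - 1) ^ 2) ≤ ((p : ℝ)⁻¹) ^ (p * (p - 2))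

section Defs

variable {Γ L k κ : Type} [Group Γ] [NormedField L] [MulSemiringAction Γ L] [Field k] [Field κ]

/-- `om` is the mod `p` cyclotomic character -/
def IsCyc (ζ : L) (om : Γ →* kˣ) : Prop :=
  ∀ (g : Γ) (a : ℕ), g • ζ = ζ ^ a → ((om g : kˣ) : k) = (a : k)

/-- `c_g = ω(g)/η(g)` -/
def cc (om η : Γ →* kˣ) (g : Γ) : k := ((om g / η g : kˣ) : k)

/-- the data `(ω, η, N, T)` -/
structure KData (p : ℕ) (ζ : L) (om η : Γ →* kˣ) (N : Subgroup Γ) (T : k →+ ZMod p) : Prop where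
  cyc : IsCyc ζ om
  normal : N.Normal
  eta : ∀ n ∈ N, η n = 1
  fixz : ∀ n ∈ N, n • ζ = ζ
  nondeg : ∀ c : k, (∀ x : k, T (x * c) = 0) → c = 0

/-- the value group of `K = L^N` is contained in `(1/e) ℤ` -/
def HVal (p : ℕ) (L : Type) [NormedField L] [MulSemiringAction Γ L] (N : Subgroup Γ) (e : ℕ) : Prop :=
  ∀ y : L, (∀ n ∈ N, n • y = y) → y ≠ 0 → ∃ j : ℤ, ‖y‖ ^ e = ((p : ℝ)⁻¹) ^ j

/-- `α` is a Kummer generator for the character `n ↦ T (x * f n)` of `N` -/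
def IsKum {p : ℕ} (ζ : L) (N : Subgroup Γ) (T : k →+ ZMod p) (f : Γ → k) (x : k) (α : L) : Prop :=
  α ≠ 0 ∧ ∀ n ∈ N, n • α = ζ ^ (T (x * f n)).val * α

/-- all the characters `T (x * f ·)` have a Kummer generator `α` with `‖α^p - 1‖^e ≤ p^{-j}` -/
def LevJ {p : ℕ} (ζ : L) (N : Subgroup Γ) (T : k →+ ZMod p) (f : Γ → k) (e j : ℕ) : Prop :=
  ∀ x : k, ∃ α : L, IsKum ζ N T f x α ∧ ‖α ^ p - 1‖ ^ e ≤ ((p : ℝ)⁻¹) ^ j

/-- a reduction map to the residue field -/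
structure IsRd (rd : L → κ) : Prop where
  add : ∀ x y : L, ‖x‖ ≤ 1 → ‖y‖ ≤ 1 → rd (x + y) = rd x + rd y
  mul : ∀ x y : L, ‖x‖ ≤ 1 → ‖y‖ ≤ 1 → rd (x * y) = rd x * rd y
  one : rd 1 = 1
  zero_iff : ∀ x : L, ‖x‖ ≤ 1 → (rd x = 0 ↔ ‖x‖ < 1)

/-- `Ψ` is the leading term map of `f` at the level of `y₁` -/
def IsPsi {p : ℕ} (ζ : L) (N : Subgroup Γ) (T : k →+ ZMod p) (rd : L → κ) (y₁ : L) (f : Γ → k)
    (Ψ : k → κ) : Prop :=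
  ∀ x : k, ∃ α : L, IsKum ζ N T f x α ∧ ‖α ^ p - 1‖ ≤ ‖y₁‖ ∧ Ψ x = rd ((α ^ p - 1) / y₁)

/-- `g` induces `z ↦ z^Q` on the residue field (`Q = 1` : inertia) -/
def ActsQ (L : Type) [NormedField L] [MulSemiringAction Γ L] (g : Γ) (Q : ℕ) : Prop :=
  ∀ z : L, ‖z‖ ≤ 1 → ‖g • z - z ^ Q‖ < 1

/-- `Γ = ⟨φ⟩ I` -/
def GenBy (L : Type) [NormedField L] [MulSemiringAction Γ L] (φ : Γ) : Prop :=
  ∀ g : Γ, ∃ n : ℕ, ∃ s : Γ, IsIn L s ∧ g = φ ^ n * s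

end Defs

/-! ## A. group theory (no fields) -/

/-- CNT-A1. a cocycle vanishing on a normal subgroup of index prime to `p` is a coboundary.
[`x := -(1/m) ∑_{g ∈ Γ/N} f g`; `f` is constant on cosets `gN` because `f (g n) = f g + η g f n`.] -/
def Stmt_cobN : Prop :=
  ∀ (p : ℕ) [Fact p.Prime] (k : Type) [Field k] [CharP k p] (Γ : Type) [Group Γ] [Finite Γ]
    (η : Γ →* kˣ) (N : Subgroup Γ), N.Normal → ¬ p ∣ N.index → ∀ f ∈ Z1Char η,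
    (∀ n ∈ N, f n = 0) → ∃ x : k, ∀ g, f g = ((η g : k) - 1) * x

/-- CNT-A2. `Γ/I` abelian, `η ≠ 1`, `N ≤ ker η` normal: a cocycle killing `I ∩ N` kills `N`.
[`f (g n g⁻¹) = η g * f n`; `g n g⁻¹ n⁻¹ ∈ I ∩ N`, `f` is additive on `N`.] -/
def Stmt_killN : Prop :=
  ∀ (k : Type) [Field k] (Γ : Type) [Group Γ] (η : Γ →* kˣ) (I N : Subgroup Γ), N.Normal →
    (∀ g h : Γ, g * h * g⁻¹ * h⁻¹ ∈ I) → (∀ n ∈ N, η n = 1) → (∃ g, η g ≠ 1) → ∀ f ∈ Z1Char η,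
    (∀ n ∈ N, n ∈ I → f n = 0) → ∀ n ∈ N, f n = 0

/-- CNT-A3. fibre count.  [`f ↦ Ψ_f` (choice); two cocycles in the same fibre differ by a
coboundary (A1), there are at most `#k` coboundaries.] -/
def Stmt_fibre : Prop :=
  ∀ (p : ℕ) [Fact p.Prime] (k : Type) [Field k] [Finite k] [CharP k p] (Γ : Type) [Group Γ] [Finite Γ]
    (η : Γ →* kˣ) (N : Subgroup Γ), N.Normal → ¬ p ∣ N.index →
    ∀ (X : Type) [Finite X] (R : (Γ → k) → X → Prop), (∀ f ∈ Z1Char η, ∃ Ψ, R f Ψ) →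
    (∀ f ∈ Z1Char η, ∀ f' ∈ Z1Char η, ∀ Ψ, R f Ψ → R f' Ψ → ∀ n ∈ N, f n = f' n) →
    Nat.card (Z1Char η) ≤ Nat.card X * Nat.card k

/-- CNT-A4. the kernel of two characters has index prime to `p`. -/
def Stmt_indexKer : Prop :=
  ∀ (p : ℕ) [Fact p.Prime] (k : Type) [Field k] [Finite k] [CharP k p] (Γ : Type) [Group Γ] [Finite Γ]
    (η η' : Γ →* kˣ), ¬ p ∣ (η.ker ⊓ η'.ker).index

/-- CNT-A5. homomorphisms `Γ → k` killing `I` when `Γ = ⟨φ⟩ I`. -/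
def Stmt_homCyc : Prop :=
  ∀ (k : Type) [Field k] [Finite k] (Γ : Type) [Group Γ] [Finite Γ] (I : Set Γ) (φ : Γ),
    (∀ g : Γ, ∃ n : ℕ, ∃ s ∈ I, g = φ ^ n * s) →
    (∀ f ∈ Z1Char (1 : Γ →* kˣ), ∀ s ∈ I, f s = 0) → Nat.card (Z1Char (1 : Γ →* kˣ)) ≤ Nat.card k

/-- CNT-A6. existence of a non degenerate additive form (the trace). -/
def Stmt_trace : Prop :=
  ∀ (p : ℕ) [Fact p.Prime] (k : Type) [Field k] [Finite k] [CharP k p],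
    ∃ T : k →+ ZMod p, ∀ c : k, (∀ x : k, T (x * c) = 0) → c = 0

/-! ## B. Kummer theory -/

/-- CNT-B1. Hilbert 90 for a character of `N` with values in `μ_p`.
[`∑_{n ∈ N} ζ^{-χ n} n • z ≠ 0` for some `z` by independence of characters (faithful action).] -/
def Stmt_kumEx : Prop :=
  ∀ (p : ℕ) [Fact p.Prime] (Γ L : Type) [Group Γ] [Finite Γ] [NormedField L] [MulSemiringAction Γ L],
    LocAct Γ L → ∀ (ζ : L) (N : Subgroup Γ), ζ ^ p = 1 → (∀ n ∈ N, n • ζ = ζ) →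
    ∀ χ : Γ → ZMod p, (∀ n ∈ N, ∀ n' ∈ N, χ (n * n') = χ n + χ n') →
    ∃ α : L, α ≠ 0 ∧ ∀ n ∈ N, n • α = ζ ^ (χ n).val * α

/-- CNT-B2. `g α` is a Kummer generator for `c_g x`.
[`n (g α) = g ((g⁻¹ n g) α)`, `f (g⁻¹ n g) = (η g)⁻¹ f n`, `g ζ = ζ^a`, `ω g = a`.] -/
def Stmt_kumAct : Prop :=
  ∀ (p : ℕ) [Fact p.Prime] (k : Type) [Field k] [CharP k p] (Γ L : Type) [Group Γ] [Finite Γ]
    [NormedField L] [MulSemiringAction Γ L] (ζ : L), ζ ≠ 1 → ζ ^ p = 1 →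
    ∀ (om η : Γ →* kˣ) (N : Subgroup Γ) (T : k →+ ZMod p), KData p ζ om η N T → ∀ f ∈ Z1Char η,
    ∀ (g : Γ) (x : k) (α : L), IsKum ζ N T f x α → IsKum ζ N T f (cc om η g * x) (g • α)

/-- CNT-B3. the algebra of Kummer generators. -/
def Stmt_kumAlg : Prop :=
  ∀ (p : ℕ) [Fact p.Prime] (k : Type) [Field k] [CharP k p] (Γ L : Type) [Group Γ]
    [NormedField L] [MulSemiringAction Γ L] (ζ : L), ζ ^ p = 1 →
    ∀ (N : Subgroup Γ) (T : k →+ ZMod p) (f f' : Γ → k) (x x' : k) (α α' : L),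
    IsKum ζ N T f x α →
    (IsKum ζ N T f x' α' → IsKum ζ N T f (x + x') (α * α')) ∧
    (IsKum ζ N T f x' α' → IsKum ζ N T f (x - x') (α / α')) ∧
    (∀ m : ℕ, IsKum ζ N T f ((m : k) * x) (α ^ m)) ∧
    (∀ b : L, b ≠ 0 → (∀ n ∈ N, n • b = b) → IsKum ζ N T f x (α * b)) ∧
    (IsKum ζ N T f x α' → ∀ n ∈ N, n • (α' / α) = α' / α) ∧
    (IsKum ζ N T f' x α' → IsKum ζ N T (fun g => f g - f' g) x (α / α')) ∧
    (∀ n ∈ N, n • (α ^ p) = α ^ p)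

/-! ## C. valuations -/

/-- CNT-C1. `π = ζ - 1`. -/
def Stmt_normPi : Prop :=
  ∀ (p : ℕ) [Fact p.Prime] (L : Type) [NormedField L], IsUltrametricDist L →
    ‖(p : L)‖ = (p : ℝ)⁻¹ → ∀ ζ : L, ζ ≠ 1 → ζ ^ p = 1 →
    ‖ζ - 1‖ ^ (p - 1) = (p : ℝ)⁻¹ ∧ (∀ a : ℕ, ‖ζ ^ a - 1 - (a : L) * (ζ - 1)‖ < ‖ζ - 1‖) ∧
    (∀ a : ℕ, ζ ^ a ≠ 1 → ‖ζ ^ a - 1‖ = ‖ζ - 1‖)

/-- CNT-C2 (AS). if `‖α^p - 1‖ ≤ ‖π‖^p` then inertia fixes `α`.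
[`α = 1 + π y` with `‖y‖ ≤ 1` (otherwise `‖α^p - 1‖ = ‖α - 1‖^p > ‖π‖^p`); `s α - α = π (s y - y)` has norm
`< ‖π‖`, whereas `(ζ^i - 1) α` has norm `‖π‖` if `ζ^i ≠ 1`.] -/
def Stmt_AS : Prop :=
  ∀ (p : ℕ) [Fact p.Prime] (Γ L : Type) [Group Γ] [Finite Γ] [NormedField L] [MulSemiringAction Γ L],
    LocAct Γ L → ‖(p : L)‖ = (p : ℝ)⁻¹ → ∀ ζ : L, ζ ≠ 1 → ζ ^ p = 1 →
    ∀ (α : L) (s : Γ) (i : ℕ), IsIn L s → s • ζ = ζ → ‖α ^ p - 1‖ ≤ ‖ζ - 1‖ ^ p →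
    s • α = ζ ^ i * α → s • α = α

/-- CNT-C3. norms of `I`-fixed elements are powers of `p`. -/
def Stmt_unrZ : Prop :=
  ∀ (p : ℕ) [Fact p.Prime] (Γ L : Type) [Group Γ] [Finite Γ] [NormedField L] [MulSemiringAction Γ L]
    (ζ : L), Ctx p Γ L ζ → ∀ x : L, x ≠ 0 → (∀ s : Γ, IsIn L s → s • x = x) →
    ∃ j : ℤ, ‖x‖ = ((p : ℝ)⁻¹) ^ j

/-- CNT-C4. an element on which inertia acts trivially to first order, fixed by `N ∋ s^e`, has norm in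
`p^ℤ`.  [wild elements lie in `N` (`wildP`, `e` prime to `p`); `tameAvg`; C3.] -/
def Stmt_firstZ : Prop :=
  ∀ (p : ℕ) [Fact p.Prime] (Γ L : Type) [Group Γ] [Finite Γ] [NormedField L] [MulSemiringAction Γ L]
    (ζ : L), Ctx p Γ L ζ → ∀ (N : Subgroup Γ) (e : ℕ), Nat.Coprime e p →
    (∀ s : Γ, IsIn L s → s ^ e ∈ N) → ∀ z : L, z ≠ 0 → (∀ n ∈ N, n • z = z) →
    (∀ s : Γ, IsIn L s → ‖s • z - z‖ < ‖z‖) → ∃ j : ℤ, ‖z‖ = ((p : ℝ)⁻¹) ^ j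

/-- CNT-C5. `θ_y(s^d) = θ_{y^d}(s)`.
[`u = s y / y`; `s^d y / y = ∏_{i<d} s^i u ≡ u^d = s (y^d) / y^d`.] -/
def Stmt_thetaPow : Prop :=
  ∀ (Γ L : Type) [Group Γ] [Finite Γ] [NormedField L] [MulSemiringAction Γ L], LocAct Γ L →
    ∀ (s : Γ) (y c : L) (d : ℕ), IsIn L s → y ≠ 0 →
    (‖s • (y ^ d) - c * y ^ d‖ < ‖y ^ d‖ ↔ ‖(s ^ d) • y - c * y‖ < ‖y‖)

/-- CNT-C6. the value group of `L^N`.  [`z = y^e`: by C5 with `c = 1`, `s^e y = y`; C4.] -/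
def Stmt_hval : Prop :=
  ∀ (p : ℕ) [Fact p.Prime] (Γ L : Type) [Group Γ] [Finite Γ] [NormedField L] [MulSemiringAction Γ L]
    (ζ : L), Ctx p Γ L ζ → ∀ (N : Subgroup Γ) (e : ℕ), Nat.Coprime e p →
    (∀ s : Γ, IsIn L s → s ^ e ∈ N) → HVal p L N e

/-- CNT-C7. the tame character of an element of valuation `j/(p-1)` is `ω^j`.
[`y = π^j u`, `‖u‖ = 1`; `s π = ζ^a - 1 ≡ a π` (C1).] -/
def Stmt_theta1 : Prop :=
  ∀ (p : ℕ) [Fact p.Prime] (Γ L : Type) [Group Γ] [Finite Γ] [NormedField L] [MulSemiringAction Γ L],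
    LocAct Γ L → ‖(p : L)‖ = (p : ℝ)⁻¹ → ∀ ζ : L, ζ ≠ 1 → ζ ^ p = 1 →
    ∀ (y : L) (j : ℕ) (s : Γ) (a : ℕ), y ≠ 0 → ‖y‖ ^ (p - 1) = ((p : ℝ)⁻¹) ^ j → IsIn L s →
    s • ζ = ζ ^ a → ‖s • y - (a : L) ^ j * y‖ < ‖y‖

/-- CNT-C8. inertia acts transitively on the primitive `p`-th roots of unity.
[the product over the `I`-orbit of `π` is `I`-fixed of norm `‖π‖^{#orbit}`; C3 and C1: `(p-1) ∣ #orbit`.
`I` is a subgroup: `Stmt_tameSub`.] -/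
def Stmt_omSurj : Prop :=
  ∀ (p : ℕ) [Fact p.Prime] (Γ L : Type) [Group Γ] [Finite Γ] [NormedField L] [MulSemiringAction Γ L]
    (ζ : L), Ctx p Γ L ζ → ∀ a : ℕ, ¬ p ∣ a → ∃ s : Γ, IsIn L s ∧ s • ζ = ζ ^ a

/-- CNT-C9. a reduction map exists.  [`κ = ResField L` of CFT/Local/Reps.lean, `rd z = red ⟨z, _⟩` if
`‖z‖ ≤ 1`, `0` otherwise.] -/
def Stmt_rdEx : Prop :=
  ∀ (p : ℕ) [Fact p.Prime] (L : Type) [NormedField L], IsLoc L → ‖(p : L)‖ = (p : ℝ)⁻¹ →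
    ∃ (κ : Type) (_ : Field κ) (_ : Finite κ) (_ : CharP κ p) (rd : L → κ), IsRd rd

/-! ## D. levels -/

/-- CNT-D1. the first level, from `KB`. -/
def Stmt_lev0 : Prop :=
  ∀ (p : ℕ) [Fact p.Prime] (k : Type) [Field k] [CharP k p] (Γ L : Type) [Group Γ] [Finite Γ]
    [NormedField L] [MulSemiringAction Γ L] (ζ : L), Ctx p Γ L ζ →
    ∀ (om η : Γ →* kˣ) (N : Subgroup Γ) (T : k →+ ZMod p), KData p ζ om η N T →
    ∀ e : ℕ, 0 < e → HVal p L N e → ∀ f ∈ Z1Char η, ∀ j : ℕ,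
    j * (p - 1) ^ 2 < p * (p - 2) * e + (p - 1) ^ 2 → LevJ ζ N T f e j

/-- CNT-D2. a level where the tame character (`m`) differs from `c_s` is not a jump.
[`x = (c_s - m) x'`, `β = s α' / α'^m`, `β^p - 1 = (s y' - m y' + O(y'^2)) / (1 + y')^m`, `HVal`.] -/
def Stmt_stepLin : Prop :=
  ∀ (p : ℕ) [Fact p.Prime] (k : Type) [Field k] [CharP k p] (Γ L : Type) [Group Γ] [Finite Γ]
    [NormedField L] [MulSemiringAction Γ L] (ζ : L), Ctx p Γ L ζ →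
    ∀ (om η : Γ →* kˣ) (N : Subgroup Γ) (T : k →+ ZMod p), KData p ζ om η N T →
    ∀ e : ℕ, 0 < e → HVal p L N e → ∀ f ∈ Z1Char η, ∀ (j : ℕ) (s : Γ) (m : ℕ), 1 ≤ j →
    (∀ y : L, (∀ n ∈ N, n • y = y) → ‖y‖ ^ e = ((p : ℝ)⁻¹) ^ j → ‖s • y - (m : L) * y‖ < ‖y‖) →
    cc om η s ≠ (m : k) → LevJ ζ N T f e j → LevJ ζ N T f e (j + 1)

/-- CNT-D3. a level divisible by `p` is not a jump.
[`y' = α^p - 1`, `‖y'‖^e = p^{-j}`; `z₀ = y'^u p^{w j/p}` (`1 = u p + w e`) has `‖z₀‖^p = ‖y'‖`; the residue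
field is perfect (`w₁ = v^{q_L/p}`): `‖y' - z^p‖ < ‖y'‖`, `z ∈ L^N`; replace `α` by `α (1 - z)`.] -/
def Stmt_stepPow : Prop :=
  ∀ (p : ℕ) [Fact p.Prime], p ≠ 2 → ∀ (k : Type) [Field k] [CharP k p] (Γ L : Type) [Group Γ] [Finite Γ]
    [NormedField L] [MulSemiringAction Γ L] (ζ : L), Ctx p Γ L ζ →
    ∀ (N : Subgroup Γ) (T : k →+ ZMod p) (e : ℕ), Nat.Coprime e p → HVal p L N e →
    ∀ (f : Γ → k) (j : ℕ), 1 ≤ j → p ∣ j → j * (p - 1) < p * e →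
    LevJ ζ N T f e j → LevJ ζ N T f e (j + 1)

/-- CNT-D4. at the top level `f` kills `I ∩ N`.  [C1, C2, `nondeg`.] -/
def Stmt_levEnd : Prop :=
  ∀ (p : ℕ) [Fact p.Prime] (k : Type) [Field k] [CharP k p] (Γ L : Type) [Group Γ] [Finite Γ]
    [NormedField L] [MulSemiringAction Γ L] (ζ : L), Ctx p Γ L ζ →
    ∀ (om η : Γ →* kˣ) (N : Subgroup Γ) (T : k →+ ZMod p), KData p ζ om η N T →
    ∀ (f : Γ → k) (e j : ℕ), 0 < e → p * e ≤ j * (p - 1) → LevJ ζ N T f e j →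
    ∀ σ ∈ N, IsIn L σ → f σ = 0

/-- CNT-D5. `p`-th powers of `L^N` have no leading term at a level prime to `p`.
[`b = 1 + z`; `‖z‖^{p-1} > 1/p`: `‖b^p - 1‖ = ‖z‖^p`; otherwise `‖b^p - 1‖ ≤ ‖p z‖`.] -/
def Stmt_wellDef : Prop :=
  ∀ (p : ℕ) [Fact p.Prime] (Γ L : Type) [Group Γ] [Finite Γ] [NormedField L] [MulSemiringAction Γ L]
    (ζ : L), Ctx p Γ L ζ → ∀ (N : Subgroup Γ) (e : ℕ), 0 < e → HVal p L N e →
    ∀ (j : ℕ) (b : L), 1 ≤ j → ¬ p ∣ j → j * (p - 1) < p * e → (∀ n ∈ N, n • b = b) →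
    ‖b ^ p - 1‖ ^ e ≤ ((p : ℝ)⁻¹) ^ j → ‖b ^ p - 1‖ ^ e ≤ ((p : ℝ)⁻¹) ^ (j + 1)

/-! ## E. the leading term map at a jump -/

/-- the hypotheses on the jump level `j₁` and the reference element `y₁` -/
structure Jump (p : ℕ) {Γ L : Type} [Group Γ] [NormedField L] [MulSemiringAction Γ L]
    (N : Subgroup Γ) (e j₁ : ℕ) (y₁ : L) : Prop where
  epos : 0 < e
  hval : HVal p L N e
  one_le : 1 ≤ j₁
  ndvd : ¬ p ∣ j₁
  lt : j₁ * (p - 1) < p * e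
  fix : ∀ n ∈ N, n • y₁ = y₁
  norm : ‖y₁‖ ^ e = ((p : ℝ)⁻¹) ^ j₁

/-- CNT-E1. the leading term does not depend on the Kummer generator.  [B3 (5), D5.] -/
def Stmt_psiUniq : Prop :=
  ∀ (p : ℕ) [Fact p.Prime] (k κ : Type) [Field k] [CharP k p] [Field κ] (Γ L : Type) [Group Γ]
    [Finite Γ] [NormedField L] [MulSemiringAction Γ L] (ζ : L), Ctx p Γ L ζ →
    ∀ (N : Subgroup Γ) (T : k →+ ZMod p) (rd : L → κ), IsRd rd →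
    ∀ (e j₁ : ℕ) (y₁ : L), Jump p N e j₁ y₁ → ∀ (f : Γ → k) (x : k) (α α' : L),
    IsKum ζ N T f x α → IsKum ζ N T f x α' → ‖α ^ p - 1‖ ≤ ‖y₁‖ → ‖α' ^ p - 1‖ ≤ ‖y₁‖ →
    rd ((α ^ p - 1) / y₁) = rd ((α' ^ p - 1) / y₁)

/-- CNT-E2. `Ψ` is additive.  [E1, B3 (1): `(1+y)(1+y') = 1 + y + y' + y y'`.] -/
def Stmt_psiAdd : Prop :=
  ∀ (p : ℕ) [Fact p.Prime] (k κ : Type) [Field k] [CharP k p] [Field κ] (Γ L : Type) [Group Γ]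
    [Finite Γ] [NormedField L] [MulSemiringAction Γ L] (ζ : L), Ctx p Γ L ζ →
    ∀ (N : Subgroup Γ) (T : k →+ ZMod p) (rd : L → κ), IsRd rd →
    ∀ (e j₁ : ℕ) (y₁ : L), Jump p N e j₁ y₁ → ∀ (f : Γ → k) (Ψ : k → κ),
    IsPsi ζ N T rd y₁ f Ψ → ∀ x x' : k, Ψ (x + x') = Ψ x + Ψ x'

/-- CNT-E3. equivariance: `Ψ (c_g x) = rd (g y₁ / y₁) * (Ψ x)^Q` if `g` induces `z ↦ z^Q` on the residue
field.  [E1, B2: `(g α)^p - 1 = g (y₁ z) = (g y₁ / y₁) y₁ (g z)`.] -/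
def Stmt_psiAct : Prop :=
  ∀ (p : ℕ) [Fact p.Prime] (k κ : Type) [Field k] [CharP k p] [Field κ] (Γ L : Type) [Group Γ]
    [Finite Γ] [NormedField L] [MulSemiringAction Γ L] (ζ : L), Ctx p Γ L ζ →
    ∀ (om η : Γ →* kˣ) (N : Subgroup Γ) (T : k →+ ZMod p), KData p ζ om η N T →
    ∀ (rd : L → κ), IsRd rd → ∀ (e j₁ : ℕ) (y₁ : L), Jump p N e j₁ y₁ → ∀ f ∈ Z1Char η,
    ∀ (Ψ : k → κ), IsPsi ζ N T rd y₁ f Ψ → ∀ (g : Γ) (Q : ℕ), ActsQ L g Q →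
    ∀ x : k, Ψ (cc om η g * x) = rd (g • y₁ / y₁) * Ψ x ^ Q

/-- CNT-E4. two cocycles with the same leading terms: the difference is one level higher.
[B3 (6): `(α/α')^p - 1 = (y - y')/(1 + y')`; `HVal`.] -/
def Stmt_psiInj : Prop :=
  ∀ (p : ℕ) [Fact p.Prime] (k κ : Type) [Field k] [CharP k p] [Field κ] (Γ L : Type) [Group Γ]
    [Finite Γ] [NormedField L] [MulSemiringAction Γ L] (ζ : L), Ctx p Γ L ζ →
    ∀ (N : Subgroup Γ) (T : k →+ ZMod p) (rd : L → κ), IsRd rd →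
    ∀ (e j₁ : ℕ) (y₁ : L), Jump p N e j₁ y₁ → ∀ (f f' : Γ → k) (Ψ : k → κ),
    IsPsi ζ N T rd y₁ f Ψ → IsPsi ζ N T rd y₁ f' Ψ → LevJ ζ N T (fun g => f g - f' g) e (j₁ + 1)

/-- CNT-E5. if no element of `L^N` has the norm of the level `j`, the level is not a jump. -/
def Stmt_stepVoid : Prop :=
  ∀ (p : ℕ) [Fact p.Prime] (k : Type) [Field k] [CharP k p] (Γ L : Type) [Group Γ]
    [NormedField L] [MulSemiringAction Γ L] (ζ : L), ζ ^ p = 1 → ∀ (N : Subgroup Γ) (T : k →+ ZMod p)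
    (e : ℕ), 0 < e → HVal p L N e → ∀ (f : Γ → k) (j : ℕ),
    (¬ ∃ y : L, (∀ n ∈ N, n • y = y) ∧ ‖y‖ ^ e = ((p : ℝ)⁻¹) ^ j) →
    LevJ ζ N T f e j → LevJ ζ N T f e (j + 1)

/-- CNT-E6. THE COUNT (pure algebra).  `F` a finite field with `q` elements, `k ⊇ F` finite, `κ ⊇ F`:
there are at most `#k` `F`-linear maps `Ψ : k → κ` with `Ψ (c x) = u (Ψ x)^q`.
[`𝔉 y = u y^q` is `F`-linear, `Ψ ∘ P(c) = P(𝔉) ∘ Ψ`.  `k₃ = F[c]`, `d = [k₃:F]`, `x₁..x_r` a basis of `k` over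
`k₃`: `Ψ` is determined by the `Ψ x_i`, which are roots of the polynomial `minpoly(c)(𝔉)(Y)` of degree
`q^d` with leading coefficient a power of `u`.] -/
def Stmt_countSemi : Prop :=
  ∀ (F k κ : Type) [Field F] [Finite F] [Field k] [Finite k] [Field κ] [Finite κ] [Algebra F k]
    [Algebra F κ] (c : k) (u : κ), u ≠ 0 →
    Nat.card {Ψ : k →ₗ[F] κ // ∀ x, Ψ (c * x) = u * Ψ x ^ Nat.card F} ≤ Nat.card k

/-- the set of leading term maps, `Q = p` -/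
def PsiSet1 (p : ℕ) (k κ : Type) [Field k] [Field κ] (c : k) (u : κ) : Set (k → κ) :=
  {Ψ | (∀ x x', Ψ (x + x') = Ψ x + Ψ x') ∧ ∀ x, Ψ (c * x) = u * Ψ x ^ p}

/-- CNT-E7. E6 for `F = 𝔽_p`. -/
def Stmt_count1 : Prop :=
  ∀ (p : ℕ) [Fact p.Prime] (k κ : Type) [Field k] [Finite k] [CharP k p] [Field κ] [Finite κ]
    [CharP κ p] (c : k) (u : κ), u ≠ 0 → Nat.card (PsiSet1 p k κ c u) ≤ Nat.card k

/-- the set of leading term maps, `Q = p²` -/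
def PsiSet2 (p : ℕ) (k κ : Type) [Field k] [Field κ] (c c' : k) (t u : κ) : Set (k → κ) :=
  {Ψ | (∀ x x', Ψ (x + x') = Ψ x + Ψ x') ∧ (∀ x, Ψ (c * x) = t * Ψ x) ∧
    ∀ x, Ψ (c' * x) = u * Ψ x ^ (p ^ 2)}

/-- CNT-E8. E6 for `F = 𝔽_{p²}`.
[If some `Ψ ≠ 0`: `P(c) = 0 ↔ P(t) = 0` for `P ∈ 𝔽_p[X]`; `P₀ = X² - (t + t^p) X + t^{p+1} ∈ 𝔽_p[X]` is
irreducible; `F = AdjoinRoot P₀` has `p²` elements and maps to `k` (`root ↦ c`) and `κ` (`root ↦ t`); every `Ψ`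
is `F`-linear.] -/
def Stmt_count2 : Prop :=
  ∀ (p : ℕ) [Fact p.Prime] (k κ : Type) [Field k] [Finite k] [CharP k p] [Field κ] [Finite κ]
    [CharP κ p] (c c' : k) (t u : κ), u ≠ 0 → t ^ p ≠ t → t ^ (p ^ 2) = t →
    Nat.card (PsiSet2 p k κ c c' t u) ≤ Nat.card k

end Fermat.Agent.TW56.Count

end
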