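/-
TEAM TW56 -> S56, block COUNT (architect helper68).  File 2: the abstract main theorems, the case `x2`,
the instantiation at `Gal(M/ℚ_p)` and the final statement.
-/
import Fermat.Agent.TW56.Count.Interface

set_option autoImplicit false

noncomputable section

namespace Fermat.Agent.TW56.Count

open Fermat.Agent.CFT.Local Fermat.Agent.TW56.Flat

/-- CNT-B0. the cyclotomic character.  [`g ζ` is a `p`-th root of unity `≠ 1`, `ζ` is primitive.] -/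
def Stmt_cycFix : Prop :=
  ∀ (p : ℕ) [Fact p.Prime] (k : Type) [Field k] [CharP k p] (Γ L : Type) [Group Γ]
    [NormedField L] [MulSemiringAction Γ L] (ζ : L), ζ ≠ 1 → ζ ^ p = 1 → ∀ om : Γ →* kˣ, IsCyc ζ om →
    (∀ g : Γ, ∃ a : ℕ, ¬ p ∣ a ∧ g • ζ = ζ ^ a ∧ ((om g : kˣ) : k) = (a : k)) ∧
    (∀ g : Γ, om g = 1 → g • ζ = ζ) ∧ (∀ g : Γ, om g ^ (p - 1) = 1)

/-! ## F. `x1`, `x1'`, `hom2` in the abstract context -/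

/-- CNT-F0. characters with values in `kˣ` kill the wild inertia; if `φ` induces `z ↦ z^Q` then
`η (φ s φ⁻¹) = η s ^ Q` on inertia.  [`wildP`: `u^(p^m) = 1`, so `(η u - 1)^(p^m) = 0`; `frobConj`.] -/
def Stmt_charTame : Prop :=
  ∀ (p : ℕ) [Fact p.Prime] (k : Type) [Field k] [CharP k p] (Γ L : Type) [Group Γ] [Finite Γ]
    [NormedField L] [MulSemiringAction Γ L], LocAct Γ L → ‖(p : L)‖ = (p : ℝ)⁻¹ →
    ∀ (G' : Subgroup Γ) (η : G' →* kˣ),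
    (∀ u : G', IsWild L (u : Γ) → η u = 1) ∧
    ∀ (φ : Γ) (Q : ℕ), ActsQ L φ Q → ∀ s s' : G', IsIn L (s : Γ) → (s' : Γ) = φ * s * φ⁻¹ →
      η s' = η s ^ Q

/-- CNT-F1. the core of `x1` and `hom2`: no jump at the level `‖y‖ = 1/p`.
[`N = ker η ⊓ ker ω`, `e = p - 1`; C6, D1 (`j = p - 1`), D2 (`m = 1`: `y = p u`), D4 (`j = p`); A6.] -/
def Stmt_noJump1 : Prop :=
  ∀ (p : ℕ) [Fact p.Prime], p ≠ 2 → ∀ (k : Type) [Field k] [Finite k] [CharP k p] (Γ L : Type) [Group Γ]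
    [Finite Γ] [NormedField L] [MulSemiringAction Γ L] (ζ : L), Ctx p Γ L ζ →
    ∀ (om η : Γ →* kˣ), IsCyc ζ om → (∀ s : Γ, IsIn L s → η s ^ (p - 1) = 1) →
    (∃ s : Γ, IsIn L s ∧ η s ≠ om s) → ∀ f ∈ Z1Char η, ∀ σ : Γ, IsIn L σ → η σ = 1 → om σ = 1 →
    f σ = 0

/-- CNT-F2. `hom2` : additive maps kill inertia.
[F1 with `η = 1` (C8 with `a = 2`: `ω s = 2 ≠ 1`); `s^(p-1) ∈ I ∩ ker ω`, so `(p-1) f s = 0`.] -/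
def Stmt_hom2abs : Prop :=
  ∀ (p : ℕ) [Fact p.Prime], p ≠ 2 → ∀ (k : Type) [Field k] [Finite k] [CharP k p] (Γ L : Type) [Group Γ]
    [Finite Γ] [NormedField L] [MulSemiringAction Γ L] (ζ : L), Ctx p Γ L ζ →
    ∀ (om : Γ →* kˣ), IsCyc ζ om → ∀ f ∈ Z1Char (1 : Γ →* kˣ), ∀ s : Γ, IsIn L s → f s = 0

/-- CNT-F3. `x1`.  [`η s^(p-1) = 1` on inertia by F0 (`G' = ⊤`, `Q = p`, `η` is a class function).
`η = 1`: F2 + A5.  `η ≠ 1`: F1, A2 (`Γ/I` abelian by `GenBy`, `I` normal), A1/A3 with `X = Unit`, A4.] -/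
def Stmt_X1abs : Prop :=
  ∀ (p : ℕ) [Fact p.Prime], p ≠ 2 → ∀ (k : Type) [Field k] [Finite k] [CharP k p] (Γ L : Type) [Group Γ]
    [Finite Γ] [NormedField L] [MulSemiringAction Γ L] (ζ : L), Ctx p Γ L ζ →
    ∀ (om : Γ →* kˣ) (φ : Γ), IsCyc ζ om → ActsQ L φ p → GenBy L φ →
    ∀ η : Γ →* kˣ, (∃ s : Γ, IsIn L s ∧ η s ≠ om s) → Nat.card (Z1Char η) ≤ Nat.card k

/-- CNT-F4. `x1'`.  [If `η ≠ ω` somewhere on inertia: F3.  Otherwise `η ≠ 1` (C8).  `N = ker η ⊓ ker ω`,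
`e = j₁ = p - 1`, `y₁ = p`; `X = PsiSet1 p k κ (cc om η φ) 1` (E7); `R f Ψ = IsPsi .. f Ψ`: existence by D1,
membership by E2, E3 (`φ p / p = 1`); same `Ψ`: E4, D4 (`j = p`), A2; A3.] -/
def Stmt_X1'abs : Prop :=
  ∀ (p : ℕ) [Fact p.Prime], p ≠ 2 → ∀ (k : Type) [Field k] [Finite k] [CharP k p] (Γ L : Type) [Group Γ]
    [Finite Γ] [NormedField L] [MulSemiringAction Γ L] (ζ : L), Ctx p Γ L ζ →
    ∀ (om : Γ →* kˣ) (φ : Γ), IsCyc ζ om → ActsQ L φ p → GenBy L φ →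
    ∀ η : Γ →* kˣ, Nat.card (Z1Char η) ≤ Nat.card k ^ 2

/-! ## G. `x2` in the abstract context (`Γ = G'`, residue field of the base `𝔽_{p²}`) -/

/-- the context of `x2` -/
structure X2Ctx (p : ℕ) {Γ L k : Type} [Group Γ] [NormedField L] [MulSemiringAction Γ L] [Field k]
    (ζ : L) (om χ χ' : Γ →* kˣ) (φ : Γ) : Prop where
  cyc : IsCyc ζ om
  mul : ∀ g, χ g * χ' g = om g
  pow : ∀ s : Γ, IsIn L s → χ' s = χ s ^ p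
  pow' : ∀ s : Γ, IsIn L s → χ s = χ' s ^ p
  ne : ∃ s : Γ, IsIn L s ∧ χ s ≠ χ' s
  frob : ActsQ L φ (p ^ 2)
  gen : GenBy L φ

/-- CNT-G1. bookkeeping: `N = ker χ ⊓ ker χ'`, `η = χ/χ'`.
[`c_s = 1` on inertia would give `χ^(2p) = 1`, `χ^2 = 1`, `ω = χ^(p+1) = 1` on inertia: C8.] -/
def Stmt_x2Data : Prop :=
  ∀ (p : ℕ) [Fact p.Prime], p ≠ 2 → ∀ (k : Type) [Field k] [Finite k] [CharP k p] (Γ L : Type) [Group Γ]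
    [Finite Γ] [NormedField L] [MulSemiringAction Γ L] (ζ : L), Ctx p Γ L ζ →
    ∀ (om χ χ' : Γ →* kˣ) (φ : Γ), X2Ctx p ζ om χ χ' φ →
    ∀ T : k →+ ZMod p, (∀ c : k, (∀ x : k, T (x * c) = 0) → c = 0) →
    KData p ζ om (χ / χ') (χ.ker ⊓ χ'.ker) T ∧ (∀ s : Γ, IsIn L s → s ^ (p ^ 2 - 1) ∈ χ.ker ⊓ χ'.ker) ∧
    (∀ s : Γ, IsIn L s → (χ / χ') s ^ (p + 1) = 1) ∧ (∃ s : Γ, IsIn L s ∧ cc om (χ / χ') s ≠ 1) ∧
    (∃ g, (χ / χ') g ≠ 1)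

/-- CNT-G2. the levels `j` with `(p-1) ∤ (j-2)` are not jumps.
[`a` a primitive root mod `p`, `s ζ = ζ^a` (C8), `s' = s^(p+1)`, `m = a^j`: D2.  `‖y^(p+1)‖^(p-1) = p^{-j}`: C7 for
`y^(p+1)`, then C5.  `c_{s'} = ω(s)^(p+1)/η(s)^(p+1) = a^2 ≠ a^j` in `k`.] -/
def Stmt_x2Step : Prop :=
  ∀ (p : ℕ) [Fact p.Prime], p ≠ 2 → ∀ (k : Type) [Field k] [Finite k] [CharP k p] (Γ L : Type) [Group Γ]
    [Finite Γ] [NormedField L] [MulSemiringAction Γ L] (ζ : L), Ctx p Γ L ζ →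
    ∀ (om χ χ' : Γ →* kˣ) (φ : Γ), X2Ctx p ζ om χ χ' φ →
    ∀ T : k →+ ZMod p, (∀ c : k, (∀ x : k, T (x * c) = 0) → c = 0) → ∀ f ∈ Z1Char (χ / χ'),
    ∀ j : ℕ, 2 ≤ j → ¬ (p - 1) ∣ (j - 2) → LevJ ζ (χ.ker ⊓ χ'.ker) T f (p ^ 2 - 1) j →
    LevJ ζ (χ.ker ⊓ χ'.ker) T f (p ^ 2 - 1) (j + 1)

/-- CNT-G3. the level `‖y‖ = 1/p` is not a jump.  [D2 with `m = 1`, `y = p u`, `c_s ≠ 1` from G1.] -/
def Stmt_x2One : Prop :=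
  ∀ (p : ℕ) [Fact p.Prime], p ≠ 2 → ∀ (k : Type) [Field k] [Finite k] [CharP k p] (Γ L : Type) [Group Γ]
    [Finite Γ] [NormedField L] [MulSemiringAction Γ L] (ζ : L), Ctx p Γ L ζ →
    ∀ (om χ χ' : Γ →* kˣ) (φ : Γ), X2Ctx p ζ om χ χ' φ →
    ∀ T : k →+ ZMod p, (∀ c : k, (∀ x : k, T (x * c) = 0) → c = 0) → ∀ f ∈ Z1Char (χ / χ'),
    LevJ ζ (χ.ker ⊓ χ'.ker) T f (p ^ 2 - 1) (p ^ 2 - 1) →
    LevJ ζ (χ.ker ⊓ χ'.ker) T f (p ^ 2 - 1) (p ^ 2)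

/-- CNT-G4. every cocycle reaches the level `p² + 1`.
[`p ≥ 5`: D1 with `j = p² - 2`, then G2 for `j = p²-2, p²-1, p²`.  `p = 3`: D1 with `j = 6`, D3 (`j = 6`), G2 (`7`),
G3 (`8`), G2 (`9`).] -/
def Stmt_x2Up : Prop :=
  ∀ (p : ℕ) [Fact p.Prime], p ≠ 2 → ∀ (k : Type) [Field k] [Finite k] [CharP k p] (Γ L : Type) [Group Γ]
    [Finite Γ] [NormedField L] [MulSemiringAction Γ L] (ζ : L), Ctx p Γ L ζ →
    ∀ (om χ χ' : Γ →* kˣ) (φ : Γ), X2Ctx p ζ om χ χ' φ →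
    ∀ T : k →+ ZMod p, (∀ c : k, (∀ x : k, T (x * c) = 0) → c = 0) → ∀ f ∈ Z1Char (χ / χ'),
    LevJ ζ (χ.ker ⊓ χ'.ker) T f (p ^ 2 - 1) (p ^ 2 + 1)

/-- CNT-G5. a cocycle of level `p² + 2` kills `I ∩ N`.
[G2 for `p²+2 ≤ j < p²+p` (`p² ≤ j - 2 ≤ p²+p-3` is not divisible by `p-1`), D4 with `j = p²+p`.] -/
def Stmt_x2Down : Prop :=
  ∀ (p : ℕ) [Fact p.Prime], p ≠ 2 → ∀ (k : Type) [Field k] [Finite k] [CharP k p] (Γ L : Type) [Group Γ]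
    [Finite Γ] [NormedField L] [MulSemiringAction Γ L] (ζ : L), Ctx p Γ L ζ →
    ∀ (om χ χ' : Γ →* kˣ) (φ : Γ), X2Ctx p ζ om χ χ' φ →
    ∀ T : k →+ ZMod p, (∀ c : k, (∀ x : k, T (x * c) = 0) → c = 0) → ∀ f ∈ Z1Char (χ / χ'),
    LevJ ζ (χ.ker ⊓ χ'.ker) T f (p ^ 2 - 1) (p ^ 2 + 2) →
    ∀ σ ∈ χ.ker ⊓ χ'.ker, IsIn L σ → f σ = 0

/-- CNT-G6. the tame character at the level `p² + 1` has values in `𝔽_{p²}`, not all in `𝔽_p`.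
[`(s y₁/y₁)^e ≡ s^e y₁ / y₁ = 1` (C5).  If `t^(p-1) = 1` for all `s`: C5 + C4 give `‖y₁‖^(p-1) = p^{-i}`, so
`i (p+1) = p² + 1`, `(p+1) ∣ 2`.] -/
def Stmt_x2Theta : Prop :=
  ∀ (p : ℕ) [Fact p.Prime], p ≠ 2 → ∀ (κ : Type) [Field κ] (Γ L : Type) [Group Γ]
    [Finite Γ] [NormedField L] [MulSemiringAction Γ L] (ζ : L), Ctx p Γ L ζ →
    ∀ (N : Subgroup Γ), (∀ s : Γ, IsIn L s → s ^ (p ^ 2 - 1) ∈ N) → ∀ (rd : L → κ), IsRd rd →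
    ∀ y₁ : L, (∀ n ∈ N, n • y₁ = y₁) → ‖y₁‖ ^ (p ^ 2 - 1) = ((p : ℝ)⁻¹) ^ (p ^ 2 + 1) →
    (∀ s : Γ, IsIn L s → rd (s • y₁ / y₁) ^ (p ^ 2) = rd (s • y₁ / y₁)) ∧
    ∃ s : Γ, IsIn L s ∧ rd (s • y₁ / y₁) ^ p ≠ rd (s • y₁ / y₁)

/-- CNT-G7. `x2`.
[`N = ker χ ⊓ ker χ'`, `η = χ/χ'`, `e = p²-1`, `j₁ = p²+1`.  If no `y₁ ∈ L^N` has `‖y₁‖^e = p^{-j₁}`: G4, E5, G5, A2, A3 with
`X = Unit`.  Otherwise `s₁` from G6, `X = PsiSet2 p k κ (cc s₁) (cc φ) (rd (s₁ y₁/y₁)) (rd (φ y₁/y₁))` (E8), `R = IsPsi`: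
existence by G4, membership by E2, E3 (`Q = 1`, `Q = p²`), same `Ψ`: E4, G5, A2; A3, A4.] -/
def Stmt_X2abs : Prop :=
  ∀ (p : ℕ) [Fact p.Prime], p ≠ 2 → ∀ (k : Type) [Field k] [Finite k] [CharP k p] (Γ L : Type) [Group Γ]
    [Finite Γ] [NormedField L] [MulSemiringAction Γ L] (ζ : L), Ctx p Γ L ζ →
    ∀ (om χ χ' : Γ →* kˣ) (φ : Γ), X2Ctx p ζ om χ χ' φ →
    Nat.card (Z1Char (χ / χ')) ≤ Nat.card k ^ 2

/-! ## H. instantiation -/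

/-- CNT-H1. the context for `Gal(M/ℚ_p)`.
[`Flat.Stmt_RamInst` (landed: `LocAct`), `Flat.Stmt_UnramFix` + `InertSub_iff_restrict`; `KB p M` for the fixed field
of `N`, seen in `IF p` (`(IntermediateField.fixedField N).map M.val` or `IntermediateField.lift`).] -/
def Stmt_ctxM : Prop :=
  ∀ (p : ℕ) [Fact p.Prime] (M : IF p) [FiniteDimensional ℚ_[p] M] [Normal ℚ_[p] M], KB p M →
    ∀ ζ : M, ζ ≠ 1 → ζ ^ p = 1 → Ctx p (GM p M) M ζ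

/-- CNT-H2. the context restricts to subgroups containing the inertia group. -/
def Stmt_ctxSub : Prop :=
  ∀ (p : ℕ) (Γ L : Type) [Group Γ] [Finite Γ] [NormedField L] [MulSemiringAction Γ L] (ζ : L),
    Ctx p Γ L ζ → ∀ G' : Subgroup Γ, (∀ s : Γ, IsIn L s → s ∈ G') → Ctx p G' L ζ

/-- CNT-H3. a Frobenius element of `Gal(M/ℚ_p)`.
[`Stmt_frob` of Tame.lean and `resCard (FixedPoints.subfield (GM p M) M) = p` (the fixed field is `ℚ_p`,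
every `x ∈ ℤ_p` is congruent to one of `0, .., p-1`).] -/
def Stmt_frobM : Prop :=
  ∀ (p : ℕ) [Fact p.Prime] (M : IF p) [FiniteDimensional ℚ_[p] M] [Normal ℚ_[p] M],
    ∃ φ : GM p M, ActsQ M φ p ∧ GenBy M φ

/-- CNT-H4. the Frobenius of a subgroup of index `2` containing inertia. -/
def Stmt_frobSub : Prop :=
  ∀ (Γ L : Type) [Group Γ] [Finite Γ] [NormedField L] [MulSemiringAction Γ L], LocAct Γ L →
    ∀ (φ : Γ) (Q : ℕ), ActsQ L φ Q → GenBy L φ → ∀ G' : Subgroup Γ, (∀ s : Γ, IsIn L s → s ∈ G') →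
    G'.index = 2 → φ ∉ G' ∧ ∃ φ' : G', (φ' : Γ) = φ ^ 2 ∧ ActsQ L φ' (Q ^ 2) ∧ GenBy L φ'

/-- CNT-H5. `χ' = χ^p` and `χ = χ'^p` on inertia when `χ' = χ^ψ`, `ψ ∉ G'`.
[`ψ = φ^n s₁` with `n` odd; F0: `χ (φ s φ⁻¹) = χ s ^ p`; `χ (φ² s φ⁻²) = χ s` since `φ² ∈ G'`.] -/
def Stmt_chiP : Prop :=
  ∀ (p : ℕ) [Fact p.Prime] (k : Type) [Field k] [CharP k p] (Γ L : Type) [Group Γ] [Finite Γ]
    [NormedField L] [MulSemiringAction Γ L], LocAct Γ L → ‖(p : L)‖ = (p : ℝ)⁻¹ →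
    ∀ (φ : Γ), ActsQ L φ p → GenBy L φ → ∀ G' : Subgroup Γ, (∀ s : Γ, IsIn L s → s ∈ G') →
    G'.index = 2 → ∀ ψ : Γ, ψ ∉ G' → ∀ χ χ' : G' →* kˣ,
    (∀ g h : G', (h : Γ) = ψ * g * ψ⁻¹ → χ' g = χ h) →
    ∀ s : G', IsIn L (s : Γ) → χ' s = χ s ^ p ∧ χ s = χ' s ^ p

/-- CNT-H6. the abstract form of `LocAx`. -/
def Stmt_locAxAbs : Prop :=
  ∀ (p : ℕ) [Fact p.Prime], p ≠ 2 → ∀ (k : Type) [Field k] [Finite k] [CharP k p] (Γ L : Type) [Group Γ]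
    [Finite Γ] [NormedField L] [MulSemiringAction Γ L] (ζ : L), Ctx p Γ L ζ →
    ∀ (om : Γ →* kˣ) (φ : Γ) (I : Subgroup Γ), IsCyc ζ om → ActsQ L φ p → GenBy L φ →
    (∀ g, g ∈ I ↔ IsIn L g) → LocAx p k Γ I om

end Fermat.Agent.TW56.Count

end
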