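/-
TEAM TW56 -> S56, block COUNT: CNT-C2 (AS), task 1617.
-/
import Fermat.Agent.TW56.Count.Interface2

set_option autoImplicit false

noncomputable section

namespace Fermat.Agent.TW56.Count

open Fermat.Agent.CFT.Local Fermat.Agent.TW56.Flat

namespace AS

/-- `(1 + z)^p - 1 = z^p + p z w` with `‖w‖ ≤ 1` when `‖z‖ ≤ 1`. -/
theorem expand {L : Type} [NormedField L] [IsUltrametricDist L] {p : ℕ} (hp : p.Prime) (z : L)
    (hz : ‖z‖ ≤ 1) : ∃ w : L, ‖w‖ ≤ 1 ∧ (z + 1) ^ p - 1 = z ^ p + (p : L) * z * w := by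
  refine ⟨∑ k ∈ Finset.Ioo 0 p, z ^ (k - 1) * 1 ^ (p - k - 1) * ((p.choose k / p : ℕ) : L), ?_, ?_⟩
  · refine IsUltrametricDist.norm_sum_le_of_forall_le_of_nonneg zero_le_one ?_
    intro k _
    rw [norm_mul, norm_mul, norm_pow, norm_pow, norm_one, one_pow, mul_one]
    exact mul_le_one₀ (pow_le_one₀ (norm_nonneg _) hz) (norm_nonneg _)
      (IsUltrametricDist.norm_natCast_le_one L _)
  · rw [add_pow_prime_eq hp z 1]
    ring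

/-- `‖α^p - 1‖ ≤ ρ^p`, `ρ^(p-1) = ‖p‖`, `0 < ρ < 1` imply `‖α - 1‖ ≤ ρ`. -/
theorem close {L : Type} [NormedField L] [IsUltrametricDist L] {p : ℕ} (hp : p.Prime) (α : L)
    (ρ : ℝ) (h0 : 0 < ρ) (h1 : ρ < 1) (hρ : ρ ^ (p - 1) = ‖(p : L)‖) (h : ‖α ^ p - 1‖ ≤ ρ ^ p) :
    ‖α‖ = 1 ∧ ‖α - 1‖ ≤ ρ := by
  have hp0 : p ≠ 0 := hp.ne_zero
  have hlt : ‖α ^ p - 1‖ < 1 := lt_of_le_of_lt h (pow_lt_one₀ h0.le h1 hp0)
  -- `‖α‖ = 1`
  have hαp : ‖α ^ p‖ = 1 := by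
    have e : α ^ p = (α ^ p - 1) + 1 := by ring
    rw [e, IsUltrametricDist.norm_add_eq_max_of_norm_ne_norm (by rw [norm_one]; exact hlt.ne),
      norm_one, max_eq_right hlt.le]
  have hα : ‖α‖ = 1 := by
    rw [norm_pow] at hαp
    exact (pow_eq_one_iff_of_nonneg (norm_nonneg _) hp0).1 hαp
  refine ⟨hα, ?_⟩
  have hz : ‖α - 1‖ ≤ 1 := by
    rw [sub_eq_add_neg]
    refine (IsUltrametricDist.norm_add_le_max _ _).trans ?_
    rw [hα, norm_neg, norm_one, max_self]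
  obtain ⟨w, hw, hE⟩ := expand hp (α - 1) hz
  rw [sub_add_cancel] at hE
  by_contra hcon
  rw [not_le] at hcon
  set z := α - 1 with hzdef
  have hzpos : 0 < ‖z‖ := h0.trans hcon
  have hsplit : ‖z‖ ^ p = ‖z‖ * ‖z‖ ^ (p - 1) := by
    rw [← pow_succ', Nat.sub_add_cancel hp.one_le]
  have hp1 : p - 1 ≠ 0 := by have := hp.two_le; omega
  have hsmall : ‖(p : L) * z * w‖ < ‖z ^ p‖ := by
    rw [norm_mul, norm_mul, norm_pow, hsplit, ← hρ]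
    have h2 : ρ ^ (p - 1) < ‖z‖ ^ (p - 1) := pow_lt_pow_left₀ hcon h0.le hp1
    calc ρ ^ (p - 1) * ‖z‖ * ‖w‖ ≤ ρ ^ (p - 1) * ‖z‖ * 1 := by
          exact mul_le_mul_of_nonneg_left hw (by positivity)
      _ = ‖z‖ * ρ ^ (p - 1) := by ring
      _ < ‖z‖ * ‖z‖ ^ (p - 1) := mul_lt_mul_of_pos_left h2 hzpos
  have hnorm : ‖α ^ p - 1‖ = ‖z‖ ^ p := by
    rw [hE, IsUltrametricDist.norm_add_eq_max_of_norm_ne_norm hsmall.ne', max_eq_left hsmall.le,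
      norm_pow]
  rw [hnorm] at h
  exact absurd h (not_le.2 (pow_lt_pow_left₀ hcon h0.le hp0))

end AS

/-- CNT-C2 (AS). -/
theorem stmt_AS (h1 : Stmt_normPi) : Stmt_AS := by
  intro p _ Γ L _ _ _ _ hL hnp ζ hζ1 hζp α s i hs hsζ hα hsα
  have : IsUltrametricDist L := hL.loc.ultra
  have hp : p.Prime := Fact.out
  obtain ⟨hπ, -, hπ3⟩ := h1 p L hL.loc.ultra hnp ζ hζ1 hζp
  have hπ0 : 0 < ‖ζ - 1‖ := norm_pos_iff.2 (sub_ne_zero.2 hζ1)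
  have hp1 : p - 1 ≠ 0 := by have := hp.two_le; omega
  have hπ1 : ‖ζ - 1‖ < 1 := by
    by_contra hcon
    rw [not_lt] at hcon
    have h2 : (1 : ℝ) ≤ ‖ζ - 1‖ ^ (p - 1) := one_le_pow₀ hcon
    rw [hπ] at h2
    have h3 : ((p : ℝ))⁻¹ < 1 := inv_lt_one_of_one_lt₀ (by exact_mod_cast hp.one_lt)
    linarith
  obtain ⟨hα1, hz⟩ := AS.close hp α ‖ζ - 1‖ hπ0 hπ1 (by rw [hπ, hnp]) hα
  by_cases hi : ζ ^ i = 1
  · rw [hsα, hi, one_mul]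
  exfalso
  have hπne : ζ - 1 ≠ 0 := sub_ne_zero.2 hζ1
  -- `y = (α - 1) / π`
  have hy : ‖(α - 1) / (ζ - 1)‖ ≤ 1 := by
    rw [norm_div]
    exact div_le_one_of_le₀ hz (norm_nonneg _)
  have hsy := hs _ hy
  have hsπ : s • (ζ - 1) = ζ - 1 := by rw [smul_sub, hsζ, smul_one]
  have e1 : s • α - α = (ζ - 1) * (s • ((α - 1) / (ζ - 1)) - (α - 1) / (ζ - 1)) := by
    rw [smul_div₀', hsπ, smul_sub, smul_one]
    field_simp
    ring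
  have e2 : s • α - α = (ζ ^ i - 1) * α := by rw [hsα]; ring
  have n1 : ‖s • α - α‖ < ‖ζ - 1‖ := by
    rw [e1, norm_mul]
    calc ‖ζ - 1‖ * ‖s • ((α - 1) / (ζ - 1)) - (α - 1) / (ζ - 1)‖ < ‖ζ - 1‖ * 1 :=
          mul_lt_mul_of_pos_left hsy hπ0
      _ = ‖ζ - 1‖ := mul_one _
  have n2 : ‖s • α - α‖ = ‖ζ - 1‖ := by
    rw [e2, norm_mul, hα1, mul_one, hπ3 i hi]
  exact absurd n2 n1.ne

end Fermat.Agent.TW56.Count

end
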