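/-
TEAM TW56 -> S56, block COUNT, task CNT-F0 (helper83): characters with values in `kˣ` kill the wild
inertia, and `η (φ s φ⁻¹) = η s ^ Q` on inertia.
-/
import Fermat.Agent.TW56.Count.Interface2

set_option autoImplicit false

noncomputable section

namespace Fermat.Agent.TW56.Count

open Fermat.Agent.CFT.Local Fermat.Agent.TW56.Flat

namespace CharTame

/-- in characteristic `p` there is no `p`-power torsion in `kˣ`. -/
theorem unit_eq_one (p : ℕ) [Fact p.Prime] {k : Type} [Field k] [CharP k p] (x : kˣ) (m : ℕ)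
    (h : x ^ p ^ m = 1) : x = 1 := by
  apply Units.ext
  have h1 : (x : k) ^ p ^ m = 1 := by
    rw [← Units.val_pow_eq_pow_val, h, Units.val_one]
  have h2 : ((x : k) - 1) ^ p ^ m = 0 := by
    rw [sub_pow_char_pow, h1, one_pow, sub_self]
  rw [Units.val_one]
  exact sub_eq_zero.1 (pow_eq_zero_iff (pow_ne_zero _ (Fact.out : p.Prime).ne_zero) |>.1 h2)

end CharTame

/-- CNT-F0. -/
theorem stmt_charTame (hw : Stmt_wildP) (hc : Stmt_frobConj) : Stmt_charTame := by
  intro p _ k _ _ Γ L _ _ _ _ hL hp G' η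
  have hpp : p.Prime := Fact.out
  have hp1 : ‖(p : L)‖ < 1 := by
    rw [hp]
    exact inv_lt_one_of_one_lt₀ (by exact_mod_cast hpp.one_lt)
  have hwild : ∀ u : G', IsWild L (u : Γ) → η u = 1 := by
    intro u hu
    obtain ⟨m, hm⟩ := hw Γ L hL p hpp hp1 (u : Γ) hu
    apply CharTame.unit_eq_one p (η u) m
    rw [← map_pow]
    have : u ^ p ^ m = 1 := Subtype.ext (by rw [Subgroup.coe_pow, hm, Subgroup.coe_one])
    rw [this, map_one]
  refine ⟨hwild, ?_⟩
  intro φ Q hφ s s' hs hs'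
  obtain ⟨u, hu, hconj⟩ := hc Γ L hL φ Q hφ (s : Γ) hs
  have hu' : (((s ^ Q)⁻¹ * s' : G') : Γ) = u := by
    rw [Subgroup.coe_mul, Subgroup.coe_inv, Subgroup.coe_pow, hs', hconj, inv_mul_cancel_left]
  have h1 : η ((s ^ Q)⁻¹ * s') = 1 := hwild _ (by rw [hu']; exact hu)
  rw [map_mul, map_inv, map_pow, inv_mul_eq_one] at h1
  exact h1.symm

end Fermat.Agent.TW56.Count

end
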