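/-
TEAM TW56 -> S56, block COUNT, CNT-H5 : `χ' = χ^p` and `χ = χ'^p` on inertia.
-/
import Fermat.Agent.TW56.Count.Interface2

set_option autoImplicit false

noncomputable section

namespace Fermat.Agent.TW56.Count

open Fermat.Agent.CFT.Local Fermat.Agent.TW56.Flat

/-- CNT-H5. -/
theorem stmt_chiP (h1 : Stmt_tameSub) (hc : Stmt_charTame) : Stmt_chiP := by
  intro p _ k _ _ Γ L _ _ _ _ hL hp φ hφ hgen G' hI hidx ψ hψ χ χ' hχ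
  obtain ⟨I, P, hIn, -, -, hImem, -⟩ := h1 Γ L hL
  have hconj : ∀ (g s : Γ), IsIn L s → IsIn L (g * s * g⁻¹) := fun g s hs =>
    (hImem _).1 (hIn.conj_mem s ((hImem s).2 hs) g)
  have hφG : φ ∉ G' := by
    intro hφ'
    have htop : G' = ⊤ := by
      rw [eq_top_iff]
      intro g _
      obtain ⟨n, s, hs, rfl⟩ := hgen g
      exact G'.mul_mem (G'.pow_mem hφ' n) (hI s hs)
    rw [htop, Subgroup.index_top] at hidx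
    norm_num at hidx
  have key := (hc p k Γ L hL hp G' χ).2 φ p hφ
  have hg0 : φ⁻¹ * ψ ∈ G' := by
    rw [Subgroup.mul_mem_iff_of_index_two hidx, Subgroup.inv_mem_iff]
    exact ⟨fun h => absurd h hφG, fun h => absurd h hψ⟩
  have hφ2 : φ * φ ∈ G' := by
    rw [Subgroup.mul_mem_iff_of_index_two hidx]
  -- conjugation inside `G'` does not change `χ`
  have hcl : ∀ g s : G', χ (g * s * g⁻¹) = χ s := by
    intro g s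
    rw [map_mul, map_mul, map_inv, mul_comm (χ g), mul_assoc, mul_inv_cancel, mul_one]
  -- the first claim
  have c1 : ∀ s : G', IsIn L (s : Γ) → χ' s = χ s ^ p := by
    intro s hs
    have hs1 : IsIn L (((⟨φ⁻¹ * ψ, hg0⟩ : G') * s * (⟨φ⁻¹ * ψ, hg0⟩ : G')⁻¹ : G') : Γ) :=
      hconj _ _ hs
    have hh : φ * (((⟨φ⁻¹ * ψ, hg0⟩ : G') * s * (⟨φ⁻¹ * ψ, hg0⟩ : G')⁻¹ : G') : Γ) * φ⁻¹ ∈ G' :=
      hI _ (hconj _ _ hs1)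
    have e1 := key _ ⟨_, hh⟩ hs1 rfl
    have e3 : χ' s = χ ⟨_, hh⟩ := hχ s ⟨_, hh⟩ (by
      show φ * ((φ⁻¹ * ψ) * (s : Γ) * (φ⁻¹ * ψ)⁻¹) * φ⁻¹ = ψ * (s : Γ) * ψ⁻¹
      group)
    rw [e3, e1, hcl]
  -- `χ s ^ (p ^ 2) = χ s`
  have c2 : ∀ s : G', IsIn L (s : Γ) → (χ s ^ p) ^ p = χ s := by
    intro s hs
    have hs1 : IsIn L (φ * (s : Γ) * φ⁻¹) := hconj _ _ hs
    have hm1 : φ * (s : Γ) * φ⁻¹ ∈ G' := hI _ hs1
    have hs2 : IsIn L (φ * (φ * (s : Γ) * φ⁻¹) * φ⁻¹) := hconj _ _ hs1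
    have hm2 : φ * (φ * (s : Γ) * φ⁻¹) * φ⁻¹ ∈ G' := hI _ hs2
    have e1 : χ ⟨_, hm1⟩ = χ s ^ p := key s ⟨_, hm1⟩ hs rfl
    have e2 : χ ⟨_, hm2⟩ = χ ⟨_, hm1⟩ ^ p := key ⟨_, hm1⟩ ⟨_, hm2⟩ hs1 rfl
    have e3 : (⟨_, hm2⟩ : G') = (⟨φ * φ, hφ2⟩ : G') * s * (⟨φ * φ, hφ2⟩ : G')⁻¹ := by
      apply Subtype.ext
      show φ * (φ * (s : Γ) * φ⁻¹) * φ⁻¹ = (φ * φ) * (s : Γ) * (φ * φ)⁻¹
      group
    rw [← e1, ← e2, e3, hcl]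
  intro s hs
  refine ⟨c1 s hs, ?_⟩
  rw [c1 s hs, c2 s hs]

end Fermat.Agent.TW56.Count

end

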