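/-
TEAM TW56 -> S56, block COUNT, package CNT-A1 (helper86): a cocycle vanishing on a normal subgroup of
index prime to `p` is a coboundary.
-/
import Fermat.Agent.TW56.Count.Interface2

set_option autoImplicit false

noncomputable section

namespace Fermat.Agent.TW56.Count

open Fermat.Agent.CFT.Local Fermat.Agent.TW56.Flat

/-- **CNT-A1.** -/
theorem stmt_cobN : Stmt_cobN := by
  intro p _ k _ _ Γ _ _ η N hN hp f hf hfN
  classical
  have hf' : ∀ σ τ, f (σ * τ) = f σ + (η σ : k) * f τ := hf
  cases nonempty_fintype (Γ ⧸ N)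
  set S : k := ∑ c : Γ ⧸ N, f c.out with hS
  have hm : ((N.index : ℕ) : k) ≠ 0 := by
    intro h
    exact hp ((CharP.cast_eq_zero_iff k p _).1 h)
  have key : ∀ g, S = (N.index : k) * f g + (η g : k) * S := by
    intro g
    have h1 : ∀ c : Γ ⧸ N, f (g • c).out = f g + (η g : k) * f c.out := by
      intro c
      obtain ⟨n, hn⟩ := QuotientGroup.mk_out_eq_mul N (g * c.out)
      have h2 : g • c = ((g * c.out : Γ) : Γ ⧸ N) := by
        conv_lhs => rw [← QuotientGroup.out_eq' c]
        rfl
      rw [h2, hn, hf', hfN _ n.2, mul_zero, add_zero, hf']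
    calc S = ∑ c : Γ ⧸ N, f (g • c).out :=
          (Equiv.sum_comp (MulAction.toPerm g) (fun c : Γ ⧸ N => f c.out)).symm
      _ = ∑ c : Γ ⧸ N, (f g + (η g : k) * f c.out) := Finset.sum_congr rfl (fun c _ => h1 c)
      _ = (N.index : k) * f g + (η g : k) * S := by
          rw [Finset.sum_add_distrib, Finset.sum_const, Finset.card_univ, ← Finset.mul_sum,
            nsmul_eq_mul, Subgroup.index, Nat.card_eq_fintype_card]
  refine ⟨-(S / (N.index : k)), fun g => ?_⟩
  have h3 := key g
  field_simp
  linear_combination -h3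

end Fermat.Agent.TW56.Count

end
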