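/-
TEAM TW56 -> S56, block COUNT, package CNT-E7 : `Stmt_count1` (E6 for `F = 𝔽_p`).
-/
import Fermat.Agent.TW56.Count.Interface2

set_option autoImplicit false

noncomputable section

namespace Fermat.Agent.TW56.Count

theorem stmt_count1 (h : Stmt_countSemi) : Stmt_count1 := by
  intro p _ k κ _ _ _ _ _ _ c u hu
  let _ := ZMod.algebra k p
  let _ := ZMod.algebra κ p
  have h1 := h (ZMod p) k κ c u hu
  refine le_trans ?_ h1
  have hfin : Finite (k →ₗ[ZMod p] κ) :=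
    Finite.of_injective (fun Φ : k →ₗ[ZMod p] κ => (Φ : k → κ)) DFunLike.coe_injective
  have hfin' : Finite {Ψ : k →ₗ[ZMod p] κ // ∀ x, Ψ (c * x) = u * Ψ x ^ Nat.card (ZMod p)} :=
    Subtype.finite
  refine Nat.card_le_card_of_injective
    (fun Ψ : PsiSet1 p k κ c u =>
      (⟨AddMonoidHom.toZModLinearMap p (AddMonoidHom.mk' Ψ.1 Ψ.2.1), fun x => by
        have := Ψ.2.2 x
        simpa [Nat.card_zmod] using this⟩ :
        {Ψ : k →ₗ[ZMod p] κ // ∀ x, Ψ (c * x) = u * Ψ x ^ Nat.card (ZMod p)})) ?_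
  intro Ψ Ψ' hΨ
  apply Subtype.ext
  funext x
  have := congrArg (fun Φ : {Ψ : k →ₗ[ZMod p] κ // ∀ x, Ψ (c * x) = u * Ψ x ^ Nat.card (ZMod p)} =>
    Φ.1 x) hΨ
  simpa using this

end Fermat.Agent.TW56.Count

end
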