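/-
TEAM TW56 -> S56, block COUNT, task CNT-E8: `Stmt_count2` (E6 for `F = 𝔽_{p²}`).
-/
import Fermat.Agent.TW56.Count.Interface2

set_option autoImplicit false

noncomputable section

namespace Fermat.Agent.TW56.Count

open Polynomial IntermediateField

namespace Count2

/-- the count, once all the `Ψ` are linear over a field `F` with `p²` elements. -/
theorem core (h : Stmt_countSemi) (p : ℕ) (F k κ : Type) [Field F] [Finite F] [Field k] [Finite k]
    [Field κ] [Finite κ] [Algebra F k] [Algebra F κ] (c c' : k) (t u : κ) (hu : u ≠ 0)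
    (hcard : Nat.card F = p ^ 2)
    (hlin : ∀ Ψ ∈ PsiSet2 p k κ c c' t u, ∀ (a : F) (x : k), Ψ (a • x) = a • Ψ x) :
    Nat.card (PsiSet2 p k κ c c' t u) ≤ Nat.card k := by
  refine le_trans ?_ (h F k κ c' u hu)
  have hfin : Finite (k →ₗ[F] κ) :=
    Finite.of_injective (fun f : k →ₗ[F] κ => (f : k → κ)) DFunLike.coe_injective
  let ι : PsiSet2 p k κ c c' t u →
      {Ψ : k →ₗ[F] κ // ∀ x, Ψ (c' * x) = u * Ψ x ^ Nat.card F} := fun Ψ =>
    ⟨{ toFun := Ψ.1
       map_add' := Ψ.2.1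
       map_smul' := fun a x => hlin Ψ.1 Ψ.2 a x }, fun x => by
        rw [hcard]
        exact Ψ.2.2.2 x⟩
  refine Nat.card_le_card_of_injective ι ?_
  intro Ψ Ψ' hΨ
  apply Subtype.ext
  have h1 := congrArg (fun f : {Ψ : k →ₗ[F] κ // ∀ x, Ψ (c' * x) = u * Ψ x ^ Nat.card F} =>
    ((f.1 : k →ₗ[F] κ) : k → κ)) hΨ
  exact h1

section Lin

variable {p : ℕ} [Fact p.Prime] {k κ : Type} [Field k] [Field κ] [Algebra (ZMod p) k]
  [Algebra (ZMod p) κ]

/-- `Ψ (P(c) x) = P(t) Ψ x`. -/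
theorem lin_poly {c : k} {t : κ} (Ψ : k →ₗ[ZMod p] κ) (hc : ∀ x, Ψ (c * x) = t * Ψ x)
    (P : (ZMod p)[X]) (x : k) : Ψ (aeval c P * x) = aeval t P * Ψ x := by
  have hpow : ∀ (n : ℕ) (x : k), Ψ (c ^ n * x) = t ^ n * Ψ x := by
    intro n
    induction n with
    | zero => intro x; simp
    | succ n ih => intro x; rw [pow_succ, mul_assoc, ih, hc, pow_succ, mul_assoc]
  induction P using Polynomial.induction_on' with
  | add P Q hP hQ => rw [map_add, map_add, add_mul, add_mul, map_add, hP, hQ]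
  | monomial n a =>
    rw [aeval_monomial, aeval_monomial, mul_assoc, ← Algebra.smul_def, map_smul, hpow,
      Algebra.smul_def, mul_assoc]

/-- an additive map as a `ZMod p`-linear map -/
def toLin (Ψ : k → κ) (hadd : ∀ x x', Ψ (x + x') = Ψ x + Ψ x') : k →ₗ[ZMod p] κ :=
  (AddMonoidHom.mk' Ψ hadd).toZModLinearMap p

theorem toLin_apply (Ψ : k → κ) (hadd : ∀ x x', Ψ (x + x') = Ψ x + Ψ x') (x : k) :
    toLin (p := p) Ψ hadd x = Ψ x := rfl

theorem poly {c : k} {t : κ} (Ψ : k → κ) (hadd : ∀ x x', Ψ (x + x') = Ψ x + Ψ x')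
    (hc : ∀ x, Ψ (c * x) = t * Ψ x) (P : (ZMod p)[X]) (x : k) :
    Ψ (aeval c P * x) = aeval t P * Ψ x :=
  lin_poly (toLin (p := p) Ψ hadd) hc P x

end Lin

section Card

variable {p : ℕ} [Fact p.Prime] {κ : Type} [Field κ] [Finite κ] [Algebra (ZMod p) κ]

theorem finrank_eq_two {t : κ} (ht1 : t ^ p ≠ t) (ht2 : t ^ (p ^ 2) = t) :
    Module.finrank (ZMod p) (ZMod p)⟮t⟯ = 2 := by
  have hint : IsIntegral (ZMod p) t := Algebra.IsIntegral.isIntegral t
  rw [← FiniteField.orderOf_frobeniusAlgHom (ZMod p) (ZMod p)⟮t⟯]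
  apply orderOf_eq_prime
  · apply (adjoin.powerBasis hint).algHom_ext
    rw [adjoin.powerBasis_gen, pow_two, AlgHom.mul_apply, AlgHom.one_apply]
    apply Subtype.ext
    simp only [FiniteField.frobeniusAlgHom_apply, ZMod.card, SubmonoidClass.coe_pow,
      AdjoinSimple.coe_gen]
    rw [← pow_mul, ← pow_two]
    exact ht2
  · intro h1
    apply ht1
    have h2 := congrArg (fun f : (ZMod p)⟮t⟯ →ₐ[ZMod p] (ZMod p)⟮t⟯ =>
      ((f (AdjoinSimple.gen (ZMod p) t) : (ZMod p)⟮t⟯) : κ)) h1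
    simpa [FiniteField.frobeniusAlgHom_apply, ZMod.card] using h2

theorem card_eq {t : κ} (ht1 : t ^ p ≠ t) (ht2 : t ^ (p ^ 2) = t) :
    Nat.card (ZMod p)⟮t⟯ = p ^ 2 := by
  rw [Module.natCard_eq_pow_finrank (K := ZMod p), Nat.card_zmod, finrank_eq_two ht1 ht2]

end Card

end Count2

/-- CNT-E8. -/
theorem stmt_count2 (h : Stmt_countSemi) : Stmt_count2 := by
  intro p _ k κ _ _ _ _ _ _ c c' t u hu ht1 ht2
  by_cases hz : ∀ Ψ ∈ PsiSet2 p k κ c c' t u, Ψ = 0
  · have hs : Subsingleton (PsiSet2 p k κ c c' t u) :=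
      ⟨fun a b => Subtype.ext (by rw [hz a.1 a.2, hz b.1 b.2])⟩
    exact (Finite.card_le_one_iff_subsingleton.2 hs).trans Nat.card_pos
  · push Not at hz
    obtain ⟨Ψ₀, hΨ₀, hne⟩ := hz
    let _ : Algebra (ZMod p) k := ZMod.algebra k p
    let _ : Algebra (ZMod p) κ := ZMod.algebra κ p
    have hint : IsIntegral (ZMod p) t := Algebra.IsIntegral.isIntegral t
    -- `P(t) = 0 → P(c) = 0`
    have hroot : ∀ P : (ZMod p)[X], aeval t P = 0 → aeval c P = 0 := by
      intro P hP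
      by_contra hcP
      apply hne
      funext y
      have h1 := Count2.poly (p := p) Ψ₀ hΨ₀.1 hΨ₀.2.1 P ((aeval c P)⁻¹ * y)
      rw [mul_inv_cancel_left₀ hcP, hP, zero_mul] at h1
      exact h1
    let pb := adjoin.powerBasis hint
    have hgen : pb.gen = AdjoinSimple.gen (ZMod p) t := adjoin.powerBasis_gen hint
    let σ : (ZMod p)⟮t⟯ →ₐ[ZMod p] k := pb.lift c (by
      rw [hgen, minpoly_gen]
      exact hroot _ (minpoly.aeval _ _))
    have hσ : σ pb.gen = c := pb.lift_gen _ _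
    let _ : Algebra (ZMod p)⟮t⟯ k := σ.toRingHom.toAlgebra
    refine Count2.core h p (ZMod p)⟮t⟯ k κ c c' t u hu (Count2.card_eq ht1 ht2) ?_
    intro Ψ hΨ a x
    obtain ⟨P, rfl⟩ := pb.exists_eq_aeval' a
    have h1 : (aeval pb.gen P : (ZMod p)⟮t⟯) • x = aeval c P * x := by
      show σ (aeval pb.gen P) * x = _
      rw [← aeval_algHom_apply, hσ]
    have h2 : (aeval pb.gen P : (ZMod p)⟮t⟯) • Ψ x = aeval t P * Ψ x := by
      show ((ZMod p)⟮t⟯).val (aeval pb.gen P) * Ψ x = _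
      rw [← aeval_algHom_apply, hgen]
      rfl
    rw [h1, h2]
    exact Count2.poly (p := p) Ψ hΨ.1 hΨ.2.1 P x

end Fermat.Agent.TW56.Count

end
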