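/-
TEAM TW56 -> S56, block COUNT, package CNT-E6 (helper2): THE COUNT (finite field linear algebra).
-/
import Fermat.Agent.TW56.Count.Interface2

set_option autoImplicit false

noncomputable section

namespace Fermat.Agent.TW56.Count

namespace CountSemi

open Polynomial

variable {F k κ : Type} [Field F] [Field k] [Field κ] [Algebra F k] [Algebra F κ]

/-- `u_i = u^(1 + q + ... + q^(i-1))` -/
def U (u : κ) (q : ℕ) : ℕ → κ
  | 0 => 1
  | i + 1 => u * U u q i ^ q

theorem U_ne_zero {u : κ} (hu : u ≠ 0) (q i : ℕ) : U u q i ≠ 0 := by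
  induction i with
  | zero => exact one_ne_zero
  | succ i ih => exact mul_ne_zero hu (pow_ne_zero _ ih)

/-- `y ↦ u y^q` -/
def Fb (u : κ) (Fr : κ →ₗ[F] κ) : Module.End F κ := (LinearMap.mulLeft F u).comp Fr

theorem Fb_apply (u : κ) (Fr : κ →ₗ[F] κ) (q : ℕ) (hFr : ∀ y, Fr y = y ^ q) (y : κ) :
    Fb u Fr y = u * y ^ q := by
  rw [Fb, LinearMap.comp_apply, LinearMap.mulLeft_apply, hFr]

theorem Fb_pow (u : κ) (Fr : κ →ₗ[F] κ) (q : ℕ) (hFr : ∀ y, Fr y = y ^ q) (i : ℕ) (y : κ) :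
    (Fb u Fr ^ i) y = U u q i * y ^ (q ^ i) := by
  induction i with
  | zero => simp [U]
  | succ i ih =>
    rw [pow_succ', Module.End.mul_apply, ih, Fb_apply u Fr q hFr, mul_pow, ← pow_mul, ← pow_succ, U,
      mul_assoc]

/-- the additive polynomial `P(𝔉)(Y)` -/
def G (u : κ) (q : ℕ) (P : F[X]) : κ[X] :=
  ∑ i ∈ Finset.range (P.natDegree + 1), C (algebraMap F κ (P.coeff i) * U u q i) * X ^ (q ^ i)

theorem eval_G (u : κ) (Fr : κ →ₗ[F] κ) (q : ℕ) (hFr : ∀ y, Fr y = y ^ q) (P : F[X]) (y : κ) :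
    eval y (G u q P) = aeval (Fb u Fr) P y := by
  rw [aeval_eq_sum_range, LinearMap.sum_apply, G, eval_finsetSum]
  refine Finset.sum_congr rfl fun i _ => ?_
  rw [LinearMap.smul_apply, Fb_pow u Fr q hFr, eval_mul, eval_C, eval_pow, eval_X, Algebra.smul_def,
    mul_assoc]

theorem natDegree_G_le (u : κ) (q : ℕ) (hq : 2 ≤ q) (P : F[X]) :
    (G u q P).natDegree ≤ q ^ P.natDegree := by
  refine natDegree_sum_le_of_forall_le _ _ fun i hi => ?_
  refine (natDegree_C_mul_X_pow_le _ _).trans ?_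
  exact Nat.pow_le_pow_right (by omega) (Nat.lt_succ_iff.1 (Finset.mem_range.1 hi))

theorem G_ne_zero {u : κ} (hu : u ≠ 0) (q : ℕ) (hq : 2 ≤ q) (P : F[X]) (hP : P.Monic) :
    G u q P ≠ 0 := by
  intro h0
  have h1 : (G u q P).coeff (q ^ P.natDegree) = U u q P.natDegree := by
    rw [G, finsetSum_coeff, Finset.sum_eq_single P.natDegree]
    · rw [coeff_C_mul_X_pow, if_pos rfl, hP.coeff_natDegree, map_one, one_mul]
    · intro i _ hi
      rw [coeff_C_mul_X_pow, if_neg]
      intro h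
      exact hi (Nat.pow_right_injective hq h).symm
    · intro h
      exact absurd (Finset.mem_range.2 (Nat.lt_succ_self _)) h
  rw [h0, coeff_zero] at h1
  exact U_ne_zero hu q _ h1.symm

/-- `#ker P(𝔉) ≤ q^deg P` -/
theorem card_ker_le {u : κ} (hu : u ≠ 0) (Fr : κ →ₗ[F] κ) (q : ℕ) (hq : 2 ≤ q)
    (hFr : ∀ y, Fr y = y ^ q) (P : F[X]) (hP : P.Monic) :
    Nat.card (LinearMap.ker (aeval (Fb u Fr) P)) ≤ q ^ P.natDegree := by
  classical
  have hG := G_ne_zero (F := F) hu q hq P hP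
  let Z : Finset κ := (G u q P).roots.toFinset
  let ι : LinearMap.ker (aeval (Fb u Fr) P) → Z := fun y => ⟨y.1, by
    rw [Multiset.mem_toFinset, mem_roots hG, IsRoot.def, eval_G u Fr q hFr]
    exact y.2⟩
  have hι : Function.Injective ι := by
    intro a b hab
    exact Subtype.ext (congrArg (fun z : Z => z.1) hab)
  calc Nat.card (LinearMap.ker (aeval (Fb u Fr) P)) ≤ Nat.card Z :=
        Nat.card_le_card_of_injective ι hι
    _ = Z.card := by rw [Nat.card_eq_fintype_card, Fintype.card_coe]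
    _ ≤ Multiset.card (G u q P).roots := Multiset.toFinset_card_le _
    _ ≤ (G u q P).natDegree := card_roots' _
    _ ≤ q ^ P.natDegree := natDegree_G_le u q hq P

/-- `Ψ ∘ P(c) = P(𝔉) ∘ Ψ` -/
theorem semi (c : k) (𝔉 : Module.End F κ) (Ψ : k →ₗ[F] κ) (hΨ : ∀ x, Ψ (c * x) = 𝔉 (Ψ x))
    (P : F[X]) (x : k) : Ψ (aeval c P * x) = aeval 𝔉 P (Ψ x) := by
  have hpow : ∀ (n : ℕ) (x : k), Ψ (c ^ n * x) = (𝔉 ^ n) (Ψ x) := by
    intro n
    induction n with
    | zero => intro x; simp
    | succ n ih =>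
      intro x
      rw [pow_succ', mul_assoc, hΨ, ih, pow_succ', Module.End.mul_apply]
  induction P using Polynomial.induction_on' with
  | add p p' hp hp' => rw [map_add, add_mul, map_add, hp, hp', map_add, LinearMap.add_apply]
  | monomial n a =>
    rw [aeval_monomial, aeval_monomial, Module.End.mul_apply, Module.algebraMap_end_apply, ← hpow,
      mul_assoc, ← Algebra.smul_def, map_smul]

end CountSemi

open CountSemi Polynomial in
/-- CNT-E6. -/
theorem stmt_countSemi : Stmt_countSemi := by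
  intro F k κ _ _ _ _ _ _ _ _ c u hu
  classical
  cases nonempty_fintype F
  obtain ⟨q, hq⟩ : ∃ q, q = Nat.card F := ⟨_, rfl⟩
  rw [← hq]
  have hq2 : 2 ≤ q := by
    rw [hq]
    exact Finite.one_lt_card
  let Fr : κ →ₗ[F] κ := (FiniteField.frobeniusAlgHom F κ).toLinearMap
  have hFr : ∀ y, Fr y = y ^ q := fun y => by
    rw [hq, Nat.card_eq_fintype_card]
    rfl
  have hint : IsIntegral F c := Algebra.IsIntegral.isIntegral c
  let m := minpoly F c
  have hm : m.Monic := minpoly.monic hint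
  let W := LinearMap.ker (aeval (Fb u Fr) m)
  have hW : Nat.card W ≤ q ^ m.natDegree := card_ker_le hu Fr q hq2 hFr m hm
  let b := Module.finBasis (IntermediateField.adjoin F {c}) k
  have hS : ∀ Ψ : {Ψ : k →ₗ[F] κ // ∀ x, Ψ (c * x) = u * Ψ x ^ q}, ∀ x,
      Ψ.1 (c * x) = Fb u Fr (Ψ.1 x) := by
    intro Ψ x
    rw [Ψ.2, Fb_apply u Fr q hFr]
  let ev : {Ψ : k →ₗ[F] κ // ∀ x, Ψ (c * x) = u * Ψ x ^ q} →
      (Fin (Module.finrank (IntermediateField.adjoin F {c}) k) → W) := fun Ψ i => ⟨Ψ.1 (b i), by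
    show aeval (Fb u Fr) m (Ψ.1 (b i)) = 0
    rw [← semi c (Fb u Fr) Ψ.1 (hS Ψ), minpoly.aeval, zero_mul, map_zero]⟩
  have hpoly : ∀ z : IntermediateField.adjoin F {c}, ∃ P : F[X], aeval c P = (z : k) := by
    intro z
    have h1 : (z : k) ∈ (IntermediateField.adjoin F {c}).toSubalgebra := z.2
    rw [IntermediateField.adjoin_simple_toSubalgebra_of_isAlgebraic hint.isAlgebraic,
      Algebra.adjoin_singleton_eq_range_aeval] at h1
    exact h1
  have hev : Function.Injective ev := by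
    intro Ψ Ψ' h
    apply Subtype.ext
    apply LinearMap.ext
    intro x
    have hb : ∀ i, Ψ.1 (b i) = Ψ'.1 (b i) := fun i => congrArg Subtype.val (congrFun h i)
    rw [← b.sum_repr x, map_sum, map_sum]
    refine Finset.sum_congr rfl fun i _ => ?_
    obtain ⟨P, hP⟩ := hpoly (b.repr x i)
    have e : (b.repr x i) • b i = aeval c P * b i := by
      rw [hP]
      rfl
    rw [e, semi c (Fb u Fr) Ψ.1 (hS Ψ), semi c (Fb u Fr) Ψ'.1 (hS Ψ'), hb]
  have hWfin : Finite W := inferInstance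
  calc Nat.card {Ψ : k →ₗ[F] κ // ∀ x, Ψ (c * x) = u * Ψ x ^ q}
      ≤ Nat.card (Fin (Module.finrank (IntermediateField.adjoin F {c}) k) → W) :=
        Nat.card_le_card_of_injective ev hev
    _ = Nat.card W ^ Module.finrank (IntermediateField.adjoin F {c}) k := by
        rw [Nat.card_fun, Nat.card_eq_fintype_card (α := Fin _), Fintype.card_fin]
    _ ≤ (q ^ m.natDegree) ^ Module.finrank (IntermediateField.adjoin F {c}) k :=
        Nat.pow_le_pow_left hW _
    _ = Nat.card k := by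
        rw [← pow_mul, ← IntermediateField.adjoin.finrank hint,
          Module.finrank_mul_finrank F (IntermediateField.adjoin F {c}) k, hq,
          ← Module.natCard_eq_pow_finrank]

end Fermat.Agent.TW56.Count

end
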