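/-
TEAM TW56 -> S56, block COUNT, task CNT-H1 (helper92): the context for `Gal(M/ℚ_p)`.
-/
import Fermat.Agent.TW56.Count.Interface2

set_option autoImplicit false

noncomputable section

namespace Fermat.Agent.TW56.Count

open Fermat.Agent.CFT.Local Fermat.Agent.TW56.Flat

namespace CtxM

/-- powers of `1/p` which are `< 1` are `≤ 1/p`. -/
theorem le_of_zpow {p : ℕ} (hp : 1 < p) {k : ℤ} (h : ((p : ℝ)⁻¹) ^ k < 1) :
    ((p : ℝ)⁻¹) ^ k ≤ (p : ℝ)⁻¹ := by
  have hp1 : (1 : ℝ) < p := by exact_mod_cast hp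
  have hp0 : (0 : ℝ) < p := by linarith
  have hk : 1 ≤ k := by
    by_contra hk
    have hk' : k ≤ 0 := by omega
    have h1 : (1 : ℝ) ≤ ((p : ℝ)⁻¹) ^ k := by
      rw [inv_zpow', ]
      exact one_le_zpow₀ hp1.le (by omega)
    linarith
  rw [inv_zpow', ← zpow_neg_one]
  exact zpow_le_zpow_right₀ hp1.le (by omega)

end CtxM

/-- **CNT-H1**. -/
theorem stmt_ctxM (hR : Flat.Stmt_RamInst) (hI : Flat.Stmt_InertSub) : Stmt_ctxM := by
  intro p _ M _ _ hKB ζ hζ1 hζp
  have hp : p.Prime := Fact.out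
  obtain ⟨hact, -, hTot⟩ := hR p M
  obtain ⟨I, hI'⟩ := hI p M inferInstance inferInstance
  have hT := hTot I hI'
  have hnormp : ‖(p : Om p)‖ = (p : ℝ)⁻¹ := by
    rw [← hT.normp]
    rfl
  refine ⟨hact, hT.normp, ?_, hζ1, hζp, ?_⟩
  · intro x hx hx1
    rcases eq_or_ne x 0 with rfl | hx0
    · rw [norm_zero]
      positivity
    obtain ⟨k, hk⟩ := hT.unr.2.2.2 x hx0 (fun s _ => hx (s : GM p M) ((hI' _).1 s.2))
    rw [hT.normp] at hk
    rw [hk] at hx1 ⊢
    exact CtxM.le_of_zpow hp.one_lt hx1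
  · intro N hNζ a hNa ha0 ⟨α, hα⟩
    obtain ⟨b', hb'K, hb'0, hb'⟩ := hKB ((IntermediateField.fixedField N).map M.val)
      (by
        rintro y hy
        obtain ⟨x, -, rfl⟩ := (IntermediateField.mem_map _).1 hy
        exact x.2)
      ⟨(ζ : Om p), (IntermediateField.mem_map _).2
          ⟨ζ, (IntermediateField.mem_fixedField_iff N ζ).2 hNζ, rfl⟩,
        fun h => hζ1 (Subtype.ext h), by
          have := congrArg (Subtype.val : M → Om p) hζp
          simpa using this⟩
      (a : Om p) ((IntermediateField.mem_map _).2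
          ⟨a, (IntermediateField.mem_fixedField_iff N a).2 hNa, rfl⟩)
      (fun h => ha0 (Subtype.ext h))
      ⟨(α : Om p), α.2, by
        have := congrArg (Subtype.val : M → Om p) hα
        simpa using this⟩
    obtain ⟨b, hbN, rfl⟩ := (IntermediateField.mem_map _).1 hb'K
    refine ⟨b, (IntermediateField.mem_fixedField_iff N b).1 hbN, ?_, ?_⟩
    · rintro rfl
      exact hb'0 (map_zero _)
    · rw [hnormp] at hb'
      exact hb'

end Fermat.Agent.TW56.Count

end
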