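/-
TEAM TW56 -> S56, block COUNT.  CNT-H2 / CNT-H4: restriction of the context and of the Frobenius to
subgroups containing the inertia group.
-/
import Fermat.Agent.TW56.Count.Interface2

set_option autoImplicit false

noncomputable section

namespace Fermat.Agent.TW56.Count

open Fermat.Agent.CFT.Local Fermat.Agent.TW56.Flat

namespace CtxSub

/-- `LocAct` restricts to subgroups. -/
theorem locAct_sub {Γ L : Type} [Group Γ] [Finite Γ] [NormedField L] [MulSemiringAction Γ L]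
    (h : LocAct Γ L) (G' : Subgroup Γ) : LocAct G' L where
  loc := h.loc
  faithful := by
    have := h.faithful
    infer_instance
  isom := fun g x => h.isom (g : Γ) x

end CtxSub

/-- CNT-H2. -/
theorem stmt_ctxSub : Stmt_ctxSub := by
  intro p Γ L _ _ _ _ ζ h G' hG
  refine ⟨CtxSub.locAct_sub h.act G', h.normp, ?_, h.ne_one, h.pow_p, ?_⟩
  · intro x hx hx1
    exact h.unr x (fun s hs => hx ⟨s, hG s hs⟩ hs) hx1
  · intro N hN a ha ha0 hα
    obtain ⟨b, hb, hb0, hbn⟩ := h.kb (N.map G'.subtype)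
      (by
        rintro n ⟨m, hm, rfl⟩
        exact hN m hm) a
      (by
        rintro n ⟨m, hm, rfl⟩
        exact ha m hm) ha0 hα
    exact ⟨b, fun n hn => hb (n : Γ) ⟨n, hn, rfl⟩, hb0, hbn⟩

/-- CNT-H4. -/
theorem stmt_frobSub : Stmt_frobSub := by
  intro Γ L _ _ _ _ hact φ Q hφ hgen G' hG hidx
  have hφG : φ ∉ G' := by
    intro hmem
    have htop : G' = ⊤ := by
      rw [eq_top_iff]
      intro g _
      obtain ⟨n, s, hs, rfl⟩ := hgen g
      exact mul_mem (pow_mem hmem n) (hG s hs)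
    rw [htop, Subgroup.index_top] at hidx
    omega
  have hsq : φ ^ 2 ∈ G' := Subgroup.sq_mem_of_index_two hidx φ
  refine ⟨hφG, ⟨φ ^ 2, hsq⟩, rfl, ?_, ?_⟩
  · intro z hz
    have := hact.loc.ultra
    have h1 : ‖φ • z - z ^ Q‖ < 1 := hφ z hz
    have h2 : ‖φ • (φ • z) - φ • (z ^ Q)‖ < 1 := by
      rw [← smul_sub, hact.isom]
      exact h1
    have hzQ : ‖z ^ Q‖ ≤ 1 := by
      rw [norm_pow]
      exact pow_le_one₀ (norm_nonneg _) hz
    have h3 : ‖φ • (z ^ Q) - (z ^ Q) ^ Q‖ < 1 := hφ _ hzQ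
    have h4 : (⟨φ ^ 2, hsq⟩ : G') • z - z ^ (Q ^ 2)
        = (φ • (φ • z) - φ • (z ^ Q)) + (φ • (z ^ Q) - (z ^ Q) ^ Q) := by
      have : (⟨φ ^ 2, hsq⟩ : G') • z = φ • (φ • z) := by
        rw [Subgroup.smul_def, smul_smul]
        congr 1
        exact sq φ
      rw [this, ← pow_mul, ← sq]
      ring
    rw [h4]
    exact lt_of_le_of_lt (IsUltrametricDist.norm_add_le_max _ _) (max_lt h2 h3)
  · intro g
    obtain ⟨n, s, hs, hg⟩ := hgen (g : Γ)
    have hsG : s ∈ G' := hG s hs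
    have hn : φ ^ n ∈ G' := by
      have : φ ^ n = (g : Γ) * s⁻¹ := by rw [hg]; group
      rw [this]
      exact mul_mem g.2 (inv_mem hsG)
    obtain ⟨m, hm | hm⟩ := Nat.even_or_odd' n
    · refine ⟨m, ⟨s, hsG⟩, hs, ?_⟩
      apply Subtype.ext
      rw [hg, hm, pow_mul]
      rfl
    · exfalso
      apply hφG
      have : φ = ((φ ^ 2) ^ m)⁻¹ * φ ^ n := by
        rw [hm, pow_succ φ (2 * m), pow_mul, inv_mul_cancel_left]
      rw [this]
      exact mul_mem (inv_mem (pow_mem hsq m)) hn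

end Fermat.Agent.TW56.Count

end
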