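/-
TEAM TW56 -> S56, block COUNT, task CNT-A3 (shadow by helper76): the fibre count for cocycles.
-/
import Fermat.Agent.TW56.Count.Interface2

set_option autoImplicit false

noncomputable section

namespace Fermat.Agent.TW56.Count

open Fermat.Agent.TW56.Flat

theorem stmt_fibre (hA1 : Stmt_cobN) : Stmt_fibre := by
  intro p _ k _ _ _ Γ _ _ η N hN hp X _ R hex huniq
  have hne : Nonempty (Z1Char η) := ⟨⟨0, fun σ τ => by simp⟩⟩
  choose Ψ hΨ using fun f : Z1Char η => hex f.1 f.2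
  have hb : ∀ f : Z1Char η, Ψ (Function.invFun Ψ (Ψ f)) = Ψ f := fun f =>
    Function.invFun_eq ⟨f, rfl⟩
  have hx : ∀ f : Z1Char η, ∃ x : k, ∀ g, f.1 g - (Function.invFun Ψ (Ψ f)).1 g
      = ((η g : k) - 1) * x := by
    intro f
    refine hA1 p k Γ η N hN hp (fun g => f.1 g - (Function.invFun Ψ (Ψ f)).1 g) ?_ ?_
    · intro σ τ
      show f.1 (σ * τ) - (Function.invFun Ψ (Ψ f)).1 (σ * τ) = _
      rw [f.2 σ τ, (Function.invFun Ψ (Ψ f)).2 σ τ]
      ring
    · intro n hn
      have h1 := hΨ (Function.invFun Ψ (Ψ f))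
      rw [hb f] at h1
      exact sub_eq_zero.2 (huniq f.1 f.2 _ (Function.invFun Ψ (Ψ f)).2 (Ψ f) (hΨ f) h1 n hn)
  choose x hx using hx
  rw [← Nat.card_prod]
  refine Nat.card_le_card_of_injective (fun f : Z1Char η => (Ψ f, x f)) ?_
  intro f f' h
  have h1 : Ψ f = Ψ f' := congrArg Prod.fst h
  have h2 : x f = x f' := congrArg Prod.snd h
  apply Subtype.ext
  funext g
  have e1 := hx f g
  have e2 := hx f' g
  rw [h1, h2] at e1
  linear_combination e1 - e2

end Fermat.Agent.TW56.Count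

end
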