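/-
TEAM TW56 -> S56, block COUNT, task CNT-H7 (helper91): `Flat.Stmt_COUNT` from the abstract form.
-/
import Fermat.Agent.TW56.Count.Interface2

set_option autoImplicit false

noncomputable section

namespace Fermat.Agent.TW56.Count

open Fermat.Agent.CFT.Local Fermat.Agent.TW56.Flat

namespace Final

/-- inertia: the two definitions agree. -/
theorem isIn_iff {p : ℕ} [Fact p.Prime] (M : IF p) (g : GM p M) : IsInert p M g ↔ IsIn M g :=
  Iff.rfl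

/-- the cyclotomic character: `IsCycM` implies `IsCyc`. -/
theorem isCyc {p : ℕ} [hp : Fact p.Prime] (M : IF p) {k : Type} [Field k] (om : GM p M →* kˣ)
    (h : IsCycM p M om) (ζ : M) (h1 : ζ ≠ 1) (hp1 : ζ ^ p = 1) : IsCyc ζ om := by
  intro g a hga
  apply h g a
  intro μ hμ
  have hprim : IsPrimitiveRoot ζ p := by
    have h0 := IsPrimitiveRoot.orderOf ζ
    rwa [orderOf_eq_prime hp1 h1] at h0
  have : NeZero p := ⟨hp.out.ne_zero⟩
  obtain ⟨i, -, rfl⟩ := hprim.eq_pow_of_pow_eq_one hμ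
  have hga' : g ζ = ζ ^ a := hga
  rw [map_pow, hga', ← pow_mul, ← pow_mul, mul_comm]

end Final

/-- CNT-H7. -/
theorem count_of_abs (h1 : Stmt_ctxM) (h2 : Stmt_frobM) (h3 : Stmt_locAxAbs) : Flat.Stmt_COUNT := by
  intro p _ hp2 k _ _ _ M hfd hnor hkb hz I om hI hcyc
  obtain ⟨ζ, hζM, hζ1, hζp⟩ := hz
  have hζ'1 : (⟨ζ, hζM⟩ : M) ≠ 1 := fun h => hζ1 (congrArg Subtype.val h)
  have hζ'p : (⟨ζ, hζM⟩ : M) ^ p = 1 := Subtype.ext hζp
  have hctx := h1 p M hkb ⟨ζ, hζM⟩ hζ'1 hζ'p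
  obtain ⟨φ, hφ1, hφ2⟩ := h2 p M
  exact h3 p hp2 k (GM p M) M ⟨ζ, hζM⟩ hctx om φ I (Final.isCyc M om hcyc _ hζ'1 hζ'p) hφ1 hφ2
    (fun g => (hI g).trans (Final.isIn_iff M g))

end Fermat.Agent.TW56.Count

end
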