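/-
TEAM TW56 -> S56, block COUNT (architect helper68), task CNT-C4 (helper77): `Stmt_firstZ`.
Wild elements lie in `N` (`wildP`, `e` prime to `p`), average over `I/P` (`tameAvg`), then C3 (`unrZ`).
-/
import Fermat.Agent.TW56.Count.Interface2

set_option autoImplicit false
set_option linter.style.haveILetI false

namespace Fermat.Agent.TW56.Count

open Fermat.Agent.CFT.Local Fermat.Agent.TW56.Flat

namespace FirstZ

/-- wild elements lie in the inertia group. -/
theorem isIn_of_isWild {Γ L : Type} [Group Γ] [NormedField L] [MulSemiringAction Γ L] {u : Γ}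
    (hu : IsWild L u) : IsIn L u := by
  intro x hx
  by_cases h0 : x = 0
  · subst h0
    simp
  · exact lt_of_lt_of_le (hu x h0) hx

end FirstZ

open FirstZ in
/-- CNT-C4. -/
theorem stmt_firstZ (_h1 : Stmt_tameSub) (hw : Stmt_wildP) (ha : Stmt_tameAvg) (h3 : Stmt_unrZ) : Stmt_firstZ := by
  intro p _ Γ L _ _ _ _ ζ hC N e he hN z hz hNz hIz
  haveI := hC.act.loc.ultra
  have hp : p.Prime := Fact.out
  have hp1 : ‖(p : L)‖ < 1 := by
    rw [hC.normp]
    exact inv_lt_one_of_one_lt₀ (by exact_mod_cast hp.one_lt)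
  -- wild elements lie in `N`
  have hwN : ∀ u : Γ, IsWild L u → u ∈ N := by
    intro u hu
    obtain ⟨m, hm⟩ := hw Γ L hC.act p hp hp1 u hu
    have hco : Nat.Coprime e (orderOf u) :=
      Nat.Coprime.coprime_dvd_right (orderOf_dvd_of_pow_eq_one hm) (Nat.Coprime.pow_right m he)
    obtain ⟨a, ha'⟩ := exists_pow_eq_self_of_coprime hco
    rw [← ha']
    exact N.pow_mem (hN u (isIn_of_isWild hu)) a
  obtain ⟨z', hz', hzz⟩ := ha Γ L hC.act z hz (fun u hu => hNz u (hwN u hu)) hIz
  have hnorm : ‖z'‖ = ‖z‖ := by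
    have e1 : z' = (z' - z) + z := by ring
    rw [e1, IsUltrametricDist.norm_add_eq_max_of_norm_ne_norm hzz.ne]
    exact max_eq_right hzz.le
  have hz'0 : z' ≠ 0 := by
    intro h0
    rw [h0, norm_zero] at hnorm
    exact hz (norm_eq_zero.1 hnorm.symm)
  obtain ⟨j, hj⟩ := h3 p Γ L ζ hC z' hz'0 hz'
  exact ⟨j, by rw [← hnorm, hj]⟩

end Fermat.Agent.TW56.Count
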