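/-
TEAM TW56 -> S56, block COUNT, CNT-H3 (helper68): a Frobenius element of `Gal(M/ℚ_p)`.
-/
import Fermat.Agent.TW56.Count.Interface2

set_option autoImplicit false

noncomputable section

namespace Fermat.Agent.TW56.Count

open Fermat.Agent.CFT.Local Fermat.Agent.TW56.Flat

namespace FrobM

variable (p : ℕ) [Fact p.Prime] (M : IF p) [FiniteDimensional ℚ_[p] M] [Normal ℚ_[p] M]

theorem fixed_mem (x : M) (h : ∀ σ : GM p M, σ • x = x) :
    ∃ y : ℚ_[p], algebraMap ℚ_[p] M y = x := by
  have hG : IsGalois ℚ_[p] M := ⟨⟩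
  have := (IsGalois.mem_bot_iff_fixed x).2 h
  exact IntermediateField.mem_bot.1 this

omit [FiniteDimensional ℚ_[p] M] [Normal ℚ_[p] M] in
theorem norm_algebraMap (y : ℚ_[p]) : ‖algebraMap ℚ_[p] M y‖ = ‖y‖ :=
  PadicAlgCl.norm_extends p y

omit [FiniteDimensional ℚ_[p] M] [Normal ℚ_[p] M] in
theorem norm_natCast (n : ℕ) : ‖(n : M)‖ = ‖(n : ℚ_[p])‖ := by
  have := norm_algebraMap p M (n : ℚ_[p])
  rwa [map_natCast] at this

omit [FiniteDimensional ℚ_[p] M] [Normal ℚ_[p] M] in
theorem exists_range (y : ℚ_[p]) (hy : ‖y‖ ≤ 1) : ∃ n : ℕ, n < p ∧ ‖y - (n : ℚ_[p])‖ < 1 := by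
  obtain ⟨z, hz⟩ : ∃ z : ℤ_[p], (z : ℚ_[p]) = y := ⟨⟨y, hy⟩, rfl⟩
  obtain ⟨n, hn, h⟩ := PadicInt.exists_mem_range z
  refine ⟨n, hn, ?_⟩
  rw [IsLocalRing.mem_maximalIdeal, PadicInt.mem_nonunits, PadicInt.norm_def,
    PadicInt.coe_sub, PadicInt.coe_natCast, hz] at h
  exact h

theorem resCard_eq (hL : LocAct (GM p M) M) :
    resCard (FixedPoints.subfield (GM p M) M) = p := by
  classical
  have hq := (Fact.out : p.Prime)
  have hLK : IsLoc (FixedPoints.subfield (GM p M) M) := fixedLoc _ _ hL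
  obtain ⟨⟨R, hRc, -, hR1, hRsep, -⟩, hT, -⟩ := reps _ hLK
  apply le_antisymm
  · rw [← hRc]
    have key : ∀ r : FixedPoints.subfield (GM p M) M, ‖r‖ ≤ 1 →
        ∃ n : ℕ, n < p ∧ ‖(r : M) - (n : M)‖ < 1 := by
      intro r hr
      obtain ⟨y, hy⟩ := fixed_mem p M (r : M) r.2
      have hy1 : ‖y‖ ≤ 1 := by
        rw [← norm_algebraMap p M, hy]; exact hr
      obtain ⟨n, hn, h⟩ := exists_range p y hy1
      refine ⟨n, hn, ?_⟩
      rw [← hy, ← map_natCast (algebraMap ℚ_[p] M), ← map_sub, norm_algebraMap]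
      exact h
    choose! f hf using key
    have : R.card ≤ (Finset.range p).card :=
      Finset.card_le_card_of_injOn f (fun r hr => Finset.mem_coe.2
        (Finset.mem_range.2 (hf r (hR1 r hr)).1)) (by
        intro r hr s hs hrs
        apply hRsep r hr s hs
        have h1 := (hf r (hR1 r hr)).2
        have h2 := (hf s (hR1 s hs)).2
        rw [← hrs] at h2
        have e : ((r - s : FixedPoints.subfield (GM p M) M) : M)
            = ((r : M) - (f r : M)) - ((s : M) - (f r : M)) := by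
          push_cast; ring
        show ‖((r - s : FixedPoints.subfield (GM p M) M) : M)‖ < 1
        rw [e, sub_eq_add_neg]
        have := hL.loc.ultra
        refine lt_of_le_of_lt (IsUltrametricDist.norm_add_le_max _ _) (max_lt h1 ?_)
        rw [norm_neg]
        exact h2)
    simpa using this
  · have hinj : Set.InjOn (fun a : ℕ => (a : FixedPoints.subfield (GM p M) M))
        (Finset.range p : Set ℕ) := fun a _ b _ hab => by
      have hab' : (a : FixedPoints.subfield (GM p M) M) = b := hab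
      exact_mod_cast hab'
    have := hT ((Finset.range p).image
      (fun a : ℕ => (a : FixedPoints.subfield (GM p M) M))) ?_ ?_
    · rwa [Finset.card_image_of_injOn hinj, Finset.card_range] at this
    · intro r hr
      obtain ⟨a, -, rfl⟩ := Finset.mem_image.1 hr
      show ‖(((a : ℕ) : FixedPoints.subfield (GM p M) M) : M)‖ ≤ 1
      push_cast
      rw [norm_natCast]
      exact_mod_cast Padic.norm_int_le_one (p := p) (a : ℤ)
    · intro r hr s hs hrs
      obtain ⟨a, ha, rfl⟩ := Finset.mem_image.1 hr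
      obtain ⟨b, hb, rfl⟩ := Finset.mem_image.1 hs
      have h1 : ‖(((a : ℤ) - (b : ℤ) : ℤ) : ℚ_[p])‖ < 1 := by
        rw [← norm_algebraMap p M]
        have e : algebraMap ℚ_[p] M (((a : ℤ) - (b : ℤ) : ℤ) : ℚ_[p])
            = (((a : FixedPoints.subfield (GM p M) M) - b :
              FixedPoints.subfield (GM p M) M) : M) := by
          push_cast
          simp
        rw [e]
        exact hrs
      rw [Padic.norm_intCast_lt_one_iff] at h1
      have ha' := Finset.mem_range.1 ha
      have hb' := Finset.mem_range.1 hb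
      have : (a : ℤ) - b = 0 := by
        apply Int.eq_zero_of_abs_lt_dvd h1
        rw [abs_lt]
        constructor <;> omega
      have hab : a = b := by omega
      rw [hab]

end FrobM

/-- CNT-H3. -/
theorem stmt_frobM (hR : Flat.Stmt_RamInst) (hf : Stmt_frob) : Stmt_frobM := by
  intro p _ M _ _
  have hL : LocAct (GM p M) M := (hR p M).1
  obtain ⟨φ, h1, h2⟩ := hf (GM p M) M hL
  rw [FrobM.resCard_eq p M hL] at h1
  exact ⟨φ, h1, h2⟩

end Fermat.Agent.TW56.Count

end
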