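/-
TEAM TW56 -> S56, block COUNT, task CNT-C6 (1621, helper53): the value group of `L^N`.
-/
import Fermat.Agent.TW56.Count.Interface2

set_option autoImplicit false

noncomputable section

namespace Fermat.Agent.TW56.Count

open Fermat.Agent.CFT.Local Fermat.Agent.TW56.Flat

theorem stmt_hval (h5 : Stmt_thetaPow) (h4 : Stmt_firstZ) : Stmt_hval := by
  intro p _ Γ L _ _ _ _ ζ C N e hep hN y hy hy0
  have hz0 : y ^ e ≠ 0 := pow_ne_zero e hy0
  have hzN : ∀ n ∈ N, n • (y ^ e) = y ^ e := by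
    intro n hn
    rw [smul_pow', hy n hn]
  have hfirst : ∀ s : Γ, IsIn L s → ‖s • (y ^ e) - y ^ e‖ < ‖y ^ e‖ := by
    intro s hs
    have h := (h5 Γ L C.act s y 1 e hs hy0).2 (by
      rw [hy _ (hN s hs), one_mul, sub_self, norm_zero]
      exact norm_pos_iff.2 hy0)
    rwa [one_mul] at h
  obtain ⟨j, hj⟩ := h4 p Γ L ζ C N e hep hN (y ^ e) hz0 hzN hfirst
  exact ⟨j, by rw [← norm_pow]; exact hj⟩

end Fermat.Agent.TW56.Count

end
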