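/-
TEAM TW56 -> S56, block COUNT, task CNT-F2 (helper67): `hom2` in the abstract context.
-/
import Fermat.Agent.TW56.Count.Interface2

set_option autoImplicit false

noncomputable section

namespace Fermat.Agent.TW56.Count

open Fermat.Agent.CFT.Local Fermat.Agent.TW56.Flat

namespace Hom2abs

/-- an additive map sends powers to multiples -/
theorem pow_eq {k Γ : Type} [Field k] [Group Γ] (f : Γ → k) (hf : f ∈ Z1Char (1 : Γ →* kˣ))
    (s : Γ) (n : ℕ) : f (s ^ n) = (n : k) * f s := by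
  have hadd : ∀ σ τ : Γ, f (σ * τ) = f σ + f τ := by
    intro σ τ
    have := hf σ τ
    simpa using this
  have h1 : f 1 = 0 := by
    have := hadd 1 1
    simp only [mul_one] at this
    linear_combination -this
  induction n with
  | zero => simp [h1]
  | succ n ih =>
    rw [pow_succ, hadd, ih]
    push_cast
    ring

end Hom2abs

theorem stmt_hom2abs (h0 : Stmt_cycFix) (h1 : Stmt_tameSub) (h8 : Stmt_omSurj)
    (hF : Stmt_noJump1) : Stmt_hom2abs := by
  intro p _ hp2 k _ _ _ Γ L _ _ _ _ ζ hctx om hcyc f hf s hs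
  have hp : p.Prime := Fact.out
  obtain ⟨I, P, hIn, hPn, hPI, hI, hP⟩ := h1 Γ L hctx.act
  obtain ⟨-, -, hpow⟩ := h0 p k Γ L ζ hctx.ne_one hctx.pow_p om hcyc
  -- an inertia element with `ω ≠ 1`
  have hex : ∃ s : Γ, IsIn L s ∧ (1 : Γ →* kˣ) s ≠ om s := by
    have h2 : ¬ p ∣ 2 := by
      intro hd
      exact hp2 ((Nat.prime_dvd_prime_iff_eq hp Nat.prime_two).1 hd)
    obtain ⟨t, ht, htz⟩ := h8 p Γ L ζ hctx 2 h2
    refine ⟨t, ht, ?_⟩
    intro he
    have h3 : ((om t : kˣ) : k) = ((2 : ℕ) : k) := hcyc t 2 htz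
    rw [← he] at h3
    simp only [MonoidHom.one_apply, Units.val_one, Nat.cast_ofNat] at h3
    have h4 : (1 : k) = 0 := by linear_combination -h3
    exact one_ne_zero h4
  have hkey := hF p hp2 k Γ L ζ hctx om 1 hcyc (fun _ _ => by simp) hex f hf (s ^ (p - 1))
    ((hI _).1 (I.pow_mem ((hI s).2 hs) _)) (by simp) (by rw [map_pow]; exact hpow s)
  rw [Hom2abs.pow_eq f hf] at hkey
  have hne : (((p - 1 : ℕ)) : k) ≠ 0 := by
    intro h
    have hd : p ∣ p - 1 := (CharP.cast_eq_zero_iff k p (p - 1)).1 h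
    have := Nat.le_of_dvd (by have := hp.two_le; omega) hd
    have := hp.two_le
    omega
  exact (mul_eq_zero.1 hkey).resolve_left hne

end Fermat.Agent.TW56.Count

end
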