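/-
TEAM TW56 -> S56, block COUNT.  CNT-A4 (`indexKer`) and CNT-A6 (`trace`).
-/
import Fermat.Agent.TW56.Count.Interface2

set_option autoImplicit false

noncomputable section

namespace Fermat.Agent.TW56.Count

namespace IndexKer

/-- `p` does not divide the order of `kˣ`. -/
theorem not_dvd_card_units (p : ℕ) [Fact p.Prime] (k : Type) [Field k] [Finite k] [CharP k p] :
    ¬ p ∣ Nat.card kˣ := by
  have : Fintype k := Fintype.ofFinite k
  have hp : p.Prime := Fact.out
  obtain ⟨n, -, hn⟩ := FiniteField.card k p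
  intro h
  rw [Nat.card_units, Nat.card_eq_fintype_card, hn] at h
  have h1 : p ∣ p ^ (n : ℕ) := dvd_pow_self p n.ne_zero
  have h2 : 1 ≤ p ^ (n : ℕ) := Nat.one_le_pow _ _ hp.pos
  have h3 : p ∣ 1 := by
    have := (Nat.dvd_sub h1 h)
    rwa [Nat.sub_sub_self h2] at this
  exact hp.one_lt.ne' (Nat.dvd_one.1 h3)

end IndexKer

/-- **CNT-A4** -/
theorem stmt_indexKer : Stmt_indexKer := by
  intro p _ k _ _ _ Γ _ _ η η' h
  have hp : p.Prime := Fact.out
  have h1 : η.ker ⊓ η'.ker = (η.prod η').ker := (MonoidHom.ker_prod η η').symm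
  rw [h1, Subgroup.index_ker] at h
  have h2 : Nat.card (η.prod η').range ∣ Nat.card (kˣ × kˣ) := Subgroup.card_subgroup_dvd_card _
  have h3 := h.trans h2
  rw [Nat.card_prod] at h3
  rcases hp.dvd_mul.1 h3 with h4 | h4 <;> exact IndexKer.not_dvd_card_units p k h4

/-- **CNT-A6** -/
theorem stmt_trace : Stmt_trace := by
  intro p _ k _ _ _
  let _ : Algebra (ZMod p) k := ZMod.algebra k p
  have : Module.Finite (ZMod p) k := Module.Finite.of_finite
  refine ⟨(Algebra.trace (ZMod p) k).toAddMonoidHom, fun c hc => ?_⟩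
  have hnd := traceForm_nondegenerate (ZMod p) k
  apply hnd.1 c
  intro x
  rw [Algebra.traceForm_apply, mul_comm]
  exact hc x

end Fermat.Agent.TW56.Count

end
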