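/-
TEAM TW56 -> S56, block COUNT, task CNT-A2 (helper76): `stmt_killN`, `stmt_homCyc`.
-/
import Fermat.Agent.TW56.Count.Interface2

set_option autoImplicit false

noncomputable section

namespace Fermat.Agent.TW56.Count

open Fermat.Agent.TW56.Flat

theorem stmt_killN : Stmt_killN := by
  intro k _ Γ _ η I N hN hcomm hη ⟨g, hg⟩ f hf hIN n hn
  have hconj : g * n * g⁻¹ ∈ N := hN.conj_mem n hn g
  have h1 : f (g * n) = f g + (η g : k) * f n := hf g n
  have h2 : f (g * n * g⁻¹ * g) = f (g * n * g⁻¹) + (η (g * n * g⁻¹) : k) * f g := hf _ g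
  rw [hη _ hconj, Units.val_one, one_mul, inv_mul_cancel_right, h1] at h2
  have hc : g * n * g⁻¹ * n⁻¹ ∈ N := N.mul_mem hconj (N.inv_mem hn)
  have h3 : f (g * n * g⁻¹ * n⁻¹ * n) = f (g * n * g⁻¹ * n⁻¹) + (η (g * n * g⁻¹ * n⁻¹) : k) * f n :=
    hf _ n
  rw [hη _ hc, Units.val_one, one_mul, inv_mul_cancel_right, hIN _ hc (hcomm g n), zero_add] at h3
  have h4 : ((η g : k) - 1) * f n = 0 := by
    rw [h3] at h2
    linear_combination h2
  refine (mul_eq_zero.1 h4).resolve_left fun h => hg (Units.ext ?_)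
  rw [Units.val_one]
  exact sub_eq_zero.1 h

namespace KillN

lemma add {k : Type} [Field k] {Γ : Type} [Group Γ] {f : Γ → k}
    (hf : f ∈ Z1Char (1 : Γ →* kˣ)) (σ τ : Γ) : f (σ * τ) = f σ + f τ := by
  have h : f (σ * τ) = f σ + (((1 : Γ →* kˣ) σ : kˣ) : k) * f τ := hf σ τ
  rwa [MonoidHom.one_apply, Units.val_one, one_mul] at h

lemma pow {k : Type} [Field k] {Γ : Type} [Group Γ] {f : Γ → k}
    (hf : f ∈ Z1Char (1 : Γ →* kˣ)) (φ : Γ) (n : ℕ) : f (φ ^ n) = n * f φ := by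
  induction n with
  | zero =>
    have h := add hf 1 1
    rw [mul_one] at h
    rw [pow_zero, Nat.cast_zero, zero_mul]
    exact left_eq_add.1 h
  | succ n ih =>
    rw [pow_succ, add hf, ih]
    push_cast
    ring

end KillN

theorem stmt_homCyc : Stmt_homCyc := by
  intro k _ _ Γ _ _ I φ hcyc hI
  refine Nat.card_le_card_of_injective (fun f : Z1Char (1 : Γ →* kˣ) => f.1 φ) ?_
  intro f f' h
  apply Subtype.ext
  funext g
  obtain ⟨n, s, hs, rfl⟩ := hcyc g
  have h' : f.1 φ = f'.1 φ := h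
  rw [KillN.add f.2, KillN.add f'.2, KillN.pow f.2, KillN.pow f'.2, hI _ f.2 s hs, hI _ f'.2 s hs, h']

end Fermat.Agent.TW56.Count

end
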