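/-
TEAM TW56 -> S56, block COUNT, task CNT-B2 : Galois action on Kummer generators.
-/
import Fermat.Agent.TW56.Count.Interface2

set_option autoImplicit false

noncomputable section

namespace Fermat.Agent.TW56.Count

open Fermat.Agent.CFT.Local Fermat.Agent.TW56.Flat

namespace KumAct

theorem pow_eq_of_cast {L : Type} [Monoid L] {ζ : L} {p : ℕ} (hζ : ζ ^ p = 1) {m m' : ℕ}
    (h : (m : ZMod p) = (m' : ZMod p)) : ζ ^ m = ζ ^ m' := by
  rw [pow_eq_pow_mod m hζ, pow_eq_pow_mod m' hζ, (ZMod.natCast_eq_natCast_iff' m m' p).1 h]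

theorem map_natCast_mul {k : Type} [Field k] {p : ℕ} (T : k →+ ZMod p) (a : ℕ) (y : k) :
    T ((a : k) * y) = (a : ZMod p) * T y := by
  rw [← nsmul_eq_mul, map_nsmul, nsmul_eq_mul]

end KumAct

theorem stmt_kumAct (h0 : Stmt_cycFix) : Stmt_kumAct := by
  intro p _ k _ _ Γ L _ _ _ _ ζ hζ1 hζp om η N T hK f hf g x α hα
  obtain ⟨a, -, hga, hoa⟩ := (h0 p k Γ L ζ hζ1 hζp om hK.cyc).1 g
  have hf' : ∀ σ τ, f (σ * τ) = f σ + ((η σ : kˣ) : k) * f τ := hf
  have hf1 : f 1 = 0 := by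
    have h1 := hf' 1 1
    rw [mul_one, map_one, Units.val_one, one_mul] at h1
    exact left_eq_add.mp h1
  refine ⟨?_, fun n hn => ?_⟩
  · rw [Ne, smul_eq_zero_iff_eq]
    exact hα.1
  · have hconj : g⁻¹ * n * g ∈ N := by
      have h1 := hK.normal.conj_mem n hn g⁻¹
      rwa [inv_inv] at h1
    have e1 : n • g • α = g • ((g⁻¹ * n * g) • α) := by
      rw [← mul_smul, ← mul_smul]
      congr 1
      group
    have hη0 : ((η g : kˣ) : k) ≠ 0 := (η g).ne_zero
    have hfc : f (g⁻¹ * n * g) = ((η g : kˣ) : k)⁻¹ * f n := by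
      have h1 := hf' g⁻¹ g
      rw [inv_mul_cancel, hf1, map_inv, Units.val_inv_eq_inv_val] at h1
      rw [mul_assoc, hf' g⁻¹ (n * g), hf' n g, hK.eta n hn, Units.val_one, one_mul, map_inv,
        Units.val_inv_eq_inv_val, mul_add, ← add_assoc, add_right_comm, ← h1, zero_add]
    rw [e1, hα.2 _ hconj, smul_mul', smul_pow', hga, ← pow_mul, hfc]
    congr 1
    apply KumAct.pow_eq_of_cast hζp
    have hcc : cc om η g * x * f n = (a : k) * (x * (((η g : kˣ) : k)⁻¹ * f n)) := by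
      unfold cc
      rw [Units.val_div_eq_div_val, hoa]
      field_simp
    rw [hcc, KumAct.map_natCast_mul, Nat.cast_mul, ZMod.natCast_zmod_val, ZMod.natCast_zmod_val]

end Fermat.Agent.TW56.Count

end
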