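/-
TEAM TW56 -> S56, block COUNT (architect helper68).  CNT-B3: the algebra of Kummer generators.
-/
import Fermat.Agent.TW56.Count.Interface2

set_option autoImplicit false

noncomputable section

namespace Fermat.Agent.TW56.Count

namespace KumAlg

variable {L : Type} [Field L]

theorem pow_mod_p {p : ℕ} {ζ : L} (h : ζ ^ p = 1) (m : ℕ) : ζ ^ (m % p) = ζ ^ m := by
  conv_rhs => rw [← Nat.div_add_mod m p, pow_add, pow_mul, h, one_pow, one_mul]

theorem pow_val_add {p : ℕ} [Fact p.Prime] {ζ : L} (h : ζ ^ p = 1) (a b : ZMod p) :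
    ζ ^ (a + b).val = ζ ^ a.val * ζ ^ b.val := by
  rw [ZMod.val_add, pow_mod_p h, pow_add]

theorem zeta_ne_zero {p : ℕ} [hp : Fact p.Prime] {ζ : L} (h : ζ ^ p = 1) : ζ ≠ 0 := by
  rintro rfl
  rw [zero_pow hp.out.ne_zero] at h
  exact zero_ne_one h

theorem pow_val_sub {p : ℕ} [Fact p.Prime] {ζ : L} (h : ζ ^ p = 1) (a b : ZMod p) :
    ζ ^ (a - b).val = ζ ^ a.val / ζ ^ b.val := by
  have h1 := pow_val_add h (a - b) b
  rw [sub_add_cancel] at h1
  rw [h1, mul_div_cancel_right₀]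
  exact pow_ne_zero _ (zeta_ne_zero h)

end KumAlg

open KumAlg in
theorem stmt_kumAlg : Stmt_kumAlg := by
  intro p _ k _ _ Γ L _ _ _ ζ hζ N T f f' x x' α α' hα
  have hadd : ∀ (y y' : k) (β β' : L), IsKum ζ N T f y β → IsKum ζ N T f y' β' →
      IsKum ζ N T f (y + y') (β * β') := by
    intro y y' β β' hβ hβ'
    refine ⟨mul_ne_zero hβ.1 hβ'.1, fun n hn => ?_⟩
    rw [smul_mul', hβ.2 n hn, hβ'.2 n hn, add_mul, map_add, pow_val_add hζ]
    ring
  refine ⟨hadd x x' α α' hα, ?_, ?_, ?_, ?_, ?_, ?_⟩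
  · intro hα'
    refine ⟨div_ne_zero hα.1 hα'.1, fun n hn => ?_⟩
    rw [smul_div₀', hα.2 n hn, hα'.2 n hn, sub_mul, map_sub, pow_val_sub hζ]
    rw [mul_div_mul_comm]
  · intro m
    induction m with
    | zero =>
      refine ⟨by simp, fun n _ => ?_⟩
      simp
    | succ m ih =>
      have := hadd _ _ _ _ ih hα
      rw [pow_succ]
      have e : ((m + 1 : ℕ) : k) * x = (m : k) * x + x := by push_cast; ring
      rw [e]
      exact this
  · intro b hb hfix
    refine ⟨mul_ne_zero hα.1 hb, fun n hn => ?_⟩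
    rw [smul_mul', hα.2 n hn, hfix n hn, mul_assoc]
  · intro hα' n hn
    rw [smul_div₀', hα.2 n hn, hα'.2 n hn]
    rw [mul_div_mul_left]
    exact pow_ne_zero _ (zeta_ne_zero hζ)
  · intro hα'
    refine ⟨div_ne_zero hα.1 hα'.1, fun n hn => ?_⟩
    rw [smul_div₀', hα.2 n hn, hα'.2 n hn, mul_sub, map_sub, pow_val_sub hζ]
    rw [mul_div_mul_comm]
  · intro n hn
    rw [smul_pow', hα.2 n hn, mul_pow, pow_right_comm, hζ, one_pow, one_mul]

end Fermat.Agent.TW56.Count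

end
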