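/-
TEAM TW56 -> S56, block COUNT, task CNT-B1 (helper91): Hilbert 90 for characters with values in `μ_p`.
-/
import Fermat.Agent.TW56.Count.Interface2

set_option autoImplicit false

noncomputable section

namespace Fermat.Agent.TW56.Count

open Fermat.Agent.CFT.Local Fermat.Agent.TW56.Flat

namespace KumEx

/-- `a ↦ ζ ^ a.val` is additive. -/
theorem pow_val_add {p : ℕ} [Fact p.Prime] {L : Type} [Monoid L] {ζ : L} (hζ : ζ ^ p = 1)
    (a b : ZMod p) : ζ ^ (a + b).val = ζ ^ a.val * ζ ^ b.val := by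
  rw [ZMod.val_add, ← pow_eq_pow_mod _ hζ, pow_add]

end KumEx

/-- CNT-B1. Hilbert 90 for a character of `N` with values in `μ_p`. -/
theorem stmt_kumEx : Stmt_kumEx := by
  intro p _ Γ L _ _ _ _ hL ζ N hζ hfix χ hχ
  have := hL.faithful
  cases nonempty_fintype N
  have hζ0 : ζ ≠ 0 := by
    rintro rfl
    rw [zero_pow (Fact.out : p.Prime).ne_zero] at hζ
    exact zero_ne_one hζ
  let φ : N → (L →* L) := fun n => ((MulSemiringAction.toRingHom Γ L (n : Γ)) : L →* L)
  have hφ : Function.Injective φ := by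
    intro n n' h
    apply Subtype.ext
    apply FaithfulSMul.eq_of_smul_eq_smul (α := L)
    intro z
    exact DFunLike.congr_fun h z
  have hli := (linearIndependent_monoidHom L L).comp φ hφ
  rw [Fintype.linearIndependent_iff] at hli
  obtain ⟨z, hz⟩ : ∃ z : L, ∑ n : N, ζ ^ (-χ n).val * ((n : Γ) • z) ≠ 0 := by
    by_contra hcon
    push Not at hcon
    have h1 := hli (fun n => ζ ^ (-χ n).val) (by
      funext z
      rw [Finset.sum_apply]
      exact hcon z) 1
    exact pow_ne_zero _ hζ0 h1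
  refine ⟨_, hz, fun m hm => ?_⟩
  rw [Finset.smul_sum, Finset.mul_sum]
  refine Fintype.sum_equiv (Equiv.mulLeft (⟨m, hm⟩ : N)) _ _ fun n => ?_
  have e1 : (((Equiv.mulLeft (⟨m, hm⟩ : N)) n : N) : Γ) = m * (n : Γ) := rfl
  rw [e1, smul_mul', smul_pow', hfix m hm, mul_smul, hχ m hm n n.2, ← mul_assoc,
    ← KumEx.pow_val_add hζ]
  congr 3
  ring

end Fermat.Agent.TW56.Count

end
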