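/-
TEAM TW56 -> S56, block COUNT, task CNT-D1 (helper8, task 1625): the first level, from `KB`.
-/
import Fermat.Agent.TW56.Count.Interface2

set_option autoImplicit false

noncomputable section

namespace Fermat.Agent.TW56.Count

open Fermat.Agent.CFT.Local Fermat.Agent.TW56.Flat

namespace Lev0

/-- the arithmetic of the exponents. -/
lemma expo {r t : ℝ} (hr0 : 0 < r) (hr1 : r < 1) (ht : 0 ≤ t) {A B e j : ℕ} (hA : 0 < A) {i : ℤ}
    (h1 : t ^ e = r ^ i) (h2 : t ^ A ≤ r ^ B) (hj : j * A < B * e + A) : t ^ e ≤ r ^ j := by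
  have h3 : r ^ (i * (A : ℤ)) ≤ r ^ (((B * e : ℕ) : ℤ)) := by
    rw [zpow_mul, ← h1, zpow_natCast, zpow_natCast, ← pow_mul, mul_comm e A, pow_mul, pow_mul]
    exact pow_le_pow_left₀ (pow_nonneg ht _) h2 e
  rw [zpow_le_zpow_iff_right_of_lt_one₀ hr0 hr1] at h3
  have h4 : (j : ℤ) * A < (i + 1) * A := by
    have : ((j * A : ℕ) : ℤ) < ((B * e + A : ℕ) : ℤ) := by exact_mod_cast hj
    push_cast at this h3 ⊢
    linarith
  have h5 : (j : ℤ) < i + 1 := lt_of_mul_lt_mul_right h4 (by positivity)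
  rw [h1, ← zpow_natCast r j, zpow_le_zpow_iff_right_of_lt_one₀ hr0 hr1]
  omega

end Lev0

/-- CNT-D1. -/
theorem stmt_lev0 (h1 : Stmt_kumEx) (h3 : Stmt_kumAlg) : Stmt_lev0 := by
  intro p _ k _ _ Γ L _ _ _ _ ζ hC om η N T hK e he hV f hf j hj x
  have hp : p.Prime := Fact.out
  have hadd : ∀ n ∈ N, ∀ n' ∈ N, T (x * f (n * n')) = T (x * f n) + T (x * f n') := by
    intro n hn n' _
    have h : f (n * n') = f n + (η n : k) * f n' := hf n n'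
    rw [h, hK.eta n hn, Units.val_one, one_mul, mul_add, map_add]
  obtain ⟨α₀, hα₀, hα₀N⟩ := h1 p Γ L hC.act ζ N hC.pow_p hK.fixz (fun g => T (x * f g)) hadd
  have hkum : IsKum ζ N T f x α₀ := ⟨hα₀, hα₀N⟩
  obtain ⟨-, -, -, h4, -, -, h7⟩ := h3 p k Γ L ζ hC.pow_p N T f f x x α₀ α₀ hkum
  obtain ⟨b, hbN, hb0, hb⟩ := hC.kb N hK.fixz (α₀ ^ p) h7 (pow_ne_zero _ hα₀) ⟨α₀, rfl⟩
  refine ⟨α₀ * b, h4 b hb0 hbN, ?_⟩
  rw [mul_pow]
  have hr0 : (0 : ℝ) < (p : ℝ)⁻¹ := inv_pos.2 (by exact_mod_cast hp.pos)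
  have hr1 : (p : ℝ)⁻¹ < 1 := inv_lt_one_of_one_lt₀ (by exact_mod_cast hp.one_lt)
  by_cases hy : α₀ ^ p * b ^ p - 1 = 0
  · rw [hy, norm_zero, zero_pow he.ne']
    exact pow_nonneg hr0.le _
  · have hyN : ∀ n ∈ N, n • (α₀ ^ p * b ^ p - 1) = α₀ ^ p * b ^ p - 1 := by
      intro n hn
      rw [smul_sub, smul_mul', smul_pow' n b, h7 n hn, hbN n hn, smul_one]
    obtain ⟨i, hi⟩ := hV _ hyN hy
    have hA : 0 < (p - 1) ^ 2 := pow_pos (Nat.sub_pos_of_lt hp.one_lt) 2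
    exact Lev0.expo hr0 hr1 (norm_nonneg _) hA hi hb hj

end Fermat.Agent.TW56.Count

end
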