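/-
TEAM TW56 -> S56, block COUNT, task CNT-D4 : at the top level `f` kills `I ∩ N` (helper97).
-/
import Fermat.Agent.TW56.Count.Interface2

set_option autoImplicit false

noncomputable section

namespace Fermat.Agent.TW56.Count

open Fermat.Agent.CFT.Local Fermat.Agent.TW56.Flat

theorem stmt_levEnd (h1 : Stmt_normPi) (h2 : Stmt_AS) : Stmt_levEnd := by
  intro p _ k _ _ Γ L _ _ _ _ ζ C om η N T D f e j he hj hlev σ hσN hσI
  have hp : p.Prime := Fact.out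
  apply D.nondeg
  intro x
  obtain ⟨α, ⟨hα0, hα⟩, hle⟩ := hlev x
  obtain ⟨hπ, -, -⟩ := h1 p L C.act.loc.ultra C.normp ζ C.ne_one C.pow_p
  have hp1 : 0 < p - 1 := Nat.sub_pos_of_lt hp.one_lt
  have hpinv0 : (0 : ℝ) < (p : ℝ)⁻¹ := inv_pos.2 (Nat.cast_pos.2 hp.pos)
  have hpinv1 : (p : ℝ)⁻¹ ≤ 1 := inv_le_one_of_one_le₀ (by exact_mod_cast hp.one_lt.le)
  have hbound : ‖α ^ p - 1‖ ≤ ‖ζ - 1‖ ^ p := by
    have hn : e * (p - 1) ≠ 0 := (Nat.mul_pos he hp1).ne'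
    rw [← pow_le_pow_iff_left₀ (norm_nonneg _) (pow_nonneg (norm_nonneg _) _) hn]
    calc ‖α ^ p - 1‖ ^ (e * (p - 1)) = (‖α ^ p - 1‖ ^ e) ^ (p - 1) := by rw [pow_mul]
      _ ≤ (((p : ℝ)⁻¹) ^ j) ^ (p - 1) :=
          pow_le_pow_left₀ (pow_nonneg (norm_nonneg _) _) hle _
      _ = ((p : ℝ)⁻¹) ^ (j * (p - 1)) := by rw [pow_mul]
      _ ≤ ((p : ℝ)⁻¹) ^ (p * e) := pow_le_pow_of_le_one hpinv0.le hpinv1 hj
      _ = (‖ζ - 1‖ ^ p) ^ (e * (p - 1)) := by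
          rw [← hπ, ← pow_mul, ← pow_mul]
          congr 1
          ring
  have hfix := h2 p Γ L C.act C.normp ζ C.ne_one C.pow_p α σ (T (x * f σ)).val hσI
    (D.fixz σ hσN) hbound (hα σ hσN)
  have hz : ζ ^ (T (x * f σ)).val = 1 := by
    have h3 := hα σ hσN
    rw [hfix] at h3
    exact mul_right_cancel₀ hα0 (by rw [one_mul]; exact h3.symm)
  have hord : orderOf ζ = p := orderOf_eq_prime C.pow_p C.ne_one
  have hdvd : p ∣ (T (x * f σ)).val := by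
    have h4 := orderOf_dvd_of_pow_eq_one hz
    rwa [hord] at h4
  have hlt : (T (x * f σ)).val < p := ZMod.val_lt _
  have h0 : (T (x * f σ)).val = 0 := Nat.eq_zero_of_dvd_of_lt hdvd hlt
  exact (ZMod.val_eq_zero _).1 h0

end Fermat.Agent.TW56.Count
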