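/-
TEAM TW56 -> S56, block COUNT, task CNT-F1 (helper64): no jump at the level `‖y‖ = 1/p`.
-/
import Fermat.Agent.TW56.Count.Interface2

set_option autoImplicit false

noncomputable section

namespace Fermat.Agent.TW56.Count

open Fermat.Agent.CFT.Local Fermat.Agent.TW56.Flat

namespace NoJump1

/-- the arithmetic inequality for `lev0` at `j = p - 1`. -/
theorem arith (p : ℕ) (hp : 3 ≤ p) :
    (p - 1) * (p - 1) ^ 2 < p * (p - 2) * (p - 1) + (p - 1) ^ 2 := by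
  obtain ⟨n, rfl⟩ : ∃ n, p = n + 3 := ⟨p - 3, by omega⟩
  have h1 : n + 3 - 1 = n + 2 := by omega
  have h2 : n + 3 - 2 = n + 1 := by omega
  rw [h1, h2]
  nlinarith

/-- inertia acts trivially to first order on the elements of norm `1/p`. -/
theorem first {Γ L : Type} [Group Γ] [NormedField L] [MulSemiringAction Γ L] (p : ℕ) (hp : 3 ≤ p)
    (hnp : ‖(p : L)‖ = (p : ℝ)⁻¹) (s : Γ) (hs : IsIn L s) (y : L)
    (hy : ‖y‖ ^ (p - 1) = ((p : ℝ)⁻¹) ^ (p - 1)) : ‖s • y - ((1 : ℕ) : L) * y‖ < ‖y‖ := by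
  have hp0 : (0 : ℝ) < (p : ℝ)⁻¹ := by
    have : (0 : ℝ) < (p : ℝ) := by exact_mod_cast (by omega : 0 < p)
    positivity
  have hny : ‖y‖ = (p : ℝ)⁻¹ :=
    (pow_left_inj₀ (norm_nonneg y) hp0.le (by omega : p - 1 ≠ 0)).1 hy
  have hpL : (p : L) ≠ 0 := by
    intro h
    rw [h, norm_zero] at hnp
    exact hp0.ne hnp
  have hu : ‖y / (p : L)‖ ≤ 1 := by
    rw [norm_div, hny, hnp, div_self hp0.ne']
  have h1 := hs (y / (p : L)) hu
  have h2 : s • y - ((1 : ℕ) : L) * y = (p : L) * (s • (y / (p : L)) - y / (p : L)) := by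
    have h3 : s • (p : L) = (p : L) := map_natCast (MulSemiringAction.toRingHom Γ L s) p
    rw [smul_div₀', h3, Nat.cast_one, one_mul]
    field_simp
  rw [h2, norm_mul, hnp, hny]
  calc (p : ℝ)⁻¹ * ‖s • (y / (p : L)) - y / (p : L)‖ < (p : ℝ)⁻¹ * 1 :=
        mul_lt_mul_of_pos_left h1 hp0
    _ = (p : ℝ)⁻¹ := mul_one _

end NoJump1

theorem stmt_noJump1 (h0 : Stmt_cycFix) (ht : Stmt_trace) (hv : Stmt_hval) (hl : Stmt_lev0)
    (hs : Stmt_stepLin) (he : Stmt_levEnd) : Stmt_noJump1 := by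
  intro p _ hp2 k _ _ _ Γ L _ _ _ _ ζ hctx om η hcyc hpow hne f hf σ hσ hησ homσ
  have hpp : p.Prime := Fact.out
  have hp3 : 3 ≤ p := by
    have := hpp.two_le
    omega
  obtain ⟨-, hfixz, hompow⟩ := h0 p k Γ L ζ hctx.ne_one hctx.pow_p om hcyc
  obtain ⟨T, hT⟩ := ht p k
  obtain ⟨s₀, hs₀, hs₀ne⟩ := hne
  have hK : KData p ζ om η (η.ker ⊓ om.ker) T :=
    { cyc := hcyc
      normal := inferInstance
      eta := fun n hn => hn.1
      fixz := fun n hn => hfixz n hn.2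
      nondeg := hT }
  have hcop : Nat.Coprime (p - 1) p := by
    have h : Nat.Coprime (p - 1) (p - 1 + 1) := (Nat.coprime_self_add_right).2 (Nat.coprime_one_right _)
    rwa [Nat.sub_add_cancel (by omega : 1 ≤ p)] at h
  have hmem : ∀ s : Γ, IsIn L s → s ^ (p - 1) ∈ η.ker ⊓ om.ker := by
    intro s hsI
    refine ⟨?_, ?_⟩
    · show η (s ^ (p - 1)) = 1
      rw [map_pow]
      exact hpow s hsI
    · show om (s ^ (p - 1)) = 1
      rw [map_pow]
      exact hompow s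
  have hval : HVal p L (η.ker ⊓ om.ker) (p - 1) := hv p Γ L ζ hctx _ _ hcop hmem
  have hepos : 0 < p - 1 := by omega
  have hlev : LevJ ζ (η.ker ⊓ om.ker) T f (p - 1) (p - 1) :=
    hl p k Γ L ζ hctx om η _ T hK (p - 1) hepos hval f hf (p - 1) (NoJump1.arith p hp3)
  have hcc : cc om η s₀ ≠ ((1 : ℕ) : k) := by
    intro h
    apply hs₀ne
    have h1 : ((om s₀ / η s₀ : kˣ) : k) = ((1 : kˣ) : k) := by
      rw [Units.val_one, ← Nat.cast_one (R := k)]
      exact h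
    have h2 : om s₀ / η s₀ = 1 := Units.ext h1
    exact (div_eq_one.1 h2).symm
  have hlev' : LevJ ζ (η.ker ⊓ om.ker) T f (p - 1) (p - 1 + 1) :=
    hs p k Γ L ζ hctx om η _ T hK (p - 1) hepos hval f hf (p - 1) s₀ 1 (by omega)
      (fun y _ hy => NoJump1.first p hp3 hctx.normp s₀ hs₀ y hy) hcc hlev
  rw [Nat.sub_add_cancel (by omega : 1 ≤ p)] at hlev'
  exact he p k Γ L ζ hctx om η _ T hK f (p - 1) p hepos le_rfl hlev' σ ⟨hησ, homσ⟩ hσ

end Fermat.Agent.TW56.Count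

end
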