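/-
TEAM TW56 -> S56, block COUNT, CNT-C1 (helper93): the norm of `π = ζ - 1`.
-/
import Fermat.Agent.TW56.Count.Interface2
import Fermat.Agent.TW56.Ram.Zeta

set_option autoImplicit false

namespace Fermat.Agent.TW56.Count

open Finset

/-- **CNT-C1.** -/
theorem stmt_normPi : Stmt_normPi := by
  intro p _ L _ hU hpn ζ hζ1 hζp
  have := hU
  have hp : p.Prime := Fact.out
  have hnorm : ‖ζ‖ = 1 := Ram.Zeta.norm_eq_one hp.ne_zero hζp
  have h1 : ‖ζ - 1‖ ^ (p - 1) = (p : ℝ)⁻¹ := by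
    rw [(Ram.stmt_Zeta L p ζ hp hζp hζ1).1, hpn]
  have hpos : 0 < ‖ζ - 1‖ := norm_pos_iff.2 (sub_ne_zero.2 hζ1)
  have hlt : ‖ζ - 1‖ < 1 := by
    by_contra hcon
    rw [not_lt] at hcon
    have h2 : 1 ≤ ‖ζ - 1‖ ^ (p - 1) := one_le_pow₀ hcon
    rw [h1] at h2
    have h3 : (p : ℝ)⁻¹ < 1 := inv_lt_one_of_one_lt₀ (by exact_mod_cast hp.one_lt)
    linarith
  refine ⟨h1, fun a => ?_, fun a ha => ?_⟩
  · have h2 : ζ ^ a - 1 - (a : L) * (ζ - 1) = (∑ i ∈ range a, (ζ ^ i - 1)) * (ζ - 1) := by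
      rw [Finset.sum_sub_distrib, Finset.sum_const, Finset.card_range, nsmul_eq_mul, mul_one,
        sub_mul, geom_sum_mul]
    have h3 : ‖∑ i ∈ range a, (ζ ^ i - 1)‖ ≤ ‖ζ - 1‖ :=
      IsUltrametricDist.norm_sum_le_of_forall_le_of_nonneg (norm_nonneg _)
        fun i _ => Ram.Zeta.norm_pow_sub_one_le hnorm.le i
    rw [h2, norm_mul]
    calc ‖∑ i ∈ range a, (ζ ^ i - 1)‖ * ‖ζ - 1‖ ≤ ‖ζ - 1‖ * ‖ζ - 1‖ :=
          mul_le_mul_of_nonneg_right h3 hpos.le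
      _ < 1 * ‖ζ - 1‖ := mul_lt_mul_of_pos_right hlt hpos
      _ = ‖ζ - 1‖ := one_mul _
  · have h2 : ζ ^ a = ζ ^ (a % p) := pow_eq_pow_mod a hζp
    rw [h2] at ha ⊢
    have h3 : 0 < a % p := by
      rcases Nat.eq_zero_or_pos (a % p) with h0 | h0
      · rw [h0, pow_zero] at ha
        exact absurd rfl ha
      · exact h0
    exact Ram.Zeta.norm_pow_sub_one_eq hp hζp h3 (Nat.mod_lt _ hp.pos)

end Fermat.Agent.TW56.Count
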