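/-
TEAM TW56 -> S56, block COUNT, task CNT-C8: inertia acts transitively on the primitive `p`-th roots of unity
(`Stmt_omSurj`).

The product over the `I`-orbit `O` of `ζ` of `x - 1` is `I`-fixed of norm `‖ζ - 1‖ ^ #O`; by C3 it is a power of
`p⁻¹ = ‖ζ - 1‖ ^ (p - 1)`, so `(p - 1) ∣ #O`; as `O` consists of primitive `p`-th roots, `O` is the set of all
of them.
-/
import Fermat.Agent.TW56.Count.Interface2

set_option autoImplicit false

noncomputable section

namespace Fermat.Agent.TW56.Count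

open Fermat.Agent.CFT.Local Fermat.Agent.TW56.Flat

namespace OmSurj

theorem norm_lt_one {x : ℝ} {n : ℕ} {c : ℝ} (hx : 0 ≤ x) (h : x ^ n = c) (hc : c < 1) : x < 1 := by
  by_contra hcon
  have h1 : 1 ≤ x := not_lt.1 hcon
  have h2 : 1 ≤ x ^ n := one_le_pow₀ h1
  rw [h] at h2
  exact absurd hc (not_lt.2 h2)

end OmSurj

theorem stmt_omSurj (h1 : Stmt_tameSub) (hn : Stmt_normPi) (h3 : Stmt_unrZ) : Stmt_omSurj := by
  classical
  intro p hp Γ L _ _ _ _ ζ hC a ha
  have hpp : p.Prime := hp.out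
  cases nonempty_fintype Γ
  obtain ⟨I, -, -, -, -, hI, -⟩ := h1 Γ L hC.act
  obtain ⟨hπ, -, -⟩ := hn p L hC.act.loc.ultra hC.normp ζ hC.ne_one hC.pow_p
  have hprim : IsPrimitiveRoot ζ p := by
    have h := IsPrimitiveRoot.orderOf ζ
    rwa [orderOf_eq_prime hC.pow_p hC.ne_one] at h
  haveI : NeZero p := ⟨hpp.ne_zero⟩
  -- the orbit and the set of all primitive roots
  set O : Finset L := (Finset.univ.filter fun s : Γ => s ∈ I).image (fun s => s • ζ) with hO
  set R : Finset L := (Finset.Ico 1 p).image (fun i => ζ ^ i) with hR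
  have hmemO : ∀ x, x ∈ O ↔ ∃ s ∈ I, s • ζ = x := by
    intro x
    simp [hO]
  have hOR : O ⊆ R := by
    intro x hx
    obtain ⟨s, -, rfl⟩ := (hmemO x).1 hx
    have hx1 : (s • ζ) ^ p = 1 := by rw [← smul_pow', hC.pow_p, smul_one]
    obtain ⟨i, hi, hix⟩ := hprim.eq_pow_of_pow_eq_one hx1
    refine Finset.mem_image.2 ⟨i, Finset.mem_Ico.2 ⟨?_, hi⟩, hix⟩
    rcases Nat.eq_zero_or_pos i with h0 | h0
    · exfalso
      rw [h0, pow_zero] at hix
      have h2 : s • ζ = s • (1 : L) := by rw [smul_one, hix]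
      exact hC.ne_one (MulAction.injective s h2)
    · exact h0
  have hζO : ζ ∈ O := (hmemO ζ).2 ⟨1, I.one_mem, one_smul _ _⟩
  -- the product
  set P : L := ∏ x ∈ O, (x - 1) with hP
  have hπ0 : ζ - 1 ≠ 0 := sub_ne_zero.2 hC.ne_one
  have hPnorm : ‖P‖ = ‖ζ - 1‖ ^ O.card := by
    rw [hP, norm_prod, ← Finset.prod_const]
    refine Finset.prod_congr rfl fun x hx => ?_
    obtain ⟨s, -, rfl⟩ := (hmemO x).1 hx
    have : s • ζ - 1 = s • (ζ - 1) := by rw [smul_sub, smul_one]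
    rw [this, hC.act.isom]
  have hP0 : P ≠ 0 := by
    rw [← norm_ne_zero_iff, hPnorm]
    exact pow_ne_zero _ (norm_ne_zero_iff.2 hπ0)
  have hPfix : ∀ t : Γ, IsIn L t → t • P = P := by
    intro t ht
    have htI : t ∈ I := (hI t).2 ht
    have himg : O.image (fun x => t • x) = O := by
      apply Finset.eq_of_subset_of_card_le
      · intro y hy
        obtain ⟨x, hx, rfl⟩ := Finset.mem_image.1 hy
        obtain ⟨s, hs, rfl⟩ := (hmemO x).1 hx
        exact (hmemO _).2 ⟨t * s, I.mul_mem htI hs, mul_smul t s ζ⟩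
      · rw [Finset.card_image_of_injective _ (MulAction.injective t)]
    have e1 : t • P = ∏ x ∈ O, (t • x - 1) := by
      rw [hP]
      have := map_prod (MulSemiringAction.toRingHom Γ L t) (fun x => x - 1) O
      simp only [MulSemiringAction.toRingHom_apply, smul_sub, smul_one] at this
      exact this
    rw [e1, hP]
    conv_rhs => rw [← himg]
    rw [Finset.prod_image (fun x _ y _ hxy => MulAction.injective t hxy)]
  obtain ⟨j, hj⟩ := h3 p Γ L ζ hC P hP0 hPfix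
  -- comparison of the exponents
  have hpos : 0 < ‖ζ - 1‖ := norm_pos_iff.2 hπ0
  have hp1 : ((p : ℝ)⁻¹) < 1 := by
    apply inv_lt_one_of_one_lt₀
    exact_mod_cast hpp.one_lt
  have hlt : ‖ζ - 1‖ < 1 := OmSurj.norm_lt_one hpos.le hπ hp1
  have hexp : ((O.card : ℕ) : ℤ) = ((p - 1 : ℕ) : ℤ) * j := by
    apply zpow_right_injective₀ hpos hlt.ne
    show ‖ζ - 1‖ ^ ((O.card : ℕ) : ℤ) = ‖ζ - 1‖ ^ (((p - 1 : ℕ) : ℤ) * j)
    rw [zpow_natCast, zpow_mul, zpow_natCast, hπ, ← hPnorm, hj]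
  have hdvd : (p - 1) ∣ O.card := by
    rw [← Int.natCast_dvd_natCast, hexp]
    exact Dvd.intro _ rfl
  have hcard : p - 1 ≤ O.card := Nat.le_of_dvd (Finset.card_pos.2 ⟨ζ, hζO⟩) hdvd
  have hRcard : R.card ≤ p - 1 := by
    refine Finset.card_image_le.trans ?_
    rw [Nat.card_Ico]
  have hEq : O = R := Finset.eq_of_subset_of_card_le hOR (hRcard.trans hcard)
  -- conclusion
  have hmem : ζ ^ a ∈ O := by
    rw [hEq]
    refine Finset.mem_image.2 ⟨a % p, Finset.mem_Ico.2 ⟨?_, Nat.mod_lt _ hpp.pos⟩, ?_⟩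
    · rcases Nat.eq_zero_or_pos (a % p) with h0 | h0
      · exact absurd (Nat.dvd_of_mod_eq_zero h0) ha
      · exact h0
    · exact (pow_eq_pow_mod a hC.pow_p).symm
  obtain ⟨s, hs, hsζ⟩ := (hmemO _).1 hmem
  exact ⟨s, (hI s).1 hs, hsζ⟩

end Fermat.Agent.TW56.Count

end
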