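/-
TEAM TW56 -> S56, block COUNT, package CNT-E3 : equivariance of the leading term map (`Stmt_psiAct`).
-/
import Fermat.Agent.TW56.Count.Interface2

set_option autoImplicit false

noncomputable section

namespace Fermat.Agent.TW56.Count

open Fermat.Agent.CFT.Local Fermat.Agent.TW56.Flat

namespace PsiAct

variable {L κ : Type} [NormedField L] [Field κ]

lemma rd_congr {rd : L → κ} (h : IsRd rd) (a b : L) (hb : ‖b‖ ≤ 1) (hab : ‖a - b‖ < 1) :
    rd a = rd b := by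
  have e : a = (a - b) + b := by ring
  rw [e, h.add _ _ hab.le hb, (h.zero_iff _ hab.le).2 hab, zero_add]

lemma rd_pow {rd : L → κ} (h : IsRd rd) (z : L) (hz : ‖z‖ ≤ 1) (n : ℕ) :
    rd (z ^ n) = rd z ^ n := by
  induction n with
  | zero => simp [h.one]
  | succ n ih =>
    have hn : ‖z ^ n‖ ≤ 1 := by
      rw [norm_pow]
      exact pow_le_one₀ (norm_nonneg _) hz
    rw [pow_succ, h.mul _ _ hn hz, ih, pow_succ]

end PsiAct

theorem stmt_psiAct (h2 : Stmt_kumAct) (h1 : Stmt_psiUniq) : Stmt_psiAct := by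
  intro p _ k κ _ _ _ Γ L _ _ _ _ ζ hC om η N T hK rd hrd e j₁ y₁ hJ f hf Ψ hΨ g Q hQ x
  obtain ⟨α, hα, hαn, hαΨ⟩ := hΨ x
  obtain ⟨α', hα', hαn', hαΨ'⟩ := hΨ (cc om η g * x)
  have hy₁ : y₁ ≠ 0 := by
    rintro rfl
    have h := hJ.norm
    rw [norm_zero, zero_pow hJ.epos.ne'] at h
    have hp : (0 : ℝ) < (p : ℝ)⁻¹ := inv_pos.2 (by exact_mod_cast (Fact.out : p.Prime).pos)
    exact (pow_pos hp j₁).ne h
  have hny : 0 < ‖y₁‖ := norm_pos_iff.2 hy₁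
  have hgα := h2 p k Γ L ζ hC.ne_one hC.pow_p om η N T hK f hf g x α hα
  have eg : (g • α) ^ p - 1 = g • (α ^ p - 1) := by
    rw [smul_sub, smul_pow', smul_one]
  have hgn : ‖(g • α) ^ p - 1‖ ≤ ‖y₁‖ := by
    rw [eg, hC.act.isom]
    exact hαn
  have hu := h1 p k κ Γ L ζ hC N T rd hrd e j₁ y₁ hJ f (cc om η g * x) α' (g • α) hα' hgα hαn' hgn
  rw [hαΨ', hu, hαΨ]
  set z : L := (α ^ p - 1) / y₁ with hz
  have hzn : ‖z‖ ≤ 1 := by
    rw [hz, norm_div]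
    exact (div_le_one hny).2 hαn
  have e1 : α ^ p - 1 = y₁ * z := by
    rw [hz]
    field_simp
  have e2 : ((g • α) ^ p - 1) / y₁ = (g • y₁ / y₁) * (g • z) := by
    rw [eg, e1, smul_mul']
    ring
  have hn1 : ‖g • y₁ / y₁‖ ≤ 1 := by
    rw [norm_div, hC.act.isom, div_self hny.ne']
  have hn2 : ‖g • z‖ ≤ 1 := by
    rw [hC.act.isom]
    exact hzn
  have hn3 : ‖z ^ Q‖ ≤ 1 := by
    rw [norm_pow]
    exact pow_le_one₀ (norm_nonneg _) hzn
  rw [e2, hrd.mul _ _ hn1 hn2, PsiAct.rd_congr hrd (g • z) (z ^ Q) hn3 (hQ z hzn),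
    PsiAct.rd_pow hrd z hzn]

end Fermat.Agent.TW56.Count

end
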