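/-
TEAM TW56 -> S56, block COUNT (architect helper68).  CNT-E2 : the leading term map is additive.
-/
import Fermat.Agent.TW56.Count.Interface2

set_option autoImplicit false

noncomputable section

namespace Fermat.Agent.TW56.Count

open Fermat.Agent.CFT.Local Fermat.Agent.TW56.Flat

theorem stmt_psiAdd (h3 : Stmt_kumAlg) (h1 : Stmt_psiUniq) : Stmt_psiAdd := by
  intro p _ k κ _ _ _ Γ L _ _ _ _ ζ hC N T rd hrd e j₁ y₁ hJ f Ψ hΨ x x'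
  have hu : IsUltrametricDist L := hC.act.loc.ultra
  have hp1 : (1 : ℝ) < p := by exact_mod_cast (Fact.out : p.Prime).one_lt
  have hpinv0 : (0 : ℝ) < (p : ℝ)⁻¹ := by positivity
  have hpinv1 : (p : ℝ)⁻¹ < 1 := inv_lt_one_of_one_lt₀ hp1
  have hy1pos : 0 < ‖y₁‖ := by
    by_contra hcon
    have h0 : ‖y₁‖ = 0 := le_antisymm (not_lt.1 hcon) (norm_nonneg _)
    have h1 := hJ.norm
    rw [h0, zero_pow hJ.epos.ne'] at h1
    exact (pow_pos hpinv0 j₁).ne h1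
  have hy1lt : ‖y₁‖ < 1 := by
    by_contra hcon
    have h1 : 1 ≤ ‖y₁‖ := not_lt.1 hcon
    have h2 : 1 ≤ ‖y₁‖ ^ e := one_le_pow₀ h1
    rw [hJ.norm] at h2
    exact absurd h2 (not_le.2 (pow_lt_one₀ hpinv0.le hpinv1 (Nat.one_le_iff_ne_zero.1 hJ.one_le)))
  obtain ⟨α, hα, hy, hΨx⟩ := hΨ x
  obtain ⟨α', hα', hy', hΨx'⟩ := hΨ x'
  obtain ⟨β, hβ, hz, hΨs⟩ := hΨ (x + x')
  have hprod : IsKum ζ N T f (x + x') (α * α') :=
    (h3 p k Γ L ζ hC.pow_p N T f f x x' α α' hα).1 hα'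
  have e0 : (α * α') ^ p - 1 = (α ^ p - 1) + (α' ^ p - 1) + (α ^ p - 1) * (α' ^ p - 1) := by
    rw [mul_pow]; ring
  have n3' : ‖(α ^ p - 1) * (α' ^ p - 1)‖ ≤ ‖y₁‖ * ‖y₁‖ := by
    rw [norm_mul]
    exact mul_le_mul hy hy' (norm_nonneg _) (norm_nonneg _)
  have n3'' : ‖(α ^ p - 1) * (α' ^ p - 1)‖ < ‖y₁‖ :=
    n3'.trans_lt (mul_lt_of_lt_one_right hy1pos hy1lt)
  have hn : ‖(α * α') ^ p - 1‖ ≤ ‖y₁‖ := by
    rw [e0]
    refine (IsUltrametricDist.norm_add_le_max _ _).trans (max_le ?_ n3''.le)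
    exact (IsUltrametricDist.norm_add_le_max _ _).trans (max_le hy hy')
  have hU := h1 p k κ Γ L ζ hC N T rd hrd e j₁ y₁ hJ f (x + x') β (α * α') hβ hprod hz hn
  have e1 : ((α * α') ^ p - 1) / y₁
      = ((α ^ p - 1) / y₁ + (α' ^ p - 1) / y₁) + ((α ^ p - 1) * (α' ^ p - 1)) / y₁ := by
    rw [e0]; ring
  have n1 : ‖(α ^ p - 1) / y₁‖ ≤ 1 := by
    rw [norm_div]
    exact div_le_one_of_le₀ hy (norm_nonneg _)
  have n2 : ‖(α' ^ p - 1) / y₁‖ ≤ 1 := by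
    rw [norm_div]
    exact div_le_one_of_le₀ hy' (norm_nonneg _)
  have n12 : ‖(α ^ p - 1) / y₁ + (α' ^ p - 1) / y₁‖ ≤ 1 :=
    (IsUltrametricDist.norm_add_le_max _ _).trans (max_le n1 n2)
  have n3 : ‖((α ^ p - 1) * (α' ^ p - 1)) / y₁‖ < 1 := by
    rw [norm_div, div_lt_one hy1pos]
    exact n3''
  rw [hΨs, hU, e1, hrd.add _ _ n12 n3.le, (hrd.zero_iff _ n3.le).2 n3, add_zero,
    hrd.add _ _ n1 n2, hΨx, hΨx']

end Fermat.Agent.TW56.Count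

end
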