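/-
TEAM TW56 -> S56, block COUNT, CNT-E4 / CNT-E5 : `Stmt_psiInj`, `Stmt_stepVoid`.  helper50.
-/
import Fermat.Agent.TW56.Count.Interface2

set_option autoImplicit false

noncomputable section

namespace Fermat.Agent.TW56.Count

open Fermat.Agent.CFT.Local Fermat.Agent.TW56.Flat

namespace PsiInj

/-- the discreteness of the value group: strictly below the level `j` means at the level `j + 1`. -/
theorem level_succ {p : ℕ} [Fact p.Prime] {Γ L : Type} [Group Γ] [NormedField L]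
    [MulSemiringAction Γ L] {N : Subgroup Γ} {e : ℕ} (he : 0 < e) (hv : HVal p L N e) {y : L}
    (hy : ∀ n ∈ N, n • y = y) {j : ℕ} (hle : ‖y‖ ^ e ≤ ((p : ℝ)⁻¹) ^ j)
    (hne : ‖y‖ ^ e ≠ ((p : ℝ)⁻¹) ^ j) : ‖y‖ ^ e ≤ ((p : ℝ)⁻¹) ^ (j + 1) := by
  have hp1 : (1 : ℝ) < p := by exact_mod_cast (Fact.out : p.Prime).one_lt
  have hp0 : (0 : ℝ) < (p : ℝ)⁻¹ := inv_pos.2 (by linarith)
  have hplt : (p : ℝ)⁻¹ < 1 := inv_lt_one_of_one_lt₀ hp1
  by_cases h0 : y = 0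
  · subst h0
    rw [norm_zero, zero_pow he.ne']
    positivity
  · obtain ⟨i, hi⟩ := hv y hy h0
    rw [hi] at hle hne ⊢
    rw [← zpow_natCast] at hle hne ⊢
    have h1 : (j : ℤ) ≤ i := (zpow_le_zpow_iff_right_of_lt_one₀ hp0 hplt).1 hle
    have h2 : (j : ℤ) ≠ i := by
      rintro h
      exact hne (by rw [h])
    have h3 : ((j + 1 : ℕ) : ℤ) ≤ i := by
      push_cast
      omega
    exact (zpow_le_zpow_iff_right_of_lt_one₀ hp0 hplt).2 h3

end PsiInj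

/-- CNT-E5. -/
theorem stmt_stepVoid (h3 : Stmt_kumAlg) : Stmt_stepVoid := by
  intro p _ k _ _ Γ L _ _ _ ζ hζ N T e he hv f j hvoid hlev x
  obtain ⟨α, hα, hle⟩ := hlev x
  refine ⟨α, hα, ?_⟩
  have hfixp : ∀ n ∈ N, n • (α ^ p) = α ^ p :=
    (h3 p k Γ L ζ hζ N T f f x x α α hα).2.2.2.2.2.2
  have hfix : ∀ n ∈ N, n • (α ^ p - 1) = α ^ p - 1 := by
    intro n hn
    rw [smul_sub, hfixp n hn, smul_one]
  exact PsiInj.level_succ he hv hfix hle (fun h => hvoid ⟨_, hfix, h⟩)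

/-- CNT-E4. -/
theorem stmt_psiInj (h3 : Stmt_kumAlg) : Stmt_psiInj := by
  intro p _ k κ _ _ _ Γ L _ _ _ _ ζ hctx N T rd hrd e j₁ y₁ hJ f f' Ψ hΨ hΨ' x
  have : IsUltrametricDist L := hctx.act.loc.ultra
  obtain ⟨α, hα, hle, hval⟩ := hΨ x
  obtain ⟨α', hα', hle', hval'⟩ := hΨ' x
  have hp1 : (1 : ℝ) < p := by exact_mod_cast (Fact.out : p.Prime).one_lt
  have hp0 : (0 : ℝ) < (p : ℝ)⁻¹ := inv_pos.2 (by linarith)
  have hplt : (p : ℝ)⁻¹ < 1 := inv_lt_one_of_one_lt₀ hp1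
  have hβ : IsKum ζ N T (fun g => f g - f' g) x (α / α') :=
    (h3 p k Γ L ζ hctx.pow_p N T f f' x x α α' hα).2.2.2.2.2.1 hα'
  refine ⟨α / α', hβ, ?_⟩
  have hfixp : ∀ n ∈ N, n • ((α / α') ^ p) = (α / α') ^ p :=
    (h3 p k Γ L ζ hctx.pow_p N T (fun g => f g - f' g) f x x (α / α') α hβ).2.2.2.2.2.2
  have hfix : ∀ n ∈ N, n • ((α / α') ^ p - 1) = (α / α') ^ p - 1 := by
    intro n hn
    rw [smul_sub, hfixp n hn, smul_one]
  -- `‖y₁‖ < 1`, `y₁ ≠ 0`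
  have hy1pos : 0 < ‖y₁‖ := by
    rcases (norm_nonneg y₁).eq_or_lt with h | h
    · exfalso
      have := hJ.norm
      rw [← h, zero_pow hJ.epos.ne'] at this
      exact absurd this (by positivity : (0 : ℝ) < ((p : ℝ)⁻¹) ^ j₁).ne
    · exact h
  have hy1ne : y₁ ≠ 0 := norm_pos_iff.1 hy1pos
  have hy1lt : ‖y₁‖ < 1 := by
    by_contra h
    push Not at h
    have h1 : (1 : ℝ) ≤ ‖y₁‖ ^ e := one_le_pow₀ h
    rw [hJ.norm] at h1
    have h2 : ((p : ℝ)⁻¹) ^ j₁ < 1 := pow_lt_one₀ hp0.le hplt (by have := hJ.one_le; omega)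
    linarith
  -- the leading terms
  set y := α ^ p - 1 with hy
  set y' := α' ^ p - 1 with hy'
  have hn1 : ‖y / y₁‖ ≤ 1 := by
    rw [norm_div]; exact (div_le_one hy1pos).2 hle
  have hn2 : ‖y' / y₁‖ ≤ 1 := by
    rw [norm_div]; exact (div_le_one hy1pos).2 hle'
  have hn3 : ‖(y - y') / y₁‖ ≤ 1 := by
    rw [sub_div, sub_eq_add_neg]
    exact (IsUltrametricDist.norm_add_le_max _ _).trans (max_le hn1 (by rw [norm_neg]; exact hn2))
  have hrd0 : rd ((y - y') / y₁) = 0 := by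
    have h1 := hrd.add ((y - y') / y₁) (y' / y₁) hn3 hn2
    have h2 : (y - y') / y₁ + y' / y₁ = y / y₁ := by ring
    rw [h2, ← hval, ← hval'] at h1
    exact (add_eq_right.1 h1.symm)
  have hlt : ‖y - y'‖ < ‖y₁‖ := by
    have := (hrd.zero_iff _ hn3).1 hrd0
    rw [norm_div] at this
    exact (div_lt_one hy1pos).1 this
  -- `‖α'^p‖ = 1`
  have hα'p : ‖α' ^ p‖ = 1 := by
    have h1 : α' ^ p = 1 + y' := by rw [hy']; ring
    rw [h1]
    have h2 : ‖y'‖ < ‖(1 : L)‖ := by rw [norm_one]; exact lt_of_le_of_lt hle' hy1lt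
    rw [IsUltrametricDist.norm_add_eq_max_of_norm_ne_norm h2.ne', norm_one]
    exact max_eq_left (by rw [norm_one] at h2; exact h2.le)
  have hα'0 : α' ^ p ≠ 0 := by
    intro h; rw [h, norm_zero] at hα'p; exact zero_ne_one hα'p
  have heq : (α / α') ^ p - 1 = (y - y') / α' ^ p := by
    rw [div_pow, hy, hy']
    field_simp
    ring
  have hlt' : ‖(α / α') ^ p - 1‖ < ‖y₁‖ := by
    rw [heq, norm_div, hα'p, div_one]; exact hlt
  have hlt'' : ‖(α / α') ^ p - 1‖ ^ e < ((p : ℝ)⁻¹) ^ j₁ := by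
    rw [← hJ.norm]
    exact pow_lt_pow_left₀ hlt' (norm_nonneg _) hJ.epos.ne'
  exact PsiInj.level_succ hJ.epos hJ.hval hfix hlt''.le hlt''.ne

end Fermat.Agent.TW56.Count

end
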