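/-
TEAM TW56 -> S56, block COUNT (architect helper68).  CNT-E1 : the leading term does not depend on the
Kummer generator.
-/
import Fermat.Agent.TW56.Count.Interface2

set_option autoImplicit false

noncomputable section

namespace Fermat.Agent.TW56.Count

open Fermat.Agent.CFT.Local Fermat.Agent.TW56.Flat

theorem stmt_psiUniq (h3 : Stmt_kumAlg) (h5 : Stmt_wellDef) : Stmt_psiUniq := by
  intro p _ k κ _ _ _ Γ L _ _ _ _ ζ hC N T rd hrd e j₁ y₁ hJ f x α α' hα hα' hy hy'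
  have hu : IsUltrametricDist L := hC.act.loc.ultra
  have hp1 : (1 : ℝ) < p := by exact_mod_cast (Fact.out : p.Prime).one_lt
  have hpinv0 : (0 : ℝ) < (p : ℝ)⁻¹ := by positivity
  have hpinv1 : (p : ℝ)⁻¹ < 1 := inv_lt_one_of_one_lt₀ hp1
  have hy1pos : 0 < ‖y₁‖ := by
    by_contra hcon
    have h0 : ‖y₁‖ = 0 := le_antisymm (not_lt.1 hcon) (norm_nonneg _)
    have h1 := hJ.norm
    rw [h0, zero_pow hJ.epos.ne'] at h1
    exact (pow_pos hpinv0 j₁).ne h1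
  have hy1lt : ‖y₁‖ < 1 := by
    by_contra hcon
    have h1 : 1 ≤ ‖y₁‖ := not_lt.1 hcon
    have h2 : 1 ≤ ‖y₁‖ ^ e := one_le_pow₀ h1
    rw [hJ.norm] at h2
    exact absurd h2 (not_le.2 (pow_lt_one₀ hpinv0.le hpinv1 (Nat.one_le_iff_ne_zero.1 hJ.one_le)))
  have hα0 : α ≠ 0 := hα.1
  have hαp : ‖α ^ p‖ = 1 := by
    have h1 : α ^ p = 1 + (α ^ p - 1) := by ring
    have hlt : ‖α ^ p - 1‖ < ‖(1 : L)‖ := by
      rw [norm_one]
      exact hy.trans_lt hy1lt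
    rw [h1, IsUltrametricDist.norm_add_eq_max_of_norm_ne_norm hlt.ne', max_eq_left hlt.le, norm_one]
  have hbfix : ∀ n ∈ N, n • (α' / α) = α' / α :=
    (h3 p k Γ L ζ hC.pow_p N T f f x x α α' hα).2.2.2.2.1 hα'
  have hb : (α' / α) ^ p - 1 = (α' ^ p - α ^ p) / α ^ p := by
    rw [div_pow, sub_div, div_self (pow_ne_zero p hα0)]
  have hbn : ‖(α' / α) ^ p - 1‖ = ‖α' ^ p - α ^ p‖ := by rw [hb, norm_div, hαp, div_one]
  have hd : ‖α' ^ p - α ^ p‖ ≤ ‖y₁‖ := by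
    have h1 : α' ^ p - α ^ p = (α' ^ p - 1) + -(α ^ p - 1) := by ring
    rw [h1]
    exact (IsUltrametricDist.norm_add_le_max _ _).trans (max_le hy' (by rw [norm_neg]; exact hy))
  have h6 : ‖(α' / α) ^ p - 1‖ ^ e ≤ ((p : ℝ)⁻¹) ^ j₁ := by
    rw [← hJ.norm, hbn]
    exact pow_le_pow_left₀ (norm_nonneg _) hd e
  have h7 := h5 p Γ L ζ hC N e hJ.epos hJ.hval j₁ (α' / α) hJ.one_le hJ.ndvd hJ.lt hbfix h6
  have h8 : ‖α' ^ p - α ^ p‖ < ‖y₁‖ := by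
    rw [hbn] at h7
    have h9 : ‖α' ^ p - α ^ p‖ ^ e < ‖y₁‖ ^ e := by
      rw [hJ.norm]
      refine h7.trans_lt ?_
      rw [pow_succ]
      exact mul_lt_of_lt_one_right (pow_pos hpinv0 _) hpinv1
    exact lt_of_pow_lt_pow_left₀ e (norm_nonneg _) h9
  have e1 : (α' ^ p - 1) / y₁ = (α ^ p - 1) / y₁ + (α' ^ p - α ^ p) / y₁ := by ring
  have n1 : ‖(α ^ p - 1) / y₁‖ ≤ 1 := by
    rw [norm_div]
    exact div_le_one_of_le₀ hy (norm_nonneg _)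
  have n2 : ‖(α' ^ p - α ^ p) / y₁‖ < 1 := by
    rw [norm_div, div_lt_one hy1pos]
    exact h8
  rw [e1, hrd.add _ _ n1 n2.le, (hrd.zero_iff _ n2.le).2 n2, add_zero]

end Fermat.Agent.TW56.Count

end
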