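/-
TEAM TW56 -> S56, block COUNT, CNT-C9 : a reduction map exists (`Stmt_rdEx`).
-/
import Fermat.Agent.TW56.Count.Interface2
import Fermat.Agent.CFT.Local.Reps

set_option autoImplicit false

noncomputable section

namespace Fermat.Agent.TW56.Count

open Fermat.Agent.CFT.Local Fermat.Agent.TW56.Flat

/-- **CNT-C9** -/
theorem stmt_rdEx : Stmt_rdEx := by
  intro p _ L _ hL hp
  have := hL.ultra
  classical
  have hfin := finite_resField hL
  let rd : L → ResField L := fun z => if h : ‖z‖ ≤ 1 then red L ⟨z, h⟩ else 0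
  have hrd : ∀ (z : L) (h : ‖z‖ ≤ 1), rd z = red L ⟨z, h⟩ := fun z h => dif_pos h
  have hchar : CharP (ResField L) p := by
    rw [CharP.charP_iff_prime_eq_zero (Fact.out : p.Prime)]
    have h1 : ((p : ℕ) : ResField L) = red L (p : repsO L) := (map_natCast _ _).symm
    rw [h1, red_eq_zero_iff]
    push_cast
    rw [hp]
    exact inv_lt_one_of_one_lt₀ (by exact_mod_cast (Fact.out : p.Prime).one_lt)
  refine ⟨ResField L, inferInstance, hfin, hchar, rd, ?_, ?_, ?_, ?_⟩
  · intro x y hx hy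
    have hxy : ‖x + y‖ ≤ 1 := (IsUltrametricDist.norm_add_le_max _ _).trans (max_le hx hy)
    rw [hrd _ hx, hrd _ hy, hrd _ hxy, ← map_add]
    rfl
  · intro x y hx hy
    have hxy : ‖x * y‖ ≤ 1 := by
      rw [norm_mul]
      exact mul_le_one₀ hx (norm_nonneg _) hy
    rw [hrd _ hx, hrd _ hy, hrd _ hxy, ← map_mul]
    rfl
  · have h1 : ‖(1 : L)‖ ≤ 1 := by simp
    rw [hrd _ h1, ← map_one (red L)]
    rfl
  · intro x hx
    rw [hrd _ hx, red_eq_zero_iff]

end Fermat.Agent.TW56.Count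

end
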