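/-
TEAM TW56 -> S56, block COUNT.  CNT-D2: a level where the tame character differs from `c_s` is not a jump.
-/
import Fermat.Agent.TW56.Count.Interface2

set_option autoImplicit false

noncomputable section

namespace Fermat.Agent.TW56.Count

open Fermat.Agent.CFT.Local Fermat.Agent.TW56.Flat

namespace StepLin

variable {L : Type} [NormedField L] [IsUltrametricDist L]

theorem norm_one_add {y : L} (hy : ‖y‖ < 1) : ‖1 + y‖ = 1 := by
  apply le_antisymm
  · refine (IsUltrametricDist.norm_add_le_max _ _).trans (max_le ?_ hy.le)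
    rw [norm_one]
  · by_contra h
    have h1 : ‖(1 : L)‖ < 1 := by
      have e : (1 : L) = (1 + y) + -y := by ring
      rw [e]
      refine lt_of_le_of_lt (IsUltrametricDist.norm_add_le_max _ _) (max_lt (not_le.1 h) ?_)
      rw [norm_neg]; exact hy
    rw [norm_one] at h1
    exact lt_irrefl _ h1

theorem norm_binom {y : L} (hy : ‖y‖ < 1) (m : ℕ) :
    ‖(1 + y) ^ m - 1 - (m : L) * y‖ ≤ ‖y‖ ^ 2 := by
  induction m with
  | zero => simp
  | succ m ih =>
    have e : (1 + y) ^ (m + 1) - 1 - ((m + 1 : ℕ) : L) * y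
        = (1 + y) * ((1 + y) ^ m - 1 - (m : L) * y) + (m : L) * y ^ 2 := by
      push_cast; ring
    rw [e]
    refine (IsUltrametricDist.norm_add_le_max _ _).trans (max_le ?_ ?_)
    · rw [norm_mul, norm_one_add hy, one_mul]; exact ih
    · rw [norm_mul, norm_pow]
      exact mul_le_of_le_one_left (by positivity) (IsUltrametricDist.norm_natCast_le_one L m)

omit [IsUltrametricDist L] in
/-- the gap in the value group. -/
theorem gap {Γ : Type} [Group Γ] [MulSemiringAction Γ L] {p : ℕ} (hp : p.Prime) {N : Subgroup Γ}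
    {e : ℕ} (he : 0 < e) (hv : HVal p L N e) {z : L} (hz : ∀ n ∈ N, n • z = z) {j : ℕ}
    (h : ‖z‖ ^ e < ((p : ℝ)⁻¹) ^ j) : ‖z‖ ^ e ≤ ((p : ℝ)⁻¹) ^ (j + 1) := by
  have hp0 : (0 : ℝ) < (p : ℝ)⁻¹ := inv_pos.2 (by exact_mod_cast hp.pos)
  have hp1 : (p : ℝ)⁻¹ < 1 := inv_lt_one_of_one_lt₀ (by exact_mod_cast hp.one_lt)
  by_cases hz0 : z = 0
  · rw [hz0, norm_zero, zero_pow he.ne']
    positivity
  obtain ⟨i, hi⟩ := hv z hz hz0
  rw [hi] at h ⊢
  rw [← zpow_natCast, zpow_lt_zpow_iff_right_of_lt_one₀ hp0 hp1] at h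
  rw [← zpow_natCast]
  exact zpow_le_zpow_right_of_le_one₀ hp0 hp1.le (by push_cast; omega)

end StepLin

theorem stmt_stepLin (h2 : Stmt_kumAct) (h3 : Stmt_kumAlg) : Stmt_stepLin := by
  intro p _ k _ _ Γ L _ _ _ _ ζ hctx om η N T hK e he hv f hf j s m hj hH hc hlev x
  have hp : p.Prime := Fact.out
  have := hctx.act.loc.ultra
  have hp0 : (0 : ℝ) < (p : ℝ)⁻¹ := inv_pos.2 (by exact_mod_cast hp.pos)
  have hp1 : (p : ℝ)⁻¹ < 1 := inv_lt_one_of_one_lt₀ (by exact_mod_cast hp.one_lt)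
  have hc' : cc om η s - (m : k) ≠ 0 := sub_ne_zero.2 hc
  obtain ⟨α, hα, hαn⟩ := hlev (x / (cc om η s - (m : k)))
  set x' := x / (cc om η s - (m : k)) with hx'
  set y := α ^ p - 1 with hy
  have ha : α ^ p = 1 + y := by rw [hy]; ring
  -- Kummer generators
  have k1 : IsKum ζ N T f (cc om η s * x') (s • α) :=
    h2 p k Γ L ζ hctx.ne_one hctx.pow_p om η N T hK f hf s x' α hα
  have k2 : IsKum ζ N T f ((m : k) * x') (α ^ m) :=
    (h3 p k Γ L ζ hctx.pow_p N T f f x' x' α α hα).2.2.1 m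
  have k3 : IsKum ζ N T f (cc om η s * x' - (m : k) * x') (s • α / α ^ m) :=
    (h3 p k Γ L ζ hctx.pow_p N T f f _ _ (s • α) (α ^ m) k1).2.1 k2
  have hxx : cc om η s * x' - (m : k) * x' = x := by
    rw [← sub_mul, hx', mul_div_cancel₀ _ hc']
  rw [hxx] at k3
  have hfixy : ∀ n ∈ N, n • y = y := by
    intro n hn
    have := (h3 p k Γ L ζ hctx.pow_p N T f f x' x' α α hα).2.2.2.2.2.2 n hn
    rw [hy, smul_sub, this, smul_one]
  have hfixz : ∀ n ∈ N, n • ((s • α / α ^ m) ^ p - 1) = (s • α / α ^ m) ^ p - 1 := by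
    intro n hn
    have := (h3 p k Γ L ζ hctx.pow_p N T f f x x _ α k3).2.2.2.2.2.2 n hn
    rw [smul_sub, this, smul_one]
  -- norms
  have hy1 : ‖y‖ < 1 := by
    by_contra h
    have h1 : (1 : ℝ) ≤ ‖y‖ ^ e := one_le_pow₀ (not_lt.1 h)
    have h4 : ((p : ℝ)⁻¹) ^ j < 1 := pow_lt_one₀ hp0.le hp1 (by omega)
    linarith
  have hnorm : ‖(s • α / α ^ m) ^ p - 1‖ = ‖(s • y - (m : L) * y) - ((1 + y) ^ m - 1 - (m : L) * y)‖ := by
    have hne : (1 + y) ^ m ≠ 0 := by
      rw [← ha]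
      exact pow_ne_zero _ (pow_ne_zero _ hα.1)
    have e1 : (s • α / α ^ m) ^ p - 1
        = ((s • y - (m : L) * y) - ((1 + y) ^ m - 1 - (m : L) * y)) / (1 + y) ^ m := by
      rw [div_pow, ← smul_pow', ← pow_mul, mul_comm m p, pow_mul, ha, smul_add, smul_one]
      field_simp
      ring
    rw [e1, norm_div, norm_pow, StepLin.norm_one_add hy1, one_pow, div_one]
  have hb2 : ‖(1 + y) ^ m - 1 - (m : L) * y‖ ≤ ‖y‖ ^ 2 := StepLin.norm_binom hy1 m
  refine ⟨s • α / α ^ m, k3, StepLin.gap hp he hv hfixz ?_⟩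
  rcases lt_or_eq_of_le hαn with hlt | heq
  · -- `‖y‖^e < p^{-j}`
    refine lt_of_le_of_lt (pow_le_pow_left₀ (norm_nonneg _) ?_ e) hlt
    rw [hnorm, sub_eq_add_neg]
    refine (IsUltrametricDist.norm_add_le_max _ _).trans (max_le ?_ ?_)
    · rw [sub_eq_add_neg]
      refine (IsUltrametricDist.norm_add_le_max _ _).trans (max_le (hctx.act.isom s y).le ?_)
      rw [norm_neg, norm_mul]
      exact mul_le_of_le_one_left (norm_nonneg _) (IsUltrametricDist.norm_natCast_le_one L m)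
    · rw [norm_neg]
      refine hb2.trans ?_
      rw [pow_two]
      exact mul_le_of_le_one_left (norm_nonneg _) hy1.le
  · -- `‖y‖^e = p^{-j}`
    have hy0 : 0 < ‖y‖ := by
      rcases (norm_nonneg y).lt_or_eq with h | h
      · exact h
      · exfalso
        rw [← h, zero_pow he.ne'] at heq
        exact (pow_pos hp0 j).ne heq
    rw [← heq]
    refine pow_lt_pow_left₀ ?_ (norm_nonneg _) he.ne'
    rw [hnorm, sub_eq_add_neg]
    refine lt_of_le_of_lt (IsUltrametricDist.norm_add_le_max _ _) (max_lt (hH y hfixy heq) ?_)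
    rw [norm_neg]
    refine lt_of_le_of_lt hb2 ?_
    rw [pow_two]
    exact mul_lt_of_lt_one_left hy0 hy1

end Fermat.Agent.TW56.Count

end
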