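/-
TEAM TW56 -> S56, block COUNT, task CNT-D5 (helper54): `p`-th powers of `L^N` have no leading term at a
level prime to `p`.
-/
import Fermat.Agent.TW56.Count.Interface2

set_option autoImplicit false

noncomputable section

namespace Fermat.Agent.TW56.Count

open Fermat.Agent.CFT.Local Fermat.Agent.TW56.Flat

namespace WellDef

lemma norm_one_of_sub {L : Type} [NormedField L] [IsUltrametricDist L] {x : L}
    (h : ‖x - 1‖ < 1) : ‖x‖ = 1 := by
  have h1 : ‖x - 1‖ ≠ ‖(1 : L)‖ := by rw [norm_one]; exact h.ne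
  have h2 := IsUltrametricDist.norm_add_eq_max_of_norm_ne_norm h1
  rw [sub_add_cancel, norm_one, max_eq_right h.le] at h2
  exact h2

/-- `(1 + z)^p - 1 = z^p + p z r` with `r` integral. -/
lemma expand {L : Type} [NormedField L] [IsUltrametricDist L] {p : ℕ} (hp : p.Prime) {z : L}
    (hz : ‖z‖ ≤ 1) : ∃ r : L, ‖r‖ ≤ 1 ∧ (z + 1) ^ p - 1 = z ^ p + (p : L) * z * r := by
  refine ⟨∑ k ∈ Finset.Ioo 0 p, z ^ (k - 1) * 1 ^ (p - k - 1) * ((p.choose k / p : ℕ) : L), ?_, ?_⟩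
  · refine IsUltrametricDist.norm_sum_le_of_forall_le_of_nonneg zero_le_one fun k _ => ?_
    rw [norm_mul, norm_mul, norm_pow, one_pow, norm_one, mul_one]
    exact mul_le_one₀ (pow_le_one₀ (norm_nonneg _) hz) (norm_nonneg _)
      (IsUltrametricDist.norm_natCast_le_one L _)
  · rw [add_pow_prime_eq hp z 1]
    ring

end WellDef

open WellDef in
/-- CNT-D5. `p`-th powers of `L^N` have no leading term at a level prime to `p`. -/
theorem stmt_wellDef : Stmt_wellDef := by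
  intro p _ Γ L _ _ _ _ ζ hC N e he hV j b hj hpj hlt hb hle
  have hp : p.Prime := Fact.out
  have hU : IsUltrametricDist L := hC.act.loc.ultra
  set ρ : ℝ := (p : ℝ)⁻¹ with hρ
  have hρ0 : 0 < ρ := inv_pos.2 (Nat.cast_pos.2 hp.pos)
  have hρ1 : ρ < 1 := inv_lt_one_of_one_lt₀ (Nat.one_lt_cast.2 hp.one_lt)
  have he0 : e ≠ 0 := he.ne'
  -- `‖b - 1‖ ≤ 1`
  have hY1 : ‖b ^ p - 1‖ < 1 := by
    by_contra h
    have h0 : 1 ≤ ‖b ^ p - 1‖ := not_lt.1 h
    have h1 : 1 ≤ ‖b ^ p - 1‖ ^ e := one_le_pow₀ h0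
    have h2 : ρ ^ j < 1 := pow_lt_one₀ hρ0.le hρ1 (by omega)
    linarith
  have hbp : ‖b ^ p‖ = 1 := norm_one_of_sub hY1
  have hb1 : ‖b‖ = 1 := by
    rw [norm_pow] at hbp
    exact (pow_eq_one_iff_of_nonneg (norm_nonneg _) hp.ne_zero).1 hbp
  obtain ⟨z, hz⟩ : ∃ z : L, z = b - 1 := ⟨_, rfl⟩
  have hbz : b = z + 1 := by rw [hz]; ring
  have hz1 : ‖z‖ ≤ 1 := by
    rw [hz, sub_eq_add_neg]
    refine (IsUltrametricDist.norm_add_le_max _ _).trans (max_le hb1.le ?_)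
    rw [norm_neg, norm_one]
  obtain ⟨r, hr, hexp⟩ := expand hp hz1
  rw [← hbz] at hexp
  have hzN : ∀ n ∈ N, n • z = z := by
    intro n hn
    rw [hz, smul_sub, hb n hn, smul_one]
  by_cases hz0 : z = 0
  · rw [hexp, hz0, zero_pow hp.ne_zero, mul_zero, zero_mul, add_zero, norm_zero, zero_pow he0]
    positivity
  obtain ⟨i, hi⟩ := hV z hzN hz0
  rw [← hρ] at hi
  -- the two terms
  have hA : ‖z ^ p‖ ^ e = ρ ^ ((p : ℤ) * i) := by
    rw [norm_pow, ← pow_mul, mul_comm p e, pow_mul, hi, ← zpow_natCast (ρ ^ i) p, ← zpow_mul,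
      mul_comm]
  have hB : ‖(p : L) * z * r‖ ^ e ≤ ρ ^ ((e : ℤ) + i) := by
    rw [norm_mul, norm_mul, hC.normp, ← hρ, mul_pow, mul_pow, hi, zpow_add₀ hρ0.ne', zpow_natCast]
    exact mul_le_of_le_one_right (by positivity) (pow_le_one₀ (norm_nonneg _) hr)
  have hcast : ((j : ℤ)) * ((p : ℤ) - 1) < (p : ℤ) * e := by
    have h1 : ((p - 1 : ℕ) : ℤ) = (p : ℤ) - 1 := by
      rw [Nat.cast_sub hp.one_le, Nat.cast_one]
    have h2 : ((j * (p - 1) : ℕ) : ℤ) < ((p * e : ℕ) : ℤ) := by exact_mod_cast hlt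
    rw [Nat.cast_mul, Nat.cast_mul, h1] at h2
    exact h2
  have hp2 : (2 : ℤ) ≤ (p : ℤ) := by exact_mod_cast hp.two_le
  rw [← zpow_natCast ρ (j + 1)]
  rw [← zpow_natCast ρ j] at hle
  rcases lt_or_ge ((p : ℤ) * i) ((e : ℤ) + i) with hcase | hcase
  · -- `‖z‖^p` dominates
    have h1 : ‖(p : L) * z * r‖ ^ e < ‖z ^ p‖ ^ e := by
      rw [hA]
      exact hB.trans_lt ((zpow_lt_zpow_iff_right_of_lt_one₀ hρ0 hρ1).2 hcase)
    have h2 : ‖(p : L) * z * r‖ < ‖z ^ p‖ :=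
      (pow_lt_pow_iff_left₀ (norm_nonneg _) (norm_nonneg _) he0).1 h1
    have h3 : ‖b ^ p - 1‖ = ‖z ^ p‖ := by
      rw [hexp, IsUltrametricDist.norm_add_eq_max_of_norm_ne_norm h2.ne', max_eq_left h2.le]
    rw [h3, hA] at hle ⊢
    have h4 : (j : ℤ) ≤ (p : ℤ) * i := (zpow_le_zpow_iff_right_of_lt_one₀ hρ0 hρ1).1 hle
    have h5 : (j : ℤ) ≠ (p : ℤ) * i := by
      intro h
      exact hpj (Int.natCast_dvd_natCast.1 ⟨i, h⟩)
    refine (zpow_le_zpow_iff_right_of_lt_one₀ hρ0 hρ1).2 ?_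
    push_cast
    omega
  · -- both terms are small
    have h1 : ‖z ^ p‖ ^ e ≤ ρ ^ ((e : ℤ) + i) := by
      rw [hA]
      exact (zpow_le_zpow_iff_right_of_lt_one₀ hρ0 hρ1).2 hcase
    have h2 : ‖b ^ p - 1‖ ^ e ≤ ρ ^ ((e : ℤ) + i) := by
      rw [hexp]
      rcases le_total ‖z ^ p‖ ‖(p : L) * z * r‖ with h | h
      · refine le_trans (pow_le_pow_left₀ (norm_nonneg _) ?_ e) hB
        exact (IsUltrametricDist.norm_add_le_max _ _).trans (max_le h le_rfl)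
      · refine le_trans (pow_le_pow_left₀ (norm_nonneg _) ?_ e) h1
        exact (IsUltrametricDist.norm_add_le_max _ _).trans (max_le le_rfl h)
    refine h2.trans ((zpow_le_zpow_iff_right_of_lt_one₀ hρ0 hρ1).2 ?_)
    push_cast
    by_contra hcon
    have h3 : (e : ℤ) + i ≤ j := by omega
    have h4 : ((e : ℤ) + i) * ((p : ℤ) - 1) ≤ (j : ℤ) * ((p : ℤ) - 1) :=
      mul_le_mul_of_nonneg_right h3 (by omega)
    nlinarith

end Fermat.Agent.TW56.Count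

end
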