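/-
TEAM TW56 -> S56, block COUNT, task CNT-D3 (helper46): a level divisible by `p` is not a jump.
-/
import Fermat.Agent.TW56.Count.WellDef

set_option autoImplicit false

noncomputable section

namespace Fermat.Agent.TW56.Count

open Fermat.Agent.CFT.Local Fermat.Agent.TW56.Flat

namespace StepPow

/-- the reduction map commutes with powers -/
lemma rd_pow {L κ : Type} [NormedField L] [Field κ] {rd : L → κ} (h : IsRd rd) {v : L}
    (hv : ‖v‖ ≤ 1) (m : ℕ) : rd (v ^ m) = rd v ^ m := by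
  induction m with
  | zero => simp [h.one]
  | succ m ih =>
    rw [pow_succ, pow_succ, h.mul _ _ (by rw [norm_pow]; exact pow_le_one₀ (norm_nonneg _) hv) hv, ih]

lemma rd_zero {L κ : Type} [NormedField L] [Field κ] {rd : L → κ} (h : IsRd rd) : rd 0 = 0 :=
  (h.zero_iff 0 (by simp)).2 (by simp)

lemma rd_neg {L κ : Type} [NormedField L] [Field κ] {rd : L → κ} (h : IsRd rd) {v : L}
    (hv : ‖v‖ ≤ 1) : rd (-v) = - rd v := by
  have h1 := h.add v (-v) hv (by rwa [norm_neg])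
  rw [add_neg_cancel, rd_zero h] at h1
  exact (neg_eq_of_add_eq_zero_right h1.symm).symm

/-- the residue field is perfect -/
lemma perfect {p : ℕ} [Fact p.Prime] {L κ : Type} [NormedField L] [IsUltrametricDist L] [Field κ]
    [Finite κ] [CharP κ p] {rd : L → κ} (h : IsRd rd) :
    ∃ m : ℕ, ∀ v : L, ‖v‖ ≤ 1 → ‖v - (v ^ m) ^ p‖ < 1 := by
  classical
  haveI : Fintype κ := Fintype.ofFinite κ
  obtain ⟨n, -, hn⟩ := FiniteField.card κ p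
  refine ⟨p ^ ((n : ℕ) - 1), fun v hv => ?_⟩
  have hQ : (v ^ (p ^ ((n : ℕ) - 1))) ^ p = v ^ Fintype.card κ := by
    rw [← pow_mul, ← pow_succ, hn, Nat.sub_add_cancel n.pos]
  rw [hQ]
  have hvQ : ‖v ^ Fintype.card κ‖ ≤ 1 := by rw [norm_pow]; exact pow_le_one₀ (norm_nonneg _) hv
  have h1 : rd (v + -(v ^ Fintype.card κ)) = 0 := by
    rw [h.add _ _ hv (by rwa [norm_neg]), rd_neg h hvQ, rd_pow h hv, FiniteField.pow_card,
      add_neg_cancel]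
  rw [sub_eq_add_neg]
  refine (h.zero_iff _ ?_).1 h1
  refine (IsUltrametricDist.norm_add_le_max _ _).trans (max_le hv ?_)
  rwa [norm_neg]

/-- a `p`-th root of the norm -/
lemma root_norm {p : ℕ} [Fact p.Prime] {L : Type} [NormedField L] (hnp : ‖(p : L)‖ = (p : ℝ)⁻¹)
    (F : Subfield L) {e : ℕ} (hcop : Nat.Coprime e p) {j : ℕ} (hpj : p ∣ j) {y : L} (hyF : y ∈ F)
    (hy0 : y ≠ 0) (hy : ‖y‖ ^ e = ((p : ℝ)⁻¹) ^ j) : ∃ z ∈ F, ‖z‖ ^ p = ‖y‖ := by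
  obtain ⟨j', rfl⟩ := hpj
  obtain ⟨w, u, huw⟩ := Nat.isCoprime_iff_coprime.mpr hcop
  have hn0 : ‖y‖ ≠ 0 := norm_ne_zero_iff.2 hy0
  refine ⟨y ^ u * (p : L) ^ (w * j'), F.mul_mem (F.zpow_mem hyF _) (F.zpow_mem (natCast_mem F p) _),
    ?_⟩
  rw [norm_mul, norm_zpow, norm_zpow, hnp, mul_pow, ← zpow_natCast, ← zpow_natCast, ← zpow_mul,
    ← zpow_mul]
  have h1 : ((p : ℝ)⁻¹) ^ (w * (j' : ℤ) * (p : ℤ)) = ‖y‖ ^ (w * (e : ℤ)) := by
    have h2 : ‖y‖ ^ (w * (e : ℤ)) = (‖y‖ ^ e) ^ w := by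
      rw [mul_comm, zpow_mul, zpow_natCast]
    rw [h2, hy, ← zpow_natCast, ← zpow_mul]
    congr 1
    push_cast
    ring
  rw [h1, ← zpow_add₀ hn0]
  have h3 : u * (p : ℤ) + w * (e : ℤ) = 1 := by linarith
  rw [h3, zpow_one]

/-- the core: improve `a = 1 + y` by a `p`-th power -/
theorem core {p : ℕ} [Fact p.Prime] (hp2 : p ≠ 2) {L : Type} [NormedField L] [IsUltrametricDist L]
    (hnp : ‖(p : L)‖ = (p : ℝ)⁻¹) (F : Subfield L) {e : ℕ} (hcop : Nat.Coprime e p)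
    (hQ : ∃ m : ℕ, ∀ v : L, ‖v‖ ≤ 1 → ‖v - (v ^ m) ^ p‖ < 1) {j : ℕ} (hj1 : 1 ≤ j) (hpj : p ∣ j)
    (hlt : j * (p - 1) < p * e) {a : L} (ha : a ∈ F) (hy : ‖a - 1‖ ^ e = ((p : ℝ)⁻¹) ^ j) :
    ∃ b ∈ F, b ≠ 0 ∧ ‖a * b ^ p - 1‖ < ‖a - 1‖ := by
  have hp : p.Prime := Fact.out
  have hp0 : (0 : ℝ) < p := by exact_mod_cast hp.pos
  have hp1 : (1 : ℝ) < p := by exact_mod_cast hp.one_lt
  have hq0 : (0 : ℝ) < (p : ℝ)⁻¹ := inv_pos.2 hp0
  have hq1 : (p : ℝ)⁻¹ < 1 := inv_lt_one_of_one_lt₀ hp1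
  have he0 : e ≠ 0 := by
    rintro rfl
    simp at hlt
  set y : L := a - 1 with hydef
  have hyF : y ∈ F := F.sub_mem ha F.one_mem
  have hyn0 : ‖y‖ ≠ 0 := by
    intro h0
    rw [h0, zero_pow he0] at hy
    exact (pow_pos hq0 j).ne hy
  have hy0 : y ≠ 0 := norm_ne_zero_iff.1 hyn0
  have hypos : 0 < ‖y‖ := norm_pos_iff.2 hy0
  have hy1 : ‖y‖ < 1 := by
    by_contra hcon
    have h1 : 1 ≤ ‖y‖ ^ e := one_le_pow₀ (not_lt.1 hcon)
    rw [hy] at h1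
    exact absurd h1 (not_le.2 (pow_lt_one₀ hq0.le hq1 (by omega)))
  obtain ⟨z₀, hz₀F, hz₀⟩ := root_norm hnp F hcop hpj hyF hy0 hy
  have hz₀n : ‖z₀‖ ≠ 0 := by
    intro h0
    rw [h0, zero_pow hp.ne_zero] at hz₀
    exact hyn0 hz₀.symm
  have hz₀0 : z₀ ≠ 0 := norm_ne_zero_iff.1 hz₀n
  obtain ⟨m, hm⟩ := hQ
  set v : L := y / z₀ ^ p with hvdef
  have hvF : v ∈ F := F.div_mem hyF (F.pow_mem hz₀F p)
  have hv1 : ‖v‖ = 1 := by
    rw [hvdef, norm_div, norm_pow, hz₀, div_self hyn0]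
  set z : L := z₀ * v ^ m with hzdef
  have hzF : z ∈ F := F.mul_mem hz₀F (F.pow_mem hvF m)
  have hzn : ‖z‖ = ‖z₀‖ := by rw [hzdef, norm_mul, norm_pow, hv1, one_pow, mul_one]
  have hzp : ‖z‖ ^ p = ‖y‖ := by rw [hzn, hz₀]
  have hzpos : 0 < ‖z‖ := by rw [hzn]; exact lt_of_le_of_ne (norm_nonneg _) (Ne.symm hz₀n)
  have hz1 : ‖z‖ < 1 := by
    by_contra hcon
    have h1 : 1 ≤ ‖z‖ ^ p := one_le_pow₀ (not_lt.1 hcon)
    rw [hzp] at h1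
    exact absurd h1 (not_le.2 hy1)
  -- `‖y - z^p‖ < ‖y‖`
  have hA : ‖y - z ^ p‖ < ‖y‖ := by
    have h1 : y - z ^ p = z₀ ^ p * (v - (v ^ m) ^ p) := by
      rw [hzdef, mul_pow, mul_sub, hvdef, mul_div_cancel₀ _ (pow_ne_zero p hz₀0)]
    rw [h1, norm_mul, norm_pow, hz₀]
    calc ‖y‖ * ‖v - (v ^ m) ^ p‖ < ‖y‖ * 1 := by
          exact mul_lt_mul_of_pos_left (hm v hv1.le) hypos
      _ = ‖y‖ := mul_one _
  -- `‖p z‖ < ‖y‖`
  have hB : (p : ℝ)⁻¹ * ‖z‖ < ‖y‖ := by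
    have h1 : (p : ℝ)⁻¹ < ‖z‖ ^ (p - 1) := by
      by_contra hcon
      have h2 : (‖z‖ ^ (p - 1)) ^ (p * e) ≤ ((p : ℝ)⁻¹) ^ (p * e) :=
        pow_le_pow_left₀ (by positivity) (not_lt.1 hcon) _
      have h3 : (‖z‖ ^ (p - 1)) ^ (p * e) = ((p : ℝ)⁻¹) ^ (j * (p - 1)) := by
        rw [pow_mul ((p : ℝ)⁻¹), ← hy, ← hzp, ← pow_mul, ← pow_mul, ← pow_mul]
        congr 1
        ring
      rw [h3] at h2
      exact absurd h2 (not_le.2 (pow_lt_pow_right_of_lt_one₀ hq0 hq1 hlt))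
    calc (p : ℝ)⁻¹ * ‖z‖ < ‖z‖ ^ (p - 1) * ‖z‖ := mul_lt_mul_of_pos_right h1 hzpos
      _ = ‖z‖ ^ p := by rw [← pow_succ, Nat.sub_add_cancel hp.one_le]
      _ = ‖y‖ := hzp
  obtain ⟨r, hr1, hr⟩ := WellDef.expand (L := L) hp (z := -z) (by rw [norm_neg]; exact hz1.le)
  have hodd : Odd p := hp.odd_of_ne_two hp2
  refine ⟨-z + 1, F.add_mem (F.neg_mem hzF) F.one_mem, ?_, ?_⟩
  · intro h0
    have h1 : z = 1 := by linear_combination -h0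
    rw [h1, norm_one] at hz1
    exact lt_irrefl _ hz1
  · have h1 : a * (-z + 1) ^ p - 1 = (y - z ^ p) + (-(y * z ^ p) + a * ((p : L) * (-z) * r)) := by
      have h2 : (-z + 1) ^ p = 1 + ((-z) ^ p + (p : L) * (-z) * r) := by rw [← hr]; ring
      rw [h2, hodd.neg_pow, hydef]
      ring
    have ha1 : ‖a‖ ≤ 1 := by
      have h2 : a = y + 1 := by rw [hydef]; ring
      rw [h2]
      exact (IsUltrametricDist.norm_add_le_max _ _).trans (max_le hy1.le (by rw [norm_one]))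
    rw [h1]
    refine lt_of_le_of_lt (IsUltrametricDist.norm_add_le_max _ _) (max_lt hA ?_)
    refine lt_of_le_of_lt (IsUltrametricDist.norm_add_le_max _ _) (max_lt ?_ ?_)
    · rw [norm_neg, norm_mul, norm_pow, hzp]
      calc ‖y‖ * ‖y‖ < ‖y‖ * 1 := mul_lt_mul_of_pos_left hy1 hypos
        _ = ‖y‖ := mul_one _
    · rw [norm_mul, norm_mul, norm_mul, norm_neg, hnp]
      calc ‖a‖ * ((p : ℝ)⁻¹ * ‖z‖ * ‖r‖) ≤ 1 * ((p : ℝ)⁻¹ * ‖z‖ * 1) := by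
            gcongr
        _ = (p : ℝ)⁻¹ * ‖z‖ := by ring
        _ < ‖y‖ := hB

/-- `HVal` : a strict inequality improves by one level -/
lemma upgrade {p : ℕ} [Fact p.Prime] {Γ L : Type} [Group Γ] [NormedField L] [MulSemiringAction Γ L]
    {N : Subgroup Γ} {e : ℕ} (he0 : e ≠ 0) (hV : HVal p L N e) {y : L} (hyN : ∀ n ∈ N, n • y = y)
    {j : ℕ} (hlt : ‖y‖ ^ e < ((p : ℝ)⁻¹) ^ j) : ‖y‖ ^ e ≤ ((p : ℝ)⁻¹) ^ (j + 1) := by
  have hp : p.Prime := Fact.out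
  have hp0 : (0 : ℝ) < p := by exact_mod_cast hp.pos
  have hp1 : (1 : ℝ) < p := by exact_mod_cast hp.one_lt
  have hq0 : (0 : ℝ) < (p : ℝ)⁻¹ := inv_pos.2 hp0
  have hq1 : (p : ℝ)⁻¹ < 1 := inv_lt_one_of_one_lt₀ hp1
  by_cases hy0 : y = 0
  · rw [hy0, norm_zero, zero_pow he0]
    positivity
  · obtain ⟨i, hi⟩ := hV y hyN hy0
    rw [hi] at hlt ⊢
    rw [← zpow_natCast] at hlt ⊢
    have h1 : (j : ℤ) < i := (zpow_lt_zpow_iff_right_of_lt_one₀ hq0 hq1).1 hlt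
    exact (zpow_le_zpow_iff_right_of_lt_one₀ hq0 hq1).2 (by push_cast; omega)

end StepPow

open StepPow in
/-- CNT-D3. a level divisible by `p` is not a jump. -/
theorem stmt_stepPow (h3 : Stmt_kumAlg) (h9 : Stmt_rdEx) : Stmt_stepPow := by
  intro p _ hp2 k _ _ Γ L _ _ _ _ ζ hC N T e hcop hV f j hj1 hpj hlt hL x
  haveI : IsUltrametricDist L := hC.act.loc.ultra
  have he0 : e ≠ 0 := by
    rintro rfl
    simp at hlt
  obtain ⟨α, hα, hle⟩ := hL x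
  obtain ⟨κ, _, _, _, rd, hrd⟩ := h9 p L hC.act.loc hC.normp
  have hfix : ∀ β : L, IsKum ζ N T f x β → ∀ n ∈ N, n • (β ^ p - 1) = β ^ p - 1 := by
    intro β hβ n hn
    have h1 := (h3 p k Γ L ζ hC.pow_p N T f f x x β β hβ).2.2.2.2.2.2 n hn
    rw [smul_sub, h1, smul_one]
  rcases lt_or_eq_of_le hle with hlt' | heq
  · exact ⟨α, hα, upgrade he0 hV (hfix α hα) hlt'⟩
  · let F : Subfield L := FixedPoints.subfield N L
    have hmem : ∀ t : L, t ∈ F ↔ ∀ n ∈ N, n • t = t := by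
      intro t
      constructor
      · intro ht n hn
        exact ht ⟨n, hn⟩
      · intro ht n
        exact ht n.1 n.2
    have haF : α ^ p ∈ F :=
      (hmem _).2 ((h3 p k Γ L ζ hC.pow_p N T f f x x α α hα).2.2.2.2.2.2)
    obtain ⟨b, hbF, hb0, hb⟩ := core hp2 hC.normp F hcop (perfect (p := p) hrd) hj1 hpj hlt haF heq
    have hK : IsKum ζ N T f x (α * b) :=
      (h3 p k Γ L ζ hC.pow_p N T f f x x α α hα).2.2.2.1 b hb0 ((hmem b).1 hbF)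
    refine ⟨α * b, hK, upgrade he0 hV (hfix _ hK) ?_⟩
    rw [← heq, mul_pow]
    exact pow_lt_pow_left₀ hb (norm_nonneg _) he0

end Fermat.Agent.TW56.Count

end
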