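/-
TEAM TW56 -> S56, block TAME, task TAME-7 (helper46): averaging over `I/P` (`Stmt_tameAvg`).
-/
import Fermat.Agent.TW56.Count.Tame

set_option autoImplicit false

noncomputable section

namespace Fermat.Agent.TW56.Count

open Fermat.Agent.CFT.Local

namespace TameAvg

/-- ultrametric bound of a finite sum. -/
lemma norm_sum_lt {L : Type} [NormedField L] [IsUltrametricDist L] (f : ℕ → L) (c : ℝ) (hc : 0 < c)
    (hf : ∀ i, ‖f i‖ < c) (m : ℕ) : ‖∑ i ∈ Finset.range m, f i‖ < c := by
  induction m with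
  | zero => simpa using hc
  | succ m ih =>
    rw [Finset.sum_range_succ]
    exact lt_of_le_of_lt (IsUltrametricDist.norm_add_le_max _ _) (max_lt ih (hf m))

lemma smul_natCast' {Γ L : Type} [Group Γ] [NormedField L] [MulSemiringAction Γ L] (g : Γ) (n : ℕ) :
    g • (n : L) = n := by
  exact map_natCast (MulSemiringAction.toRingHom Γ L g) n

end TameAvg

open TameAvg in
/-- TM8. averaging over `I/P`. -/
theorem stmt_tameAvg (h1 : Stmt_tameSub) (h3 : Stmt_tameCyc) (h5 : Stmt_tameOrd) :
    Stmt_tameAvg := by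
  intro Γ L _ _ _ _ hL z hz hwild hin
  have := hL.loc.ultra
  obtain ⟨I, P, hIn, hPn, hPI, hI, hP⟩ := h1 Γ L hL
  obtain ⟨s₀, hs₀, hcyc⟩ := h3 Γ L hL
  obtain ⟨-, -, -, hq1, hq2⟩ := reps L hL.loc
  set n : ℕ := resCard L - 1 with hn
  have hnL : (n : L) = (resCard L : L) - 1 := by
    rw [hn, Nat.cast_sub hq2.le, Nat.cast_one]
  have hnorm : ‖(n : L)‖ = 1 := by
    have h1' : ‖(1 : L) - (resCard L : L)‖ = 1 := by
      have hle : ‖(1 : L) - (resCard L : L)‖ ≤ 1 := by
        rw [sub_eq_add_neg]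
        refine le_trans (IsUltrametricDist.norm_add_le_max _ _) ?_
        rw [norm_one, norm_neg]
        exact max_le le_rfl hq1.le
      have hge : (1 : ℝ) ≤ ‖(1 : L) - (resCard L : L)‖ := by
        by_contra hlt
        rw [not_le] at hlt
        have : ‖(1 : L)‖ < 1 := by
          have e : (1 : L) = ((1 : L) - (resCard L : L)) + (resCard L : L) := by ring
          rw [e]
          exact lt_of_le_of_lt (IsUltrametricDist.norm_add_le_max _ _) (max_lt hlt hq1)
        rw [norm_one] at this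
        exact lt_irrefl _ this
      exact le_antisymm hle hge
    rw [hnL, ← norm_neg, neg_sub]
    exact h1'
  have hn0 : (n : L) ≠ 0 := by
    intro h
    rw [h, norm_zero] at hnorm
    exact zero_ne_one hnorm
  set S : L := ∑ i ∈ Finset.range n, s₀ ^ i • z with hS
  -- `s₀` fixes `S`
  have hs₀S : s₀ • S = S := by
    have hw : s₀ ^ n • z = z := hwild _ (h5 Γ L hL s₀ hs₀)
    have e1 : s₀ • S = ∑ i ∈ Finset.range n, s₀ ^ (i + 1) • z := by
      rw [hS, Finset.smul_sum]
      refine Finset.sum_congr rfl fun i _ => ?_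
      rw [smul_smul, pow_succ']
    have e2 := Finset.sum_range_succ (fun i => s₀ ^ i • z) n
    have e3 := Finset.sum_range_succ' (fun i => s₀ ^ i • z) n
    rw [e2] at e3
    simp only [pow_zero, one_smul, hw] at e3
    rw [e1]
    exact (add_right_cancel e3).symm
  have hs₀kS : ∀ k : ℕ, s₀ ^ k • S = S := by
    intro k
    induction k with
    | zero => simp
    | succ k ih => rw [pow_succ, mul_smul, hs₀S, ih]
  -- wild elements fix `S`
  have huS : ∀ u : Γ, IsWild L u → u • S = S := by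
    intro u hu
    rw [hS, Finset.smul_sum]
    refine Finset.sum_congr rfl fun i _ => ?_
    have hconj : IsWild L ((s₀ ^ i)⁻¹ * u * (s₀ ^ i)) := by
      rw [← hP]
      have := hPn.conj_mem u ((hP u).2 hu) (s₀ ^ i)⁻¹
      rwa [inv_inv] at this
    have e : u * s₀ ^ i = s₀ ^ i * ((s₀ ^ i)⁻¹ * u * (s₀ ^ i)) := by group
    rw [smul_smul, e, mul_smul, hwild _ hconj]
  refine ⟨(n : L)⁻¹ * S, ?_, ?_⟩
  · intro s hs
    obtain ⟨k, u, hu, rfl⟩ := hcyc s hs
    rw [smul_mul', smul_inv'', smul_natCast', mul_smul, huS u hu, hs₀kS]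
  · have e : (n : L)⁻¹ * S - z = (n : L)⁻¹ * ∑ i ∈ Finset.range n, (s₀ ^ i • z - z) := by
      rw [Finset.sum_sub_distrib, Finset.sum_const, Finset.card_range, nsmul_eq_mul, mul_sub,
        inv_mul_cancel_left₀ hn0]
    rw [e, norm_mul, norm_inv, hnorm, inv_one, one_mul]
    refine norm_sum_lt _ _ (norm_pos_iff.2 hz) (fun i => hin _ ?_) n
    rw [← hI]
    exact Subgroup.pow_mem _ ((hI s₀).2 hs₀) i

end Fermat.Agent.TW56.Count

end
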