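/-
TEAM TW56 -> S56, block TAME, task TAME-9 (helper99): residue fields of the unramified layers.
-/
import Fermat.Agent.TW56.Count.Tame

set_option autoImplicit false

noncomputable section

namespace Fermat.Agent.TW56.Count

open Fermat.Agent.CFT.Local

attribute [local instance] quotAct

namespace TameCard

/-- a subgroup containing the inertia group is normal (`Γ/I` is cyclic). -/
theorem normal_of_inertia_le (h1 : Stmt_tameSub) (h2 : Stmt_frob)
    (Γ L : Type) [Group Γ] [Finite Γ] [NormedField L] [MulSemiringAction Γ L] (hL : LocAct Γ L)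
    (G' : Subgroup Γ) (hG' : ∀ s : Γ, IsIn L s → s ∈ G') : G'.Normal := by
  obtain ⟨I, P, hI, -, -, hmem, -⟩ := h1 Γ L hL
  obtain ⟨φ, -, hφ⟩ := h2 Γ L hL
  have hpow : ∀ g : Γ, ∃ n : ℕ, (g : Γ ⧸ I) = (φ : Γ ⧸ I) ^ n := by
    intro g
    obtain ⟨n, s, hs, rfl⟩ := hφ g
    refine ⟨n, ?_⟩
    rw [QuotientGroup.mk_mul, (QuotientGroup.eq_one_iff s).2 ((hmem s).2 hs), mul_one,
      QuotientGroup.mk_pow]
  refine ⟨fun g' hg' g => ?_⟩
  obtain ⟨n, hn⟩ := hpow g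
  obtain ⟨m, hm⟩ := hpow g'
  have hcomm : ((g * g' * g⁻¹ : Γ) : Γ ⧸ I) = (g' : Γ ⧸ I) := by
    rw [QuotientGroup.mk_mul, QuotientGroup.mk_mul, QuotientGroup.mk_inv, hn, hm, ← pow_add,
      add_comm, pow_add, mul_assoc, mul_inv_cancel, mul_one]
  have hin : g'⁻¹ * (g * g' * g⁻¹) ∈ I := QuotientGroup.eq.1 hcomm.symm
  have : g * g' * g⁻¹ = g' * (g'⁻¹ * (g * g' * g⁻¹)) := by group
  rw [this]
  exact G'.mul_mem hg' (hG' _ ((hmem _).1 hin))

end TameCard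

/-- TM10. residue fields of the unramified layers: `# κ_{L^{G'}} = q^[Γ:G']` for `I ≤ G'`. -/
theorem stmt_unramCard (h1 : Stmt_tameSub) (_hR : Stmt_resFix) (h2 : Stmt_frob)
    (h9 : Stmt_unramVal) : Stmt_unramCard := by
  intro Γ L _ _ _ _ hL G' hG'
  have : G'.Normal := TameCard.normal_of_inertia_le h1 h2 Γ L hL G' hG'
  have hact : LocAct (Γ ⧸ G') (FixedPoints.subfield G' L) := all_layerAct Γ L hL G'
  obtain ⟨ϖ, h0, hlt, hfix, hval⟩ := fixedLoc_exists_unifFix hL (⊤ : Subgroup Γ)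
  have hmem : ϖ ∈ FixedPoints.subfield G' L := fun g => hfix g.1 (Subgroup.mem_top _)
  have hU : IsUnif (⟨ϖ, hmem⟩ : FixedPoints.subfield G' L) := by
    refine ⟨fun h => h0 (congrArg Subtype.val h), hlt, fun x hx => ?_⟩
    have hx0 : (x : L) ≠ 0 := fun h => hx (Subtype.ext h)
    obtain ⟨y, hy, hyn⟩ := h9 Γ L hL (x : L) hx0 (fun s hs => x.2 ⟨s, hG' s hs⟩)
    have hy0 : y ≠ 0 := by
      intro h
      rw [h, norm_zero] at hyn
      exact hx0 (norm_eq_zero.1 hyn.symm)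
    obtain ⟨k, hk⟩ := hval y hy0 (fun g _ => hy g)
    exact ⟨k, hyn.symm.trans hk⟩
  have hUF : IsUnifFix (⊤ : Subgroup (Γ ⧸ G')) (⟨ϖ, hmem⟩ : FixedPoints.subfield G' L) := by
    refine ⟨hU.1, hU.2.1, fun q _ => ?_, fun x hx _ => hU.2.2 x hx⟩
    exact (layerAct_fixed Γ L G' ⟨ϖ, hmem⟩).2 (fun g => hfix g (Subgroup.mem_top _)) q
  have hc := all_card (Γ ⧸ G') (FixedPoints.subfield G' L) hact ⟨ϖ, hmem⟩ ⟨ϖ, hmem⟩ 1 hUF hU
    (pow_one _).symm
  rw [pow_one, layerAct_resCard Γ L G'] at hc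
  exact hc

end Fermat.Agent.TW56.Count

end
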