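/-
TEAM TW56 -> S56, block TAME (architect helper61), task TAME-6 (helper77):
`φ s φ⁻¹ ≡ s^Q mod P` if `φ` induces `x ↦ x^Q` on the residue field (`Stmt_frobConj`).

`θ_x(g) = g x / x`.  `θ` is multiplicative modulo `𝔪` on the inertia group (TM7), an element `g` of the
inertia group with `θ_ϖ(g) ≡ 1` for one uniformizer `ϖ` is wild (TM7 + powers of `ϖ`), and
`θ_ϖ(φ s φ⁻¹) = φ (θ_{φ⁻¹ϖ}(s)) ≡ θ_{φ⁻¹ϖ}(s)^Q ≡ θ_ϖ(s)^Q ≡ θ_ϖ(s^Q)`.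
-/
import Fermat.Agent.TW56.Count.Tame

set_option autoImplicit false
set_option linter.style.haveILetI false
set_option linter.unusedSectionVars false

namespace Fermat.Agent.TW56.Count

open Fermat.Agent.CFT.Local

namespace TameConj

section Cong

variable {L : Type} [NormedField L] [IsUltrametricDist L]

theorem cong_trans {a b c : L} (h1 : ‖a - b‖ < 1) (h2 : ‖b - c‖ < 1) : ‖a - c‖ < 1 := by
  have e : a - c = (a - b) + (b - c) := by ring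
  rw [e]
  exact lt_of_le_of_lt (IsUltrametricDist.norm_add_le_max _ _) (max_lt h1 h2)

theorem cong_symm {a b : L} (h : ‖a - b‖ < 1) : ‖b - a‖ < 1 := by rwa [norm_sub_rev]

theorem cong_mul {a b c d : L} (hb : ‖b‖ ≤ 1) (hc : ‖c‖ ≤ 1) (h1 : ‖a - b‖ < 1)
    (h2 : ‖c - d‖ < 1) : ‖a * c - b * d‖ < 1 := by
  have e : a * c - b * d = (a - b) * c + b * (c - d) := by ring
  rw [e]
  refine lt_of_le_of_lt (IsUltrametricDist.norm_add_le_max _ _) (max_lt ?_ ?_)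
  · rw [norm_mul]
    exact lt_of_le_of_lt (mul_le_of_le_one_right (norm_nonneg _) hc) h1
  · rw [norm_mul]
    exact lt_of_le_of_lt (mul_le_of_le_one_left (norm_nonneg _) hb) h2

theorem cong_pow {a b : L} (ha : ‖a‖ ≤ 1) (hb : ‖b‖ ≤ 1) (h : ‖a - b‖ < 1) (n : ℕ) :
    ‖a ^ n - b ^ n‖ < 1 := by
  induction n with
  | zero => simp
  | succ n ih =>
    rw [pow_succ', pow_succ']
    refine cong_mul hb ?_ h ih
    rw [norm_pow]
    exact pow_le_one₀ (norm_nonneg _) ha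

theorem norm_eq_one_of_cong {a : L} (h : ‖a - 1‖ < 1) : ‖a‖ = 1 := by
  have e : a = (a - 1) + 1 := by ring
  rw [e, IsUltrametricDist.norm_add_eq_max_of_norm_ne_norm (by rw [norm_one]; exact h.ne), norm_one]
  exact max_eq_right h.le

theorem cong_inv {a : L} (h : ‖a - 1‖ < 1) : ‖a⁻¹ - 1‖ < 1 := by
  have h1 := norm_eq_one_of_cong h
  have ha : a ≠ 0 := by
    intro h0
    rw [h0, norm_zero] at h1
    exact zero_ne_one h1
  have e : a⁻¹ - 1 = (1 - a) * a⁻¹ := by field_simp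
  rw [e, norm_mul, norm_inv, h1, inv_one, mul_one, norm_sub_rev]
  exact h

theorem cong_zpow {a : L} (h : ‖a - 1‖ < 1) (k : ℤ) : ‖a ^ k - 1‖ < 1 := by
  have hn : ∀ n : ℕ, ‖a ^ n - 1‖ < 1 := fun n => by
    have := cong_pow (norm_eq_one_of_cong h).le (norm_one (α := L)).le h n
    rwa [one_pow] at this
  cases k with
  | ofNat n => simpa using hn n
  | negSucc n =>
    rw [zpow_negSucc]
    exact cong_inv (hn _)

end Cong

section Act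

variable {Γ L : Type} [Group Γ] [Finite Γ] [NormedField L] [MulSemiringAction Γ L]

theorem norm_theta (hL : LocAct Γ L) (g : Γ) {x : L} (hx : x ≠ 0) : ‖g • x / x‖ = 1 := by
  rw [norm_div, hL.isom, div_self (norm_ne_zero_iff.2 hx)]

theorem smul_ne {x : L} (g : Γ) (hx : x ≠ 0) : g • x ≠ 0 := by
  intro h
  apply hx
  have := congrArg (g⁻¹ • ·) h
  simpa using this

/-- `θ_x` is multiplicative modulo `𝔪`. -/
theorem theta_mul (h7 : Stmt_thetaNorm) (hL : LocAct Γ L) {g : Γ} (hg : IsIn L g) (h : Γ) {x : L}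
    (hx : x ≠ 0) : ‖(g * h) • x / x - (g • x / x) * (h • x / x)‖ < 1 := by
  have hhx : h • x ≠ 0 := smul_ne h hx
  have e : (g * h) • x / x - (g • x / x) * (h • x / x)
      = (g • (h • x) / (h • x) - g • x / x) * (h • x / x) := by
    rw [mul_smul]
    field_simp
  rw [e, norm_mul, norm_theta hL h hx, mul_one]
  exact h7 Γ L hL g hg _ _ hhx hx (hL.isom h x)

theorem theta_pow (h7 : Stmt_thetaNorm) (hL : LocAct Γ L) {s : Γ} (hs : IsIn L s) {x : L}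
    (hx : x ≠ 0) (n : ℕ) : ‖(s ^ n) • x / x - (s • x / x) ^ n‖ < 1 := by
  haveI := hL.loc.ultra
  induction n with
  | zero => simp [hx]
  | succ n ih =>
    rw [pow_succ', pow_succ']
    refine cong_trans (theta_mul h7 hL hs (s ^ n) hx) ?_
    exact cong_mul (norm_theta hL s hx).le (norm_theta hL _ hx).le (by simp) ih

/-- an element of the inertia group with `g ϖ / ϖ ≡ 1` for one uniformizer is wild. -/
theorem isWild_of_unif (h7 : Stmt_thetaNorm) (hL : LocAct Γ L) {g : Γ} (hg : IsIn L g) {ϖ : L}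
    (hϖ : IsUnif ϖ) (h : ‖g • ϖ / ϖ - 1‖ < 1) : IsWild L g := by
  haveI := hL.loc.ultra
  intro x hx
  obtain ⟨k, hk⟩ := hϖ.2.2 x hx
  have hy : ϖ ^ k ≠ 0 := zpow_ne_zero _ hϖ.1
  have h1 := h7 Γ L hL g hg x (ϖ ^ k) hx hy (by rw [hk, norm_zpow])
  have h2 : g • (ϖ ^ k) / ϖ ^ k = (g • ϖ / ϖ) ^ k := by
    rw [div_zpow]
    congr 1
    exact map_zpow₀ (MulSemiringAction.toRingHom Γ L g) ϖ k
  have h3 : ‖g • x / x - 1‖ < 1 := by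
    refine cong_trans h1 ?_
    rw [h2]
    exact cong_zpow h k
  have e : g • x - x = (g • x / x - 1) * x := by field_simp
  rw [e, norm_mul]
  exact mul_lt_of_lt_one_left (norm_pos_iff.2 hx) h3

end Act

end TameConj

open TameConj in
/-- TAME-6. -/
theorem stmt_frobConj (h1 : Stmt_tameSub) (h7 : Stmt_thetaNorm) : Stmt_frobConj := by
  intro Γ L _ _ _ _ hL φ Q hφ s hs
  haveI := hL.loc.ultra
  obtain ⟨I, P, hIn, -, -, hI, -⟩ := h1 Γ L hL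
  obtain ⟨ϖ, hϖ⟩ := hL.loc.unif
  have hϖ0 : ϖ ≠ 0 := hϖ.1
  have hsI : s ∈ I := (hI s).2 hs
  have hsQ : s ^ Q ∈ I := I.pow_mem hsI Q
  have hc : φ * s * φ⁻¹ ∈ I := hIn.conj_mem s hsI φ
  have hu : (s ^ Q)⁻¹ * (φ * s * φ⁻¹) ∈ I := I.mul_mem (I.inv_mem hsQ) hc
  have hconj : φ * s * φ⁻¹ = s ^ Q * ((s ^ Q)⁻¹ * (φ * s * φ⁻¹)) := by
    rw [mul_inv_cancel_left]
  refine ⟨(s ^ Q)⁻¹ * (φ * s * φ⁻¹), ?_, hconj⟩
  apply isWild_of_unif h7 hL ((hI _).1 hu) hϖ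
  generalize (s ^ Q)⁻¹ * (φ * s * φ⁻¹) = u at hconj
  -- `θ(φ s φ⁻¹) = φ t`, `t = s ϖ' / ϖ'`
  have hϖ' : φ⁻¹ • ϖ ≠ 0 := smul_ne _ hϖ0
  have e1 : (φ * s * φ⁻¹) • ϖ / ϖ = φ • (s • (φ⁻¹ • ϖ) / (φ⁻¹ • ϖ)) := by
    rw [mul_smul, mul_smul]
    have := map_div₀ (MulSemiringAction.toRingHom Γ L φ) (s • (φ⁻¹ • ϖ)) (φ⁻¹ • ϖ)
    simp only [MulSemiringAction.toRingHom_apply] at this
    rw [this, smul_inv_smul]
  have ht1 : ‖s • (φ⁻¹ • ϖ) / (φ⁻¹ • ϖ)‖ = 1 := norm_theta hL s hϖ'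
  have c1 : ‖(φ * s * φ⁻¹) • ϖ / ϖ - (s • (φ⁻¹ • ϖ) / (φ⁻¹ • ϖ)) ^ Q‖ < 1 := by
    rw [e1]
    exact hφ _ ht1.le
  have c2 : ‖(s • (φ⁻¹ • ϖ) / (φ⁻¹ • ϖ)) ^ Q - (s • ϖ / ϖ) ^ Q‖ < 1 :=
    cong_pow ht1.le (norm_theta hL s hϖ0).le
      (h7 Γ L hL s hs _ _ hϖ' hϖ0 (hL.isom _ _)) Q
  have c3 : ‖(s • ϖ / ϖ) ^ Q - (s ^ Q) • ϖ / ϖ‖ < 1 := cong_symm (theta_pow h7 hL hs hϖ0 Q)
  have c4 : ‖(φ * s * φ⁻¹) • ϖ / ϖ - (s ^ Q) • ϖ / ϖ‖ < 1 := cong_trans c1 (cong_trans c2 c3)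
  have c5 : ‖(s ^ Q * u) • ϖ / ϖ - ((s ^ Q) • ϖ / ϖ) * (u • ϖ / ϖ)‖ < 1 :=
    theta_mul h7 hL ((hI _).1 hsQ) u hϖ0
  rw [← hconj] at c5
  have c6 : ‖((s ^ Q) • ϖ / ϖ) * (u • ϖ / ϖ) - (s ^ Q) • ϖ / ϖ‖ < 1 :=
    cong_trans (cong_symm c5) c4
  have e2 : ((s ^ Q) • ϖ / ϖ) * (u • ϖ / ϖ) - (s ^ Q) • ϖ / ϖ
      = ((s ^ Q) • ϖ / ϖ) * (u • ϖ / ϖ - 1) := by ring
  rw [e2, norm_mul, norm_theta hL _ hϖ0, one_mul] at c6
  exact c6

end Fermat.Agent.TW56.Count
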