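/-
TEAM TW56 -> S56, block TAME, task TAME-4: `I/P` is cyclic and killed by `q_L - 1`
(`Stmt_tameCyc`, `Stmt_tameOrd` of `Tame.lean`).
-/
import Fermat.Agent.TW56.Count.Tame

set_option autoImplicit false

noncomputable section

namespace Fermat.Agent.TW56.Count

open Fermat.Agent.CFT.Local

namespace TameCyc

section Ball

variable {L : Type} [NormedField L] [IsUltrametricDist L]

theorem norm_eq_one {t : L} (ht : ‖t - 1‖ < 1) : ‖t‖ = 1 := by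
  have h1 : ‖t - 1‖ ≠ ‖(1 : L)‖ := by rw [norm_one]; exact ht.ne
  have h2 := IsUltrametricDist.norm_add_eq_max_of_norm_ne_norm h1
  rw [sub_add_cancel, norm_one, max_eq_right ht.le] at h2
  exact h2

theorem ball_mul {t u : L} (ht : ‖t - 1‖ < 1) (hu : ‖u - 1‖ < 1) : ‖t * u - 1‖ < 1 := by
  have h1 : t * u - 1 = t * (u - 1) + (t - 1) := by ring
  rw [h1]
  refine (IsUltrametricDist.norm_add_le_max _ _).trans_lt (max_lt ?_ ht)
  rw [norm_mul, norm_eq_one ht, one_mul]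
  exact hu

theorem ball_inv {t : L} (ht : ‖t - 1‖ < 1) : ‖t⁻¹ - 1‖ < 1 := by
  have h0 : t ≠ 0 := by
    intro h
    rw [h] at ht
    simp at ht
  have h1 : t⁻¹ - 1 = -(t⁻¹ * (t - 1)) := by
    field_simp
    ring
  rw [h1, norm_neg, norm_mul, norm_inv, norm_eq_one ht, inv_one, one_mul]
  exact ht

theorem ball_pow {t : L} (ht : ‖t - 1‖ < 1) (n : ℕ) : ‖t ^ n - 1‖ < 1 := by
  induction n with
  | zero => simp
  | succ n ih =>
    rw [pow_succ]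
    exact ball_mul ih ht

theorem ball_zpow {t : L} (ht : ‖t - 1‖ < 1) (k : ℤ) : ‖t ^ k - 1‖ < 1 := by
  cases k with
  | ofNat n => simpa using ball_pow ht n
  | negSucc n =>
    rw [zpow_negSucc]
    exact ball_inv (ball_pow ht _)

end Ball

variable {Γ L : Type} [Group Γ] [Finite Γ] [NormedField L] [MulSemiringAction Γ L]

theorem norm_quot (hL : LocAct Γ L) (s : Γ) {x : L} (hx : x ≠ 0) : ‖s • x / x‖ = 1 := by
  rw [norm_div, hL.isom, div_self (norm_ne_zero_iff.2 hx)]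

/-- an element of the inertia group with `s ϖ / ϖ ≡ 1` is wild. -/
theorem wild_of (h7 : Stmt_thetaNorm) (hL : LocAct Γ L) {ϖ : L} (hϖ : IsUnif ϖ) {s : Γ}
    (hs : IsIn L s) (h : ‖s • ϖ / ϖ - 1‖ < 1) : IsWild L s := by
  have := hL.loc.ultra
  intro x hx
  obtain ⟨k, hk⟩ := hϖ.2.2 x hx
  have hϖk : ϖ ^ k ≠ 0 := zpow_ne_zero _ hϖ.1
  have h1 := h7 Γ L hL s hs x (ϖ ^ k) hx hϖk (by rw [hk, norm_zpow])
  have h2 : s • (ϖ ^ k) / ϖ ^ k = (s • ϖ / ϖ) ^ k := by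
    rw [div_zpow]
    congr 1
    exact map_zpow₀ (MulSemiringAction.toRingHom Γ L s) ϖ k
  rw [h2] at h1
  have h3 := ball_zpow h k
  have h4 : ‖s • x / x - 1‖ < 1 := by
    have h5 : s • x / x - 1 = (s • x / x - (s • ϖ / ϖ) ^ k) + ((s • ϖ / ϖ) ^ k - 1) := by ring
    rw [h5]
    exact (IsUltrametricDist.norm_add_le_max _ _).trans_lt (max_lt h1 h3)
  have h5 : s • x - x = (s • x / x - 1) * x := by
    field_simp
  rw [h5, norm_mul]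
  exact mul_lt_of_lt_one_left (norm_pos_iff.2 hx) h4

/-- the tame character `s ↦ s ϖ / ϖ mod 𝔪` on the inertia group. -/
def theta₀ [IsUltrametricDist L] (hL : LocAct Γ L) (I : Subgroup Γ)
    (hI : ∀ g, g ∈ I ↔ IsIn L g) (ϖ : L) (hϖ : ϖ ≠ 0) : I →* ResField L where
  toFun s := red L ⟨(s : Γ) • ϖ / ϖ, (norm_quot hL s hϖ).le⟩
  map_one' := by
    have h1 : (⟨((1 : I) : Γ) • ϖ / ϖ, (norm_quot hL _ hϖ).le⟩ : repsO L) = 1 :=
      Subtype.ext (by simp [hϖ])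
    rw [h1, map_one]
  map_mul' s t := by
    rw [← map_mul, red_eq_red_iff]
    have hsϖ : (s : Γ) • ϖ ≠ 0 := by
      rw [← norm_ne_zero_iff, hL.isom, norm_ne_zero_iff]
      exact hϖ
    have h1 : (s : Γ) • ((t : Γ) • ϖ / ϖ) = (s : Γ) • (t : Γ) • ϖ / (s : Γ) • ϖ :=
      map_div₀ (MulSemiringAction.toRingHom Γ L s) _ _
    have h2 : ((s * t : I) : Γ) • ϖ / ϖ - ((s : Γ) • ϖ / ϖ) * ((t : Γ) • ϖ / ϖ)
        = ((s : Γ) • ((t : Γ) • ϖ / ϖ) - (t : Γ) • ϖ / ϖ) * ((s : Γ) • ϖ / ϖ) := by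
      rw [h1, Subgroup.coe_mul, mul_smul]
      field_simp
    show ‖((s * t : I) : Γ) • ϖ / ϖ - ((s : Γ) • ϖ / ϖ) * ((t : Γ) • ϖ / ϖ)‖ < 1
    rw [h2, norm_mul, norm_quot hL s hϖ, mul_one]
    exact (hI s).1 s.2 _ (norm_quot hL t hϖ).le

theorem theta₀_eq_one [IsUltrametricDist L] (hL : LocAct Γ L) (I : Subgroup Γ)
    (hI : ∀ g, g ∈ I ↔ IsIn L g) (ϖ : L) (hϖ : ϖ ≠ 0) (s : I)
    (h : theta₀ hL I hI ϖ hϖ s = 1) : ‖(s : Γ) • ϖ / ϖ - 1‖ < 1 := by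
  have h1 : red L ⟨(s : Γ) • ϖ / ϖ, (norm_quot hL s hϖ).le⟩ = red L 1 := by
    rw [map_one]
    exact h
  exact red_eq_red_iff.1 h1

end TameCyc

/-- TM3. -/
theorem stmt_tameCyc (h1 : Stmt_tameSub) (h7 : Stmt_thetaNorm) : Stmt_tameCyc := by
  intro Γ L _ _ _ _ hL
  have := hL.loc.ultra
  obtain ⟨I, P, -, -, -, hI, -⟩ := h1 Γ L hL
  obtain ⟨ϖ, hϖ⟩ := hL.loc.unif
  have := finite_resField hL.loc
  let θ : I →* (ResField L)ˣ := (TameCyc.theta₀ hL I hI ϖ hϖ.1).toHomUnits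
  obtain ⟨g, hg⟩ := IsCyclic.exists_generator (α := θ.range)
  obtain ⟨s₀, hs₀⟩ := g.2
  refine ⟨s₀, (hI _).1 s₀.2, fun s hs => ?_⟩
  have h2 := hg ⟨θ ⟨s, (hI s).2 hs⟩, ⟨_, rfl⟩⟩
  rw [← mem_powers_iff_mem_zpowers] at h2
  obtain ⟨n, hn⟩ := h2
  have hn' : θ s₀ ^ n = θ ⟨s, (hI s).2 hs⟩ := by
    rw [hs₀]
    exact congrArg Subtype.val hn
  refine ⟨n, ((s₀ : Γ) ^ n)⁻¹ * s, ?_, by group⟩
  have hu : θ ((s₀ ^ n)⁻¹ * ⟨s, (hI s).2 hs⟩) = 1 := by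
    rw [map_mul, map_inv, map_pow, hn', inv_mul_cancel]
  have hu' : TameCyc.theta₀ hL I hI ϖ hϖ.1 ((s₀ ^ n)⁻¹ * ⟨s, (hI s).2 hs⟩) = 1 :=
    congrArg Units.val hu
  exact TameCyc.wild_of h7 hL hϖ ((hI _).1 ((s₀ ^ n)⁻¹ * ⟨s, (hI s).2 hs⟩ : I).2)
    (TameCyc.theta₀_eq_one hL I hI ϖ hϖ.1 _ hu')

/-- TM5. -/
theorem stmt_tameOrd (h1 : Stmt_tameSub) (h7 : Stmt_thetaNorm) : Stmt_tameOrd := by
  intro Γ L _ _ _ _ hL s hs
  have := hL.loc.ultra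
  obtain ⟨I, P, -, -, -, hI, -⟩ := h1 Γ L hL
  obtain ⟨ϖ, hϖ⟩ := hL.loc.unif
  let θ : I →* (ResField L)ˣ := (TameCyc.theta₀ hL I hI ϖ hϖ.1).toHomUnits
  let s' : I := ⟨s, (hI s).2 hs⟩
  have hq := one_lt_resCard hL.loc
  have h2 : ((θ s' : (ResField L)ˣ) : ResField L) ^ (resCard L - 1) = 1 := by
    have h3 := resField_pow_resCard hL.loc ((θ s' : (ResField L)ˣ) : ResField L)
    have h4 : resCard L = (resCard L - 1) + 1 := by omega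
    rw [h4, pow_succ] at h3
    exact mul_right_cancel₀ (Units.ne_zero (θ s')) (by rw [one_mul]; exact h3)
  have hu' : TameCyc.theta₀ hL I hI ϖ hϖ.1 (s' ^ (resCard L - 1)) = 1 := by
    rw [map_pow]
    exact h2
  exact TameCyc.wild_of h7 hL hϖ ((hI _).1 (s' ^ (resCard L - 1) : I).2)
    (TameCyc.theta₀_eq_one hL I hI ϖ hϖ.1 _ hu')

end Fermat.Agent.TW56.Count

end
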