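/-
TEAM TW56 -> S56, block TAME, task TAME-3 (helper40; architect helper61).

`stmt_frob : Stmt_resFix → Stmt_frob` : `Γ = ⟨φ⟩ I`, `φ` a Frobenius.
`Γ` acts on the finite field `κ_L` over `κ_K`; the fixed field is `κ_K` (TM-RES), so by Galois theory
`Γ → Gal(κ_L/κ_K)` is onto, and `Gal(κ_L/κ_K)` is generated by the `q`-Frobenius.
-/
import Fermat.Agent.TW56.Count.Tame

set_option autoImplicit false

noncomputable section

namespace Fermat.Agent.TW56.Count

open Fermat.Agent.CFT.Local

namespace TameFrob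

/-- finite fields: a group acting on `κ` over `k` with fixed field `k`. -/
theorem abs {Γ k κ : Type} [Group Γ] [Field k] [Fintype k] [Field κ] [Finite κ] (ι : k →+* κ)
    (ρ : Γ →* (κ ≃+* κ)) (hfix : ∀ g c, ρ g (ι c) = ι c)
    (hres : ∀ t : κ, (∀ g, ρ g t = t) → ∃ c, ι c = t) :
    ∃ φ : Γ, (∀ t, ρ φ t = t ^ Fintype.card k) ∧
      ∀ g, ∃ n : ℕ, ∃ s, ρ s = 1 ∧ g = φ ^ n * s := by
  let _ : Algebra k κ := ι.toAlgebra
  let ρ' : Γ →* (κ ≃ₐ[k] κ) := MonoidHom.mk' (fun g => AlgEquiv.ofRingEquiv (f := ρ g) (hfix g))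
    (fun g h => by
      ext t
      show ρ (g * h) t = ρ g (ρ h t)
      rw [map_mul]
      rfl)
  have hρ' : ∀ g t, ρ' g t = ρ g t := fun _ _ => rfl
  have hbot : IntermediateField.fixedField ρ'.range = ⊥ := by
    rw [eq_bot_iff]
    intro t ht
    obtain ⟨c, hc⟩ := hres t (fun g => ht ⟨ρ' g, ⟨g, rfl⟩⟩)
    exact IntermediateField.mem_bot.mpr ⟨c, hc⟩
  have htop : ρ'.range = ⊤ := by
    rw [← IntermediateField.fixingSubgroup_fixedField ρ'.range, hbot,
      IntermediateField.fixingSubgroup_bot]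
  have hsurj : Function.Surjective ρ' := MonoidHom.range_eq_top.mp htop
  obtain ⟨φ, hφ⟩ := hsurj (FiniteField.frobeniusAlgEquivOfAlgebraic k κ)
  refine ⟨φ, fun t => ?_, fun g => ?_⟩
  · rw [← hρ', hφ, FiniteField.coe_frobeniusAlgEquivOfAlgebraic]
  · obtain ⟨n, hn⟩ := (FiniteField.bijective_frobeniusAlgEquivOfAlgebraic_pow k κ).2 (ρ' g)
    refine ⟨n.1, (φ ^ n.1)⁻¹ * g, ?_, by group⟩
    have h1 : ρ' ((φ ^ n.1)⁻¹ * g) = 1 := by
      rw [map_mul, map_inv, map_pow, hφ, ← hn]
      exact inv_mul_cancel _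
    ext t
    rw [← hρ', h1]
    rfl

section Act

variable {Γ L : Type} [Group Γ] [NormedField L] [IsUltrametricDist L] [MulSemiringAction Γ L]
  (hiso : ∀ (g : Γ) (x : L), ‖g • x‖ = ‖x‖)

/-- the ring endomorphism of the residue field induced by `g`. -/
def resEnd (g : Γ) : ResField L →+* ResField L :=
  frobPowResHom (MulSemiringAction.toRingHom Γ L g) (hiso g)

theorem resEnd_red (g : Γ) (x : repsO L) :
    resEnd hiso g (red L x) = red L ⟨g • (x : L), by rw [mem_repsO, hiso]; exact x.2⟩ := rfl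

theorem resEnd_mul (g h : Γ) : resEnd hiso (g * h) = (resEnd hiso g).comp (resEnd hiso h) := by
  ext t
  obtain ⟨⟨x, hx⟩, rfl⟩ := red_surjective t
  rw [RingHom.comp_apply, resEnd_red, resEnd_red, resEnd_red]
  congr 2
  exact mul_smul g h x

theorem resEnd_one : resEnd hiso (1 : Γ) = RingHom.id _ := by
  ext t
  obtain ⟨⟨x, hx⟩, rfl⟩ := red_surjective t
  rw [RingHom.id_apply, resEnd_red]
  congr 2
  exact one_smul Γ x

/-- the action of `Γ` on the residue field. -/
def resAut : Γ →* (ResField L ≃+* ResField L) :=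
  MonoidHom.mk' (fun g => RingEquiv.ofRingHom (resEnd hiso g) (resEnd hiso g⁻¹)
      (by rw [← resEnd_mul, mul_inv_cancel, resEnd_one])
      (by rw [← resEnd_mul, inv_mul_cancel, resEnd_one]))
    (fun g h => by
      ext t
      show resEnd hiso (g * h) t = resEnd hiso g (resEnd hiso h t)
      rw [resEnd_mul]
      rfl)

theorem resAut_red (g : Γ) (x : repsO L) :
    resAut hiso g (red L x) = red L ⟨g • (x : L), by rw [mem_repsO, hiso]; exact x.2⟩ := rfl

end Act

end TameFrob

open TameFrob in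
/-- **TM2**. -/
theorem stmt_frob (h : Stmt_resFix) : Stmt_frob := by
  intro Γ L _ _ _ _ hL
  have hE : IsLoc (FixedPoints.subfield Γ L) := fixedLoc Γ L hL
  have := hL.loc.ultra
  have := hE.ultra
  have hfinL := finite_resField hL.loc
  have hfinE := finite_resField hE
  let _ : Fintype (ResField (FixedPoints.subfield Γ L)) := Fintype.ofFinite _
  have hsub : ∀ y : FixedPoints.subfield Γ L, ‖(FixedPoints.subfield Γ L).subtype y‖ = ‖y‖ :=
    fun _ => rfl
  have hcard : Fintype.card (ResField (FixedPoints.subfield Γ L))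
      = resCard (FixedPoints.subfield Γ L) := by
    rw [← Nat.card_eq_fintype_card, card_resField]
  have hfix : ∀ (g : Γ) (c : ResField (FixedPoints.subfield Γ L)),
      resAut hL.isom g (frobPowResHom (FixedPoints.subfield Γ L).subtype hsub c)
        = frobPowResHom (FixedPoints.subfield Γ L).subtype hsub c := by
    intro g c
    obtain ⟨c, rfl⟩ := red_surjective c
    rw [frobPowResHom_red, resAut_red]
    congr 2
    exact c.1.2 g
  have hres : ∀ t : ResField L, (∀ g : Γ, resAut hL.isom g t = t) →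
      ∃ c, frobPowResHom (FixedPoints.subfield Γ L).subtype hsub c = t := by
    intro t ht
    obtain ⟨⟨x, hx⟩, rfl⟩ := red_surjective t
    obtain ⟨y, hy, hxy⟩ := h Γ L hL x hx (fun g => by
      have h1 := ht g
      rw [resAut_red, red_eq_red_iff] at h1
      exact h1)
    have hy1 : ‖y‖ ≤ 1 := by
      have e : y = x + -(x - y) := by ring
      rw [e]
      exact (IsUltrametricDist.norm_add_le_max _ _).trans
        (max_le hx (by rw [norm_neg]; exact hxy.le))
    refine ⟨red _ ⟨⟨y, hy⟩, hy1⟩, ?_⟩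
    rw [frobPowResHom_red, red_eq_red_iff, norm_sub_rev]
    exact hxy
  obtain ⟨φ, hφ, hgen⟩ := TameFrob.abs (frobPowResHom (FixedPoints.subfield Γ L).subtype hsub)
    (resAut hL.isom) hfix hres
  refine ⟨φ, fun x hx => ?_, fun g => ?_⟩
  · have h1 := hφ (red L ⟨x, hx⟩)
    rw [resAut_red, hcard, ← map_pow, red_eq_red_iff] at h1
    exact h1
  · obtain ⟨n, s, hs, hg⟩ := hgen g
    refine ⟨n, s, fun x hx => ?_, hg⟩
    have h1 : resAut hL.isom s (red L ⟨x, hx⟩) = red L ⟨x, hx⟩ := by rw [hs]; rfl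
    rw [resAut_red, red_eq_red_iff] at h1
    exact h1

end Fermat.Agent.TW56.Count

end
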