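import Fermat.Agent.TW56.Count.Tame

/-!
# TW56 / Count / TAME-2 : the residue field of the fixed field (`Stmt_resFix`)

`x̄ ∈ κ_L` fixed by `Γ`.  The polynomial `∏_g (X - g x)` has coefficients in `O_K`, `K = L^Γ`, and
reduces to `(X - x̄)^n`, which therefore comes from `F₀ ∈ κ_K[X]`.  With `Q = # κ_K` we have
`F₀(X^Q) = F₀(X)^Q`, so `(x̄^Q - x̄)^n = 0`.  Finally `∏_{a ∈ κ_K} (X - a) = X^Q - X`, so `x̄ ∈ κ_K`.
-/

set_option autoImplicit false

noncomputable section

namespace Fermat.Agent.TW56.Count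

namespace TameResFix

open Polynomial Fermat.Agent.CFT.Local

section Pol

variable {Γ L : Type} [Group Γ] [Fintype Γ] [NormedField L] [MulSemiringAction Γ L]

/-- `∏_g (X - g x)`. -/
def pol (Γ : Type) {L : Type} [Group Γ] [Fintype Γ] [NormedField L] [MulSemiringAction Γ L]
    (x : L) : L[X] := ∏ g : Γ, (X - C (g • x))

theorem smul_pol (x : L) (h : Γ) : h • pol Γ x = pol Γ x :=
  Finset.smul_prod'.trans <|
    Fintype.prod_bijective _ (MulAction.bijective h) _ _ fun g => by
      rw [smul_sub, Polynomial.smul_X, Polynomial.smul_C, smul_smul, smul_eq_mul]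

theorem smul_coeff (x : L) (h : Γ) (n : ℕ) : h • (pol Γ x).coeff n = (pol Γ x).coeff n := by
  rw [← Polynomial.coeff_smul, smul_pol]

variable [IsUltrametricDist L]

/-- `∏_g (X - g x)` over the ring of integers. -/
def polO (Γ : Type) {L : Type} [Group Γ] [Fintype Γ] [NormedField L] [MulSemiringAction Γ L]
    [IsUltrametricDist L] (x : L) (hx : ∀ g : Γ, ‖g • x‖ ≤ 1) : (repsO L)[X] :=
  ∏ g : Γ, (X - C (⟨g • x, hx g⟩ : repsO L))

theorem polO_map (x : L) (hx : ∀ g : Γ, ‖g • x‖ ≤ 1) :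
    (polO Γ x hx).map (repsO L).subtype = pol Γ x := by
  rw [polO, pol, Polynomial.map_prod]
  refine Finset.prod_congr rfl fun g _ => ?_
  rw [Polynomial.map_sub, Polynomial.map_X, Polynomial.map_C]
  rfl

theorem polO_red (x : L) (hx : ∀ g : Γ, ‖g • x‖ ≤ 1) (hx1 : ‖x‖ ≤ 1)
    (hres : ∀ g : Γ, ‖g • x - x‖ < 1) :
    (polO Γ x hx).map (red L) = (X - C (red L ⟨x, hx1⟩)) ^ Fintype.card Γ := by
  rw [polO, Polynomial.map_prod, ← Finset.card_univ, ← Finset.prod_const]
  refine Finset.prod_congr rfl fun g _ => ?_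
  rw [Polynomial.map_sub, Polynomial.map_X, Polynomial.map_C]
  congr 2
  exact red_eq_red_iff.2 (hres g)

end Pol

/-- in a finite field `∏_a (X - a) = X^Q - X`. -/
theorem prod_X_sub_C (κ : Type) [Field κ] [Fintype κ] :
    ∏ a : κ, (X - C a) = (X ^ Fintype.card κ - X : κ[X]) := by
  have hQ : 1 < Fintype.card κ := Fintype.one_lt_card
  have hmon : (X ^ Fintype.card κ - X : κ[X]).Monic := by
    apply monic_X_pow_sub
    rw [degree_X]
    exact_mod_cast hQ
  have h := prod_multiset_X_sub_C_of_monic_of_roots_card_eq hmon (by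
    rw [FiniteField.roots_X_pow_card_sub_X, FiniteField.X_pow_card_sub_X_natDegree_eq κ hQ]
    rfl)
  rw [FiniteField.roots_X_pow_card_sub_X] at h
  exact h

/-- an element `z` of an extension of a finite field `κ` such that `(X - z)^n` has coefficients in `κ`
lies in `κ`. -/
theorem mem_range (κ κ' : Type) [Field κ] [Finite κ] [Field κ'] (ι : κ →+* κ') (z : κ') (n : ℕ)
    (hn : n ≠ 0) (h : ∀ i, ((X - C z) ^ n : κ'[X]).coeff i ∈ Set.range ι) : ∃ a : κ, ι a = z := by
  have := Fintype.ofFinite κ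
  obtain ⟨F₀, hF₀⟩ := (Polynomial.mem_lifts _).1 ((Polynomial.lifts_iff_coeff_lifts _).2 h)
  have hQ0 : Fintype.card κ ≠ 0 := Fintype.card_ne_zero
  have h1 := congrArg (Polynomial.map ι) (FiniteField.expand_card F₀)
  rw [Polynomial.map_expand, Polynomial.map_pow, hF₀] at h1
  have h2 := congrArg (Polynomial.eval z) h1
  rw [Polynomial.expand_eval] at h2
  simp only [eval_pow, eval_sub, eval_X, eval_C, sub_self] at h2
  rw [zero_pow hn, zero_pow hQ0] at h2
  have h3 : z ^ Fintype.card κ - z = 0 := pow_eq_zero_iff hn |>.1 h2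
  have h4 := congrArg (Polynomial.eval₂ ι z) (prod_X_sub_C κ)
  rw [Polynomial.eval₂_finsetProd] at h4
  simp only [eval₂_sub, eval₂_X, eval₂_C, eval₂_pow] at h4
  rw [h3] at h4
  obtain ⟨a, -, ha⟩ := Finset.prod_eq_zero_iff.1 h4
  exact ⟨a, (sub_eq_zero.1 ha).symm⟩

end TameResFix

open TameResFix Polynomial Fermat.Agent.CFT.Local in
/-- **TM-RES.** -/
theorem stmt_resFix : Stmt_resFix := by
  intro Γ L _ _ _ _ hL x hx1 hres
  have := Fintype.ofFinite Γ
  have hK : IsLoc (FixedPoints.subfield Γ L) := fixedLoc Γ L hL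
  have := hL.loc.ultra
  have := hK.ultra
  have := finite_resField hK
  have hx : ∀ g : Γ, ‖g • x‖ ≤ 1 := fun g => by rw [hL.isom]; exact hx1
  obtain ⟨a, ha⟩ := mem_range (ResField (FixedPoints.subfield Γ L)) (ResField L)
    (frobPowResHom (FixedPoints.subfield Γ L).subtype (fun _ => rfl)) (red L ⟨x, hx1⟩)
    (Fintype.card Γ) Fintype.card_ne_zero (by
      intro i
      rw [← polO_red x hx hx1 hres, Polynomial.coeff_map]
      have hc : (((polO Γ x hx).coeff i : repsO L) : L) = (pol Γ x).coeff i := by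
        rw [← polO_map x hx, Polynomial.coeff_map]
        rfl
      have hfix : (((polO Γ x hx).coeff i : repsO L) : L) ∈ FixedPoints.subfield Γ L := by
        intro g
        rw [hc]
        exact smul_coeff x g i
      refine ⟨red _ ⟨⟨_, hfix⟩, ((polO Γ x hx).coeff i).2⟩, ?_⟩
      rw [frobPowResHom_red]
      rfl)
  obtain ⟨y, rfl⟩ := red_surjective a
  rw [frobPowResHom_red, red_eq_red_iff] at ha
  refine ⟨((y : FixedPoints.subfield Γ L) : L), fun g => (y : FixedPoints.subfield Γ L).2 g, ?_⟩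
  rw [norm_sub_rev]
  exact ha

end Fermat.Agent.TW56.Count

end
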