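/-
TEAM TW56 -> S56, block TAME (architect helper61).  TM1 (inertia and wild inertia are normal subgroups)
and TM7 (`θ_x(s)` only depends on `‖x‖`).
-/
import Fermat.Agent.TW56.Count.Tame

set_option autoImplicit false

noncomputable section

namespace Fermat.Agent.TW56.Count

open Fermat.Agent.CFT.Local

namespace TameSub

variable {Γ L : Type} [Group Γ] [Finite Γ] [NormedField L] [MulSemiringAction Γ L]

/-- the subgroup `{g | ∀ x, C x → ‖g x - x‖ < B x}` for invariant `C`, `B`. -/
def sub (hL : LocAct Γ L) (C : L → Prop) (B : L → ℝ) (h0 : ∀ x, C x → 0 < B x) : Subgroup Γ where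
  carrier := {g | ∀ x, C x → ‖g • x - x‖ < B x}
  one_mem' := by
    intro x hx
    simpa using h0 x hx
  mul_mem' := by
    intro g h hg hh x hx
    have := hL.loc.ultra
    have e : (g * h) • x - x = g • (h • x - x) + (g • x - x) := by
      rw [mul_smul, smul_sub]; ring
    rw [e]
    refine lt_of_le_of_lt (IsUltrametricDist.norm_add_le_max _ _) (max_lt ?_ (hg x hx))
    rw [hL.isom]
    exact hh x hx
  inv_mem' := by
    intro g hg x hx
    have e : g⁻¹ • x - x = -(g⁻¹ • (g • x - x)) := by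
      rw [smul_sub, inv_smul_smul]; ring
    rw [e, norm_neg, hL.isom]
    exact hg x hx

lemma mem_sub (hL : LocAct Γ L) (C : L → Prop) (B : L → ℝ) (h0 : ∀ x, C x → 0 < B x) (g : Γ) :
    g ∈ sub hL C B h0 ↔ ∀ x, C x → ‖g • x - x‖ < B x := Iff.rfl

lemma sub_normal (hL : LocAct Γ L) (C : L → Prop) (B : L → ℝ) (h0 : ∀ x, C x → 0 < B x)
    (hC : ∀ (g : Γ) x, C x → C (g • x)) (hB : ∀ (g : Γ) x, B (g • x) = B x) :
    (sub hL C B h0).Normal := by
  refine ⟨fun g hg h => ?_⟩
  rw [mem_sub] at hg ⊢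
  intro x hx
  have e : (h * g * h⁻¹) • x - x = h • (g • (h⁻¹ • x) - h⁻¹ • x) := by
    rw [smul_sub, smul_inv_smul, mul_smul, mul_smul]
  rw [e, hL.isom, ← hB h⁻¹ x]
  exact hg _ (hC _ _ hx)

end TameSub

open TameSub

theorem stmt_tameSub : Stmt_tameSub := by
  intro Γ L _ _ _ _ hL
  refine ⟨sub hL (fun x => ‖x‖ ≤ 1) (fun _ => 1) (fun _ _ => one_pos),
    sub hL (fun x => x ≠ 0) (fun x => ‖x‖) (fun x hx => norm_pos_iff.2 hx), ?_, ?_, ?_,
    fun g => Iff.rfl, fun g => Iff.rfl⟩
  · exact sub_normal hL _ _ _ (fun g x hx => by rw [hL.isom]; exact hx) (fun _ _ => rfl)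
  · exact sub_normal hL _ _ _ (fun g x hx => by
      intro h
      apply hx
      have := hL.isom g x
      rw [h, norm_zero] at this
      exact norm_eq_zero.1 this.symm) (fun g x => hL.isom g x)
  · intro g hg
    rw [mem_sub] at hg ⊢
    intro x hx
    by_cases hx0 : x = 0
    · subst hx0
      simp
    · exact lt_of_lt_of_le (hg x hx0) hx

theorem stmt_thetaNorm : Stmt_thetaNorm := by
  intro Γ L _ _ _ _ hL s hs x y hx hy hxy
  have hny : ‖y‖ ≠ 0 := norm_ne_zero_iff.2 hy
  have hw : ‖x / y‖ = 1 := by rw [norm_div, hxy, div_self hny]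
  have hw0 : x / y ≠ 0 := div_ne_zero hx hy
  have hsy : s • y ≠ 0 := by
    intro h
    have := hL.isom s y
    rw [h, norm_zero] at this
    exact hny this.symm
  have e : s • x / x - s • y / y = (s • y / y) * ((s • (x / y) - x / y) / (x / y)) := by
    rw [smul_div₀']
    field_simp
  rw [e, norm_mul, norm_div, hL.isom, div_self hny, one_mul, norm_div, hw, div_one]
  exact hs _ hw.le

end Fermat.Agent.TW56.Count

end
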