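/-
TEAM TW56 -> S56, block TAME, TM9 : `L^I/K` is unramified (`Stmt_unramVal`).

`φ` a Frobenius, `f` the least `f ≥ 1` with `φ^f ∈ I`.  The characters `t ↦ t^(q^i)`, `i < f`, of the
residue field are pairwise distinct, hence linearly independent: there is `c ∈ O_{L^I}` with
`∑ c̄^(q^i) w̄_i ≠ 0`, `w_i = φ^i z / z`, and `y = ∑_{i<f} φ^i (c z)` works.
-/
import Fermat.Agent.TW56.Count.Tame

set_option autoImplicit false

noncomputable section

namespace Fermat.Agent.TW56.Count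

open Fermat.Agent.CFT.Local

namespace TameUnram

variable {Γ L : Type} [Group Γ] [Finite Γ] [NormedField L] [MulSemiringAction Γ L]

omit [Group Γ] [Finite Γ] [MulSemiringAction Γ L] in
lemma ultra_sub_le [IsUltrametricDist L] (x y : L) : ‖x - y‖ ≤ max ‖x‖ ‖y‖ := by
  rw [sub_eq_add_neg, ← norm_neg y]
  exact IsUltrametricDist.norm_add_le_max _ _

/-- iterates of a Frobenius. -/
lemma frob_pow (hL : LocAct Γ L) (φ : Γ) (q : ℕ)
    (hφ : ∀ x : L, ‖x‖ ≤ 1 → ‖φ • x - x ^ q‖ < 1) (i : ℕ) :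
    ∀ x : L, ‖x‖ ≤ 1 → ‖φ ^ i • x - x ^ q ^ i‖ < 1 := by
  have := hL.loc.ultra
  induction i with
  | zero => intro x _; simp
  | succ i ih =>
    intro x hx
    have e : φ ^ (i + 1) • x - x ^ q ^ (i + 1) =
        φ ^ i • (φ • x - x ^ q) + (φ ^ i • (x ^ q) - (x ^ q) ^ q ^ i) := by
      rw [pow_succ φ i, mul_smul, smul_sub, ← pow_mul, pow_succ' q i]
      ring
    rw [e]
    refine (IsUltrametricDist.norm_add_le_max _ _).trans_lt (max_lt ?_ ?_)
    · rw [hL.isom]; exact hφ x hx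
    · exact ih _ (by rw [norm_pow]; exact pow_le_one₀ (norm_nonneg _) hx)

end TameUnram

open TameUnram in
theorem stmt_unramVal (h1 : Stmt_tameSub) (hR : Stmt_resFix) (h2 : Stmt_frob) :
    Stmt_unramVal := by
  intro Γ L _ _ _ _ hL z hz hzI
  have := hL.loc.ultra
  obtain ⟨I, -, hIn, -, -, hI, -⟩ := h1 Γ L hL
  obtain ⟨φ, hφ, hgen⟩ := h2 Γ L hL
  set q := resCard (FixedPoints.subfield Γ L) with hq
  have hpow := frob_pow hL φ q hφ
  -- the order `f` of `φ` modulo `I`
  have hex : ∃ f : ℕ, 0 < f ∧ φ ^ f ∈ I :=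
    ⟨orderOf φ, orderOf_pos φ, by rw [pow_orderOf_eq_one]; exact I.one_mem⟩
  classical
  set f := Nat.find hex with hf
  have hf0 : 0 < f := (Nat.find_spec hex).1
  have hfI : φ ^ f ∈ I := (Nat.find_spec hex).2
  have hmin : ∀ k, 0 < k → k < f → φ ^ k ∉ I := fun k hk hkf hkI =>
    Nat.find_min hex hkf ⟨hk, hkI⟩
  -- distinct characters
  let χ : Fin f → (ResField L →* ResField L) := fun i => powMonoidHom (q ^ (i : ℕ))
  have hχlt : ∀ i j : Fin f, (i : ℕ) < j → χ i ≠ χ j := by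
    intro i j hlt hij
    apply hmin (j - i) (by omega) (by omega)
    rw [hI]
    intro x hx
    have e1 := hpow i x hx
    have e2 := hpow j x hx
    have e3 : ‖x ^ q ^ (i : ℕ) - x ^ q ^ (j : ℕ)‖ < 1 := by
      have h3 : red L ⟨x, hx⟩ ^ q ^ (i : ℕ) = red L ⟨x, hx⟩ ^ q ^ (j : ℕ) :=
        DFunLike.congr_fun hij (red L ⟨x, hx⟩)
      rw [← map_pow, ← map_pow, red_eq_red_iff] at h3
      simpa using h3
    have e4 : ‖φ ^ (j : ℕ) • x - φ ^ (i : ℕ) • x‖ < 1 := by
      have e : φ ^ (j : ℕ) • x - φ ^ (i : ℕ) • x =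
          (φ ^ (j : ℕ) • x - x ^ q ^ (j : ℕ)) - ((φ ^ (i : ℕ) • x - x ^ q ^ (i : ℕ)) +
            (x ^ q ^ (i : ℕ) - x ^ q ^ (j : ℕ))) := by ring
      rw [e]
      exact (ultra_sub_le _ _).trans_lt (max_lt e2
        ((IsUltrametricDist.norm_add_le_max _ _).trans_lt (max_lt e1 e3)))
    have e5 : φ ^ (j : ℕ) • x - φ ^ (i : ℕ) • x =
        φ ^ (i : ℕ) • (φ ^ ((j : ℕ) - (i : ℕ)) • x - x) := by
      rw [smul_sub, ← mul_smul, ← pow_add, Nat.add_sub_cancel' hlt.le]
    rw [e5, hL.isom] at e4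
    exact e4
  have hχ : Function.Injective χ := by
    intro i j hij
    by_contra hne
    rcases lt_or_gt_of_ne (fun h => hne (Fin.ext h) : (i : ℕ) ≠ j) with h | h
    · exact hχlt i j h hij
    · exact hχlt j i h hij.symm
  have hli : LinearIndependent (ResField L)
      (fun i : Fin f => (χ i : ResField L → ResField L)) :=
    (linearIndependent_monoidHom (ResField L) (ResField L)).comp χ hχ
  -- the coefficients `w_i = φ^i z / z`
  have hwn : ∀ i : ℕ, ‖φ ^ i • z / z‖ ≤ 1 := fun i => by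
    rw [norm_div, hL.isom, div_self (norm_ne_zero_iff.2 hz)]
  let w : ℕ → repsO L := fun i => ⟨φ ^ i • z / z, hwn i⟩
  have hw0 : red L (w 0) = 1 := by
    have : w 0 = 1 := Subtype.ext (by simp [w, hz])
    rw [this, map_one]
  obtain ⟨t, ht⟩ : ∃ t : ResField L, ∑ i : Fin f, red L (w i) * t ^ q ^ (i : ℕ) ≠ 0 := by
    by_contra hcon
    push Not at hcon
    have h0 : ∑ i : Fin f, red L (w i) • (χ i : ResField L → ResField L) = 0 := by
      funext t
      rw [Finset.sum_apply]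
      exact hcon t
    have h3 := Fintype.linearIndependent_iff.1 hli _ h0 ⟨0, hf0⟩
    exact one_ne_zero (hw0.symm.trans h3)
  -- lift `t` to `L^I`
  obtain ⟨c0, rfl⟩ := red_surjective t
  obtain ⟨c, hcI, hc⟩ := hR I L (hL.subgroup I) c0.1 c0.2
    (fun g => (hI g.1).1 g.2 c0.1 c0.2)
  have hc1 : ‖c‖ ≤ 1 := by
    have e : c = c0.1 - (c0.1 - c) := by ring
    rw [e]
    exact (ultra_sub_le _ _).trans (max_le c0.2 hc.le)
  have hred : red L ⟨c, hc1⟩ = red L c0 := red_eq_red_iff.2 (by rw [norm_sub_rev]; exact hc)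
  set a : L := c * z with ha
  have haI : ∀ s ∈ I, s • a = a := fun s hs => by
    have h3 : s • c = c := hcI ⟨s, hs⟩
    rw [ha, smul_mul', h3, hzI s ((hI s).1 hs)]
  refine ⟨∑ i ∈ Finset.range f, φ ^ i • a, ?_, ?_⟩
  · -- invariance
    have hsfix : ∀ s ∈ I, s • (∑ i ∈ Finset.range f, φ ^ i • a) =
        ∑ i ∈ Finset.range f, φ ^ i • a := by
      intro s hs
      rw [Finset.smul_sum]
      refine Finset.sum_congr rfl fun i _ => ?_
      have h3 : (φ ^ i)⁻¹ * s * φ ^ i ∈ I := by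
        have := hIn.conj_mem s hs (φ ^ i)⁻¹
        simpa using this
      have h4 : s • φ ^ i • a = φ ^ i • (((φ ^ i)⁻¹ * s * φ ^ i) • a) := by
        simp [smul_smul, mul_assoc]
      rw [h4, haI _ h3]
    have hφfix : φ • (∑ i ∈ Finset.range f, φ ^ i • a) = ∑ i ∈ Finset.range f, φ ^ i • a := by
      rw [Finset.smul_sum]
      have h3 : ∀ i, φ • φ ^ i • a = φ ^ (i + 1) • a := fun i => by rw [smul_smul, ← pow_succ']
      simp only [h3]
      have e1 := Finset.sum_range_succ (fun i => φ ^ i • a) f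
      have e2 := Finset.sum_range_succ' (fun i => φ ^ i • a) f
      rw [e1, haI _ hfI, pow_zero, one_smul] at e2
      exact (add_right_cancel e2).symm
    intro g
    obtain ⟨n, s, hs, rfl⟩ := hgen g
    rw [mul_smul, hsfix s ((hI s).2 hs)]
    induction n with
    | zero => simp
    | succ n ih => rw [pow_succ, mul_smul, hφfix, ih]
  · -- the norm
    let b : ℕ → repsO L := fun i => ⟨φ ^ i • c, by rw [mem_repsO, hL.isom]; exact hc1⟩
    have hb : ∀ i, red L (b i) = red L c0 ^ q ^ i := fun i => by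
      rw [← hred, ← map_pow, red_eq_red_iff]
      simpa using hpow i c hc1
    set u : repsO L := ∑ i ∈ Finset.range f, w i * b i with hu
    have hu1 : red L u ≠ 0 := by
      rw [hu, map_sum, Finset.sum_range]
      simp only [map_mul, hb]
      exact ht
    have hun : ‖(u : L)‖ = 1 := le_antisymm u.2 (not_lt.1 fun h => hu1 (red_eq_zero_iff.2 h))
    have hY : ∑ i ∈ Finset.range f, φ ^ i • a = (u : L) * z := by
      rw [hu, AddSubmonoidClass.coe_finsetSum, Finset.sum_mul]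
      refine Finset.sum_congr rfl fun i _ => ?_
      show φ ^ i • (c * z) = (φ ^ i • z / z) * (φ ^ i • c) * z
      rw [smul_mul']
      field_simp
    rw [hY, norm_mul, hun, one_mul]

end Fermat.Agent.TW56.Count

end
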