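/-
TEAM TW56 -> S56, block TAME, task TAME-5 (helper54): the wild inertia group is an `ℓ`-group.
-/
import Fermat.Agent.TW56.Count.Tame

set_option autoImplicit false

noncomputable section

namespace Fermat.Agent.TW56.Count

open Fermat.Agent.CFT.Local Filter Topology

namespace TameWild

variable {Γ L : Type} [Group Γ] [NormedField L] [MulSemiringAction Γ L]

lemma norm_natCast_eq_one [IsUltrametricDist L] {ℓ n : ℕ} (hℓ : ‖(ℓ : L)‖ < 1)
    (hc : Nat.Coprime n ℓ) : ‖(n : L)‖ = 1 := by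
  have hb : ((1 : ℕ) : ℤ) = (n : ℤ) * Nat.gcdA n ℓ + ℓ * Nat.gcdB n ℓ := by
    have := Nat.gcd_eq_gcd_ab n ℓ
    rwa [hc.gcd_eq_one] at this
  have hb' : (1 : L) = (n : L) * (Nat.gcdA n ℓ : L) + (ℓ : L) * (Nat.gcdB n ℓ : L) := by
    have := congrArg (Int.cast : ℤ → L) hb
    push_cast at this
    exact this
  by_contra h
  have hn1 : ‖(n : L)‖ < 1 := lt_of_le_of_ne (IsUltrametricDist.norm_natCast_le_one L n) h
  have h1 : ‖(1 : L)‖ < 1 := by
    rw [hb']
    refine (IsUltrametricDist.norm_add_le_max _ _).trans_lt (max_lt ?_ ?_)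
    · rw [norm_mul]
      exact (mul_le_of_le_one_right (norm_nonneg _)
        (IsUltrametricDist.norm_intCast_le_one L _)).trans_lt hn1
    · rw [norm_mul]
      exact (mul_le_of_le_one_right (norm_nonneg _)
        (IsUltrametricDist.norm_intCast_le_one L _)).trans_lt hℓ
  rw [norm_one] at h1
  exact lt_irrefl _ h1

/-- discreteness of the value group. -/
lemma norm_le_unif_mul {ϖ : L} (hϖ : IsUnif ϖ) {a b : L} (h : ‖a‖ < ‖b‖) :
    ‖a‖ ≤ ‖ϖ‖ * ‖b‖ := by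
  obtain ⟨h0, h1, h2⟩ := hϖ
  have hpos : 0 < ‖ϖ‖ := norm_pos_iff.2 h0
  by_cases ha : a = 0
  · rw [ha, norm_zero]
    positivity
  have hb : b ≠ 0 := by
    intro hb
    rw [hb, norm_zero] at h
    exact absurd h (not_lt.2 (norm_nonneg _))
  obtain ⟨j, hj⟩ := h2 a ha
  obtain ⟨k, hk⟩ := h2 b hb
  rcases le_or_gt j k with hjk | hjk
  · exfalso
    have := zpow_le_zpow_right_of_le_one₀ hpos h1.le hjk
    rw [← hj, ← hk] at this
    exact absurd h (not_lt.2 this)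
  · have h3 : k + 1 ≤ j := hjk
    have := zpow_le_zpow_right_of_le_one₀ hpos h1.le h3
    rw [zpow_add_one₀ hpos.ne', ← hj, ← hk, mul_comm] at this
    exact this

/-- the average over the powers of `v`. -/
def avg (v : Γ) (n : ℕ) (x : L) : L := (n : L)⁻¹ * ∑ i ∈ Finset.range n, v ^ i • x

lemma smul_natCast' (s : Γ) (n : ℕ) : s • (n : L) = n :=
  map_natCast (MulSemiringAction.toRingHom Γ L s) n

lemma smul_avg {v : Γ} {n : ℕ} (hv : v ^ n = 1) (x : L) : v • avg v n x = avg v n x := by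
  unfold avg
  rw [smul_mul', smul_inv'', smul_natCast', Finset.smul_sum]
  congr 1
  have h0 : ∀ i, v • v ^ i • x = v ^ (i + 1) • x := fun i => by rw [smul_smul, ← pow_succ']
  simp only [h0]
  have h1 := Finset.sum_range_succ' (fun i => v ^ i • x) n
  have h2 := Finset.sum_range_succ (fun i => v ^ i • x) n
  rw [h2] at h1
  simp only [hv, pow_zero] at h1
  exact (add_right_cancel h1).symm

lemma sub_avg (v : Γ) {n : ℕ} (hn : (n : L) ≠ 0) (x : L) :
    x - avg v n x = (n : L)⁻¹ * ∑ i ∈ Finset.range n, (x - v ^ i • x) := by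
  rw [Finset.sum_sub_distrib, Finset.sum_const, Finset.card_range, nsmul_eq_mul, mul_sub,
    inv_mul_cancel_left₀ hn]
  rfl

lemma norm_sub_avg_le [IsUltrametricDist L] {ϖ : L} (hϖ : IsUnif ϖ) {v : Γ} {n : ℕ}
    (hn : ‖(n : L)‖ = 1) (hw : ∀ i : ℕ, IsWild L (v ^ i)) (x : L) :
    ‖x - avg v n x‖ ≤ ‖ϖ‖ * ‖x‖ := by
  have hn0 : (n : L) ≠ 0 := by
    intro h
    rw [h, norm_zero] at hn
    exact zero_ne_one hn
  rw [sub_avg v hn0, norm_mul, norm_inv, hn, inv_one, one_mul]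
  refine IsUltrametricDist.norm_sum_le_of_forall_le_of_nonneg (by positivity) fun i _ => ?_
  by_cases hx : x = 0
  · rw [hx, smul_zero, sub_zero, norm_zero, mul_zero]
  · apply norm_le_unif_mul hϖ
    rw [norm_sub_rev]
    exact hw i x hx

/-- a wild element of order prime to the residue characteristic is trivial. -/
lemma eq_one_of_wild [Finite Γ] (hL : LocAct Γ L) {v : Γ} {n : ℕ} (hn : ‖(n : L)‖ = 1)
    (hv : v ^ n = 1) (hw : ∀ i : ℕ, IsWild L (v ^ i)) : v = 1 := by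
  have hU : IsUltrametricDist L := hL.loc.ultra
  obtain ⟨ϖ, hϖ⟩ := hL.loc.unif
  have hw1 : IsWild L v := by simpa using hw 1
  have key : ∀ x : L, v • x = x := by
    intro x
    have h1 : ∀ k : ℕ, ∃ y : L, v • y - y = v • x - x ∧ ‖y‖ ≤ ‖ϖ‖ ^ k * ‖x‖ := by
      intro k
      induction k with
      | zero => exact ⟨x, rfl, by simp⟩
      | succ k ih =>
        obtain ⟨y, hy, hyn⟩ := ih
        refine ⟨y - avg v n y, ?_, ?_⟩
        · rw [smul_sub, smul_avg hv, ← hy]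
          ring
        · calc ‖y - avg v n y‖ ≤ ‖ϖ‖ * ‖y‖ := norm_sub_avg_le hϖ hn hw y
            _ ≤ ‖ϖ‖ * (‖ϖ‖ ^ k * ‖x‖) := mul_le_mul_of_nonneg_left hyn (norm_nonneg _)
            _ = ‖ϖ‖ ^ (k + 1) * ‖x‖ := by ring
    have h2 : ∀ k : ℕ, ‖v • x - x‖ ≤ ‖ϖ‖ ^ k * ‖x‖ := by
      intro k
      obtain ⟨y, hy, hyn⟩ := h1 k
      refine le_trans ?_ hyn
      rw [← hy]
      by_cases hy0 : y = 0
      · rw [hy0, smul_zero, sub_zero]
      · exact (hw1 y hy0).le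
    have h3 : Tendsto (fun k : ℕ => ‖ϖ‖ ^ k * ‖x‖) atTop (𝓝 (0 * ‖x‖)) :=
      (tendsto_pow_atTop_nhds_zero_of_lt_one (norm_nonneg ϖ) hϖ.2.1).mul_const _
    rw [zero_mul] at h3
    have h4 : ‖v • x - x‖ ≤ 0 := ge_of_tendsto' h3 h2
    exact sub_eq_zero.1 (norm_le_zero_iff.1 h4)
  exact hL.faithful.eq_of_smul_eq_smul fun x => by rw [key x, one_smul]

end TameWild

open TameWild in
/-- TM4. `P` is an `ℓ`-group. -/
theorem stmt_wildP (h1 : Stmt_tameSub) : Stmt_wildP := by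
  intro Γ L _ _ _ _ hL ℓ hℓ hℓ1 u hu
  have hU : IsUltrametricDist L := hL.loc.ultra
  obtain ⟨-, P, -, -, -, -, hP⟩ := h1 Γ L hL
  obtain ⟨a, n, hn, ho⟩ := Nat.exists_eq_pow_mul_and_not_dvd (orderOf_pos u).ne' ℓ hℓ.ne_one
  refine ⟨a, ?_⟩
  have hc : Nat.Coprime n ℓ := ((Nat.Prime.coprime_iff_not_dvd hℓ).2 hn).symm
  refine eq_one_of_wild hL (norm_natCast_eq_one hℓ1 hc) ?_ ?_
  · rw [← pow_mul, ← ho, pow_orderOf_eq_one]
  · intro i
    exact (hP _).1 (P.pow_mem (P.pow_mem ((hP u).2 hu) _) _)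

end Fermat.Agent.TW56.Count

end
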