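/-
TEAM TW56 -> S56, block TAME (architect helper61): assembly.  All statements of `Count/Tame.lean`,
unconditionally.
-/
import Fermat.Agent.TW56.Count.TameSub
import Fermat.Agent.TW56.Count.TameResFix
import Fermat.Agent.TW56.Count.TameFrob
import Fermat.Agent.TW56.Count.TameCyc
import Fermat.Agent.TW56.Count.TameWild
import Fermat.Agent.TW56.Count.TameConj
import Fermat.Agent.TW56.Count.TameAvg
import Fermat.Agent.TW56.Count.TameUnram
import Fermat.Agent.TW56.Count.TameCard

set_option autoImplicit false

namespace Fermat.Agent.TW56.Count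

theorem tameAll_tameSub : Stmt_tameSub := stmt_tameSub

theorem tameAll_thetaNorm : Stmt_thetaNorm := stmt_thetaNorm

theorem tameAll_resFix : Stmt_resFix := stmt_resFix

theorem tameAll_frob : Stmt_frob := stmt_frob stmt_resFix

theorem tameAll_tameCyc : Stmt_tameCyc := stmt_tameCyc stmt_tameSub stmt_thetaNorm

theorem tameAll_tameOrd : Stmt_tameOrd := stmt_tameOrd stmt_tameSub stmt_thetaNorm

theorem tameAll_wildP : Stmt_wildP := stmt_wildP stmt_tameSub

theorem tameAll_frobConj : Stmt_frobConj := stmt_frobConj stmt_tameSub stmt_thetaNorm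

theorem tameAll_tameAvg : Stmt_tameAvg :=
  stmt_tameAvg stmt_tameSub tameAll_tameCyc tameAll_tameOrd

theorem tameAll_unramVal : Stmt_unramVal := stmt_unramVal stmt_tameSub stmt_resFix tameAll_frob

theorem tameAll_unramCard : Stmt_unramCard :=
  stmt_unramCard stmt_tameSub stmt_resFix tameAll_frob tameAll_unramVal

end Fermat.Agent.TW56.Count
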