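/-
TEAM TW56 -> S56, block COUNT, task CNT-C7 (helper40; architect helper68).
`stmt_theta1 : Stmt_normPi → Stmt_theta1` : the tame character of an element of valuation `j/(p-1)` is
`ω^j`.
-/
import Fermat.Agent.TW56.Count.Interface2

set_option autoImplicit false

noncomputable section

namespace Fermat.Agent.TW56.Count

open Fermat.Agent.CFT.Local Fermat.Agent.TW56.Flat

namespace Theta1

theorem pow_sub_pow_lt {L : Type} [NormedField L] [IsUltrametricDist L] {x x' : L} {r : ℝ}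
    (hr : 0 < r) (hx : ‖x‖ ≤ r) (hx' : ‖x'‖ ≤ r) (h : ‖x - x'‖ < r) (j : ℕ) :
    ‖x ^ j - x' ^ j‖ < r ^ j := by
  induction j with
  | zero => simp
  | succ j ih =>
    have e : x ^ (j + 1) - x' ^ (j + 1) = x ^ j * (x - x') + (x ^ j - x' ^ j) * x' := by ring
    rw [e]
    refine (IsUltrametricDist.norm_add_le_max _ _).trans_lt (max_lt ?_ ?_)
    · rw [norm_mul, norm_pow, pow_succ]
      calc ‖x‖ ^ j * ‖x - x'‖ ≤ r ^ j * ‖x - x'‖ :=
            mul_le_mul_of_nonneg_right (pow_le_pow_left₀ (norm_nonneg _) hx j) (norm_nonneg _)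
        _ < r ^ j * r := mul_lt_mul_of_pos_left h (pow_pos hr j)
    · rw [norm_mul, pow_succ]
      calc ‖x ^ j - x' ^ j‖ * ‖x'‖ ≤ ‖x ^ j - x' ^ j‖ * r :=
            mul_le_mul_of_nonneg_left hx' (norm_nonneg _)
        _ < r ^ j * r := mul_lt_mul_of_pos_right ih hr

end Theta1

/-- CNT-C7. -/
theorem stmt_theta1 (h1 : Stmt_normPi) : Stmt_theta1 := by
  intro p _ Γ L _ _ _ _ hL hp ζ hζ1 hζp y j s a hy hyn hs hsζ
  have hult := hL.loc.ultra
  have hpp : p.Prime := Fact.out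
  obtain ⟨hπ, hlin, -⟩ := h1 p L hult hp ζ hζ1 hζp
  have hπ0 : ζ - 1 ≠ 0 := sub_ne_zero.mpr hζ1
  have hsπ : s • (ζ - 1) = ζ ^ a - 1 := by rw [smul_sub, hsζ, smul_one]
  have hdiff : ‖s • (ζ - 1) - (a : L) * (ζ - 1)‖ < ‖ζ - 1‖ := by rw [hsπ]; exact hlin a
  generalize ζ - 1 = π at hπ hπ0 hdiff
  have hπpos : 0 < ‖π‖ := norm_pos_iff.mpr hπ0
  have hyπ : ‖y‖ = ‖π‖ ^ j := by
    have h2 : ‖y‖ ^ (p - 1) = (‖π‖ ^ j) ^ (p - 1) := by
      rw [hyn, ← hπ, ← pow_mul, ← pow_mul, mul_comm]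
    exact (pow_left_inj₀ (norm_nonneg _) (by positivity)
      (by have := hpp.two_le; omega)).mp h2
  obtain ⟨u, hyu⟩ : ∃ u, y = π ^ j * u := ⟨y / π ^ j, by field_simp⟩
  have hu1 : ‖u‖ = 1 := by
    have h3 : ‖π‖ ^ j * ‖u‖ = ‖π‖ ^ j * 1 := by
      rw [mul_one, ← norm_pow, ← norm_mul, ← hyu, hyπ, norm_pow]
    exact mul_left_cancel₀ (pow_pos hπpos j).ne' h3
  have hsπn : ‖s • π‖ = ‖π‖ := hL.isom s π
  have haπ : ‖(a : L) * π‖ ≤ ‖π‖ := by
    rw [norm_mul]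
    exact mul_le_of_le_one_left (norm_nonneg _) (IsUltrametricDist.norm_natCast_le_one L a)
  have hpow := Theta1.pow_sub_pow_lt hπpos hsπn.le haπ hdiff j
  have e : s • y - (a : L) ^ j * y
      = (s • π) ^ j * (s • u - u) + ((s • π) ^ j - ((a : L) * π) ^ j) * u := by
    rw [hyu, smul_mul', smul_pow']
    ring
  rw [e, hyπ]
  refine (IsUltrametricDist.norm_add_le_max _ _).trans_lt (max_lt ?_ ?_)
  · rw [norm_mul, norm_pow, hsπn]
    calc ‖π‖ ^ j * ‖s • u - u‖ < ‖π‖ ^ j * 1 :=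
          mul_lt_mul_of_pos_left (hs u hu1.le) (pow_pos hπpos j)
      _ = ‖π‖ ^ j := mul_one _
  · rw [norm_mul, hu1, mul_one]
    exact hpow

end Fermat.Agent.TW56.Count

end
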