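/-
TEAM TW56 -> S56, block COUNT (architect helper68), task CNT-C5 (helper65): `θ_y(s^d) = θ_{y^d}(s)`.
-/
import Fermat.Agent.TW56.Count.Interface2
import Fermat.Agent.TW56.Count.TameConj
import Fermat.Agent.TW56.Count.TameSub

set_option autoImplicit false

namespace Fermat.Agent.TW56.Count

open Fermat.Agent.CFT.Local

namespace ThetaPow

theorem lt_iff {L : Type} [NormedField L] {a c z : L} (hz : z ≠ 0) :
    ‖a - c * z‖ < ‖z‖ ↔ ‖a / z - c‖ < 1 := by
  have e : a - c * z = (a / z - c) * z := by field_simp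
  have hz' : 0 < ‖z‖ := norm_pos_iff.2 hz
  rw [e, norm_mul]
  constructor
  · intro h
    by_contra hcon
    push Not at hcon
    have := mul_le_mul_of_nonneg_right hcon hz'.le
    rw [one_mul] at this
    exact absurd h (not_lt.2 this)
  · intro h
    calc ‖a / z - c‖ * ‖z‖ < 1 * ‖z‖ := mul_lt_mul_of_pos_right h hz'
      _ = ‖z‖ := one_mul _

end ThetaPow

/-- **CNT-C5** -/
theorem stmt_thetaPow : Stmt_thetaPow := by
  intro Γ L _ _ _ _ hL s y c d hs hy
  have := hL.loc.ultra
  have hyd : y ^ d ≠ 0 := pow_ne_zero d hy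
  rw [ThetaPow.lt_iff hyd, ThetaPow.lt_iff hy]
  have h1 : s • (y ^ d) / y ^ d = (s • y / y) ^ d := by
    rw [smul_pow', div_pow]
  have h2 := TameConj.theta_pow stmt_thetaNorm hL hs hy d
  rw [h1]
  constructor
  · intro h
    exact TameConj.cong_trans h2 h
  · intro h
    exact TameConj.cong_trans (TameConj.cong_symm h2) h

end Fermat.Agent.TW56.Count
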