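/-
TEAM TW56 -> S56, block COUNT, task CNT-C3 (helper72): norms of inertia-fixed elements.
-/
import Fermat.Agent.TW56.Count.Interface2

set_option autoImplicit false

namespace Fermat.Agent.TW56.Count

theorem stmt_unrZ : Stmt_unrZ := by
  intro p _ Γ L _ _ _ _ ζ C x hx hfix
  have hp : p.Prime := Fact.out
  have hp1 : (1 : ℝ) < p := by exact_mod_cast hp.one_lt
  have hp0 : (0 : ℝ) < p := by linarith
  obtain ⟨n, hn1, hn2⟩ := exists_mem_Ioc_zpow (norm_pos_iff.2 hx) hp1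
  have hpL : (p : L) ≠ 0 := by
    intro h
    have := C.normp
    rw [h, norm_zero] at this
    exact (inv_pos.2 hp0).ne this
  set z : L := x * (p : L) ^ (n + 1) with hz
  have hnz : ‖z‖ = ‖x‖ * ((p : ℝ) ^ (n + 1))⁻¹ := by
    rw [hz, norm_mul, norm_zpow, C.normp, inv_zpow]
  have hpn : (0 : ℝ) < (p : ℝ) ^ (n + 1) := zpow_pos hp0 _
  have hzfix : ∀ s : Γ, IsIn L s → s • z = z := by
    intro s hs
    have h1 : s • ((p : L) ^ (n + 1)) = (p : L) ^ (n + 1) := by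
      have := map_zpow₀ (MulSemiringAction.toRingHom Γ L s) (p : L) (n + 1)
      rw [map_natCast] at this
      exact this
    rw [hz, smul_mul', hfix s hs, h1]
  have hz1 : ‖z‖ ≤ 1 := by
    rw [hnz, ← div_eq_mul_inv, div_le_one hpn]
    exact hn2
  have hz2 : (p : ℝ)⁻¹ < ‖z‖ := by
    rw [hnz, ← div_eq_mul_inv, lt_div_iff₀ hpn, zpow_add₀ hp0.ne', zpow_one]
    calc (p : ℝ)⁻¹ * ((p : ℝ) ^ n * p) = (p : ℝ) ^ n := by field_simp
      _ < ‖x‖ := hn1
  have hz3 : ‖z‖ = 1 := by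
    rcases hz1.lt_or_eq with h | h
    · exact absurd (C.unr z hzfix h) (not_le.2 hz2)
    · exact h
  refine ⟨-(n + 1), ?_⟩
  rw [hnz] at hz3
  rw [inv_zpow, zpow_neg, inv_inv]
  field_simp at hz3
  exact hz3

end Fermat.Agent.TW56.Count
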