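/-
TEAM TW56 -> S56, block COUNT, task CNT-F3 (1640): `Stmt_X1abs`.
-/
import Fermat.Agent.TW56.Count.Interface2

set_option autoImplicit false

noncomputable section

namespace Fermat.Agent.TW56.Count

open Fermat.Agent.CFT.Local Fermat.Agent.TW56.Flat

namespace X1abs

/-- `Γ/I` is abelian when `Γ = ⟨φ⟩ I`. -/
theorem comm_mem {Γ : Type} [Group Γ] (I : Subgroup Γ) [I.Normal] (φ : Γ)
    (hgen : ∀ g : Γ, ∃ n : ℕ, ∃ s ∈ I, g = φ ^ n * s) (g h : Γ) : g * h * g⁻¹ * h⁻¹ ∈ I := by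
  rw [← QuotientGroup.eq_one_iff]
  obtain ⟨n, s, hs, rfl⟩ := hgen g
  obtain ⟨m, t, ht, rfl⟩ := hgen h
  have hs' : (s : Γ ⧸ I) = 1 := (QuotientGroup.eq_one_iff s).2 hs
  have ht' : (t : Γ ⧸ I) = 1 := (QuotientGroup.eq_one_iff t).2 ht
  simp only [QuotientGroup.mk_mul, QuotientGroup.mk_inv, QuotientGroup.mk_pow, hs', ht', mul_one]
  rw [(Commute.pow_pow_self (φ : Γ ⧸ I) n m).eq]
  group

end X1abs

/-- CNT-F3. -/
theorem stmt_X1abs (h1 : Stmt_tameSub) (hc : Stmt_charTame) (hF1 : Stmt_noJump1)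
    (hF2 : Stmt_hom2abs) (hA2 : Stmt_killN) (hA3 : Stmt_fibre) (hA4 : Stmt_indexKer)
    (hA5 : Stmt_homCyc) : Stmt_X1abs := by
  intro p _ hp2 k _ _ _ Γ L _ _ _ _ ζ hctx om φ hcyc hφ hgen η hne
  have hp : p.Prime := Fact.out
  obtain ⟨I, P, hIn, -, -, hI, -⟩ := h1 Γ L hctx.act
  by_cases hη : η = 1
  · subst hη
    exact hA5 k Γ {s | IsIn L s} φ hgen
      (fun f hf s hs => hF2 p hp2 k Γ L ζ hctx om hcyc f hf s hs)
  · obtain ⟨g₀, hg₀⟩ : ∃ g, η g ≠ 1 := by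
      by_contra hcon
      push Not at hcon
      exact hη (MonoidHom.ext hcon)
    have hpow : ∀ s : Γ, IsIn L s → η s ^ (p - 1) = 1 := by
      intro s hs
      have h := (hc p k Γ L hctx.act hctx.normp ⊤ (η.comp (⊤ : Subgroup Γ).subtype)).2 φ p hφ
        ⟨s, Subgroup.mem_top s⟩ ⟨φ * s * φ⁻¹, Subgroup.mem_top _⟩ hs rfl
      have h2 : η (φ * s * φ⁻¹) = η s ^ p := h
      rw [map_mul, map_mul, map_inv, mul_comm (η φ), mul_assoc, mul_inv_cancel, mul_one] at h2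
      have h3 : η s ^ (p - 1) * η s = 1 * η s := by
        rw [← pow_succ, Nat.sub_add_cancel hp.one_le, one_mul]
        exact h2.symm
      exact mul_right_cancel h3
    set N : Subgroup Γ := η.ker ⊓ om.ker with hN
    have hNn : N.Normal := inferInstance
    have hidx : ¬ p ∣ N.index := hA4 p k Γ η om
    have hkill : ∀ f ∈ Z1Char η, ∀ n ∈ N, f n = 0 := by
      intro f hf
      refine hA2 k Γ η I N hNn (X1abs.comm_mem I φ ?_) (fun n hn => MonoidHom.mem_ker.1 hn.1)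
        ⟨g₀, hg₀⟩ f hf ?_
      · intro g
        obtain ⟨n, s, hs, rfl⟩ := hgen g
        exact ⟨n, s, (hI s).2 hs, rfl⟩
      · intro n hn hnI
        exact hF1 p hp2 k Γ L ζ hctx om η hcyc hpow hne f hf n ((hI n).1 hnI)
          (MonoidHom.mem_ker.1 hn.1) (MonoidHom.mem_ker.1 hn.2)
    have := hA3 p k Γ η N hNn hidx Unit (fun _ _ => True) (fun _ _ => ⟨(), trivial⟩)
      (fun f hf f' hf' _ _ _ n hn => by rw [hkill f hf n hn, hkill f' hf' n hn])
    simpa using this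

end Fermat.Agent.TW56.Count

end
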