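/-
TEAM TW56 -> S56, block COUNT (architect helper68).  CNT-F4 : `x1'` in the abstract context (helper9).
-/
import Fermat.Agent.TW56.Count.Interface2

set_option autoImplicit false

noncomputable section

namespace Fermat.Agent.TW56.Count

open Fermat.Agent.CFT.Local Fermat.Agent.TW56.Flat

namespace X1pabs

/-- `Γ/I` is abelian when `Γ = ⟨φ⟩ I`. -/
theorem comm_mem {Γ : Type} [Group Γ] (I : Subgroup Γ) [hI : I.Normal] (φ : Γ)
    (hgen : ∀ g : Γ, ∃ n : ℕ, ∃ s ∈ I, g = φ ^ n * s) (g h : Γ) : g * h * g⁻¹ * h⁻¹ ∈ I := by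
  obtain ⟨n, s, hs, rfl⟩ := hgen g
  obtain ⟨m, t, ht, rfl⟩ := hgen h
  rw [← QuotientGroup.eq_one_iff]
  have h1 : ((s : Γ) : Γ ⧸ I) = 1 := (QuotientGroup.eq_one_iff s).2 hs
  have h2 : ((t : Γ) : Γ ⧸ I) = 1 := (QuotientGroup.eq_one_iff t).2 ht
  simp only [QuotientGroup.mk_mul, QuotientGroup.mk_inv, QuotientGroup.mk_pow, h1, h2, mul_one]
  rw [← pow_add, add_comm, pow_add]
  group

theorem arith (p : ℕ) (hp : 3 ≤ p) :
    (p - 1) * (p - 1) ^ 2 < p * (p - 2) * (p - 1) + (p - 1) ^ 2 := by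
  obtain ⟨q, rfl⟩ := Nat.exists_eq_add_of_le hp
  have h1 : 3 + q - 1 = q + 2 := by omega
  have h2 : 3 + q - 2 = q + 1 := by omega
  rw [h1, h2]
  nlinarith

end X1pabs

theorem stmt_X1'abs (h0 : Stmt_cycFix) (h1 : Stmt_tameSub) (h8 : Stmt_omSurj) (h9 : Stmt_rdEx)
    (ht : Stmt_trace) (hv : Stmt_hval) (hl : Stmt_lev0) (he : Stmt_levEnd) (hE2 : Stmt_psiAdd)
    (hE3 : Stmt_psiAct) (hE4 : Stmt_psiInj) (hE7 : Stmt_count1) (hA2 : Stmt_killN)
    (hA3 : Stmt_fibre) (hA4 : Stmt_indexKer) (hF3 : Stmt_X1abs) : Stmt_X1'abs := by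
  intro p _ hp2 k _ _ _ Γ L _ _ _ _ ζ hctx om φ hcyc hφ hgen η
  have hp : p.Prime := Fact.out
  have hp3 : 3 ≤ p := by
    have := hp.two_le
    omega
  have hk1 : 1 ≤ Nat.card k := Nat.card_pos
  by_cases hcase : ∃ s : Γ, IsIn L s ∧ η s ≠ om s
  · calc Nat.card (Z1Char η) ≤ Nat.card k := hF3 p hp2 k Γ L ζ hctx om φ hcyc hφ hgen η hcase
      _ ≤ Nat.card k ^ 2 := by nlinarith
  push Not at hcase
  obtain ⟨hc1, hc2, hc3⟩ := h0 p k Γ L ζ hctx.ne_one hctx.pow_p om hcyc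
  -- `η ≠ 1`
  have hη1 : ∃ g, η g ≠ 1 := by
    obtain ⟨s, hs, hsζ⟩ := h8 p Γ L ζ hctx 2 (by
      intro hd
      have := Nat.le_of_dvd (by norm_num) hd
      omega)
    refine ⟨s, ?_⟩
    rw [hcase s hs]
    intro h
    have h2 := hcyc s 2 hsζ
    rw [h, Units.val_one, Nat.cast_ofNat] at h2
    have h3 : (1 : k) = 0 := by linear_combination (-1 : k) * h2
    exact one_ne_zero h3
  obtain ⟨T, hT⟩ := ht p k
  set N : Subgroup Γ := η.ker ⊓ om.ker with hN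
  have hNn : N.Normal := inferInstance
  have hidx : ¬ p ∣ N.index := hA4 p k Γ η om
  have hKD : KData p ζ om η N T :=
    { cyc := hcyc
      normal := hNn
      eta := fun n hn => MonoidHom.mem_ker.1 hn.1
      fixz := fun n hn => hc2 n (MonoidHom.mem_ker.1 hn.2)
      nondeg := hT }
  have hndvd : ¬ p ∣ p - 1 := fun hd => by
    have := Nat.le_of_dvd (by omega) hd
    omega
  have hcop : Nat.Coprime (p - 1) p := by
    rw [Nat.coprime_comm]
    exact (Nat.Prime.coprime_iff_not_dvd hp).2 hndvd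
  have hpow : ∀ s : Γ, IsIn L s → s ^ (p - 1) ∈ N := by
    intro s hs
    refine Subgroup.mem_inf.2 ⟨?_, ?_⟩
    · rw [MonoidHom.mem_ker, map_pow, hcase s hs, hc3]
    · rw [MonoidHom.mem_ker, map_pow, hc3]
  have hHV : HVal p L N (p - 1) := hv p Γ L ζ hctx N (p - 1) hcop hpow
  have hsm : ∀ g : Γ, g • (p : L) = (p : L) := fun g =>
    map_natCast (MulSemiringAction.toRingHom Γ L g) p
  have hnp : ‖(p : L)‖ = (p : ℝ)⁻¹ := hctx.normp
  have hJ : Jump p N (p - 1) (p - 1) (p : L) :=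
    { epos := by omega
      hval := hHV
      one_le := by omega
      ndvd := hndvd
      lt := (Nat.mul_lt_mul_right (by omega)).2 (by omega)
      fix := fun n _ => hsm n
      norm := by rw [hnp] }
  obtain ⟨κ, _, _, _, rd, hrd⟩ := h9 p L hctx.act.loc hnp
  have hp0 : (p : L) ≠ 0 := by
    intro h
    rw [h, norm_zero] at hnp
    exact (inv_ne_zero (Nat.cast_ne_zero.2 hp.ne_zero)) hnp.symm
  have hex : ∀ f ∈ Z1Char η, ∃ Ψ : PsiSet1 p k κ (cc om η φ) 1,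
      IsPsi ζ N T rd (p : L) f Ψ.1 := by
    intro f hf
    have hlev : LevJ ζ N T f (p - 1) (p - 1) :=
      hl p k Γ L ζ hctx om η N T hKD (p - 1) (by omega) hHV f hf (p - 1) (X1pabs.arith p hp3)
    choose α hα1 hα2 using hlev
    have hα3 : ∀ x, ‖α x ^ p - 1‖ ≤ ‖(p : L)‖ := by
      intro x
      rw [hnp]
      exact (pow_le_pow_iff_left₀ (norm_nonneg _) (by positivity) (by omega)).1 (hα2 x)
    have hΨ : IsPsi ζ N T rd (p : L) f (fun x => rd ((α x ^ p - 1) / (p : L))) :=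
      fun x => ⟨α x, hα1 x, hα3 x, rfl⟩
    refine ⟨⟨fun x => rd ((α x ^ p - 1) / (p : L)), ?_, ?_⟩, hΨ⟩
    · exact hE2 p k κ Γ L ζ hctx N T rd hrd (p - 1) (p - 1) (p : L) hJ f _ hΨ
    · intro x
      have h := hE3 p k κ Γ L ζ hctx om η N T hKD rd hrd (p - 1) (p - 1) (p : L) hJ f hf _ hΨ
        φ p hφ x
      rw [hsm, div_self hp0, hrd.one] at h
      exact h
  obtain ⟨I, P, hIn, _, _, hI, _⟩ := h1 Γ L hctx.act
  have hcomm : ∀ g h : Γ, g * h * g⁻¹ * h⁻¹ ∈ I := by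
    intro g h
    exact X1pabs.comm_mem I φ (fun g => by
      obtain ⟨n, s, hs, e⟩ := hgen g
      exact ⟨n, s, (hI s).2 hs, e⟩) g h
  have hinj : ∀ f ∈ Z1Char η, ∀ f' ∈ Z1Char η, ∀ Ψ : PsiSet1 p k κ (cc om η φ) 1,
      IsPsi ζ N T rd (p : L) f Ψ.1 → IsPsi ζ N T rd (p : L) f' Ψ.1 → ∀ n ∈ N, f n = f' n := by
    intro f hf f' hf' Ψ h h' n hn
    have hlev := hE4 p k κ Γ L ζ hctx N T rd hrd (p - 1) (p - 1) (p : L) hJ f f' Ψ.1 h h'
    have hpp : p - 1 + 1 = p := by omega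
    rw [hpp] at hlev
    have hkill := he p k Γ L ζ hctx om η N T hKD (fun g => f g - f' g) (p - 1) p (by omega) le_rfl
      hlev
    have hd : (fun g => f g - f' g) ∈ Z1Char η := by
      intro σ τ
      show f (σ * τ) - f' (σ * τ) = (f σ - f' σ) + (η σ : k) * (f τ - f' τ)
      rw [hf σ τ, hf' σ τ]
      ring
    have h3 := hA2 k Γ η I N hNn hcomm (fun n hn => MonoidHom.mem_ker.1 hn.1) hη1 _ hd
      (fun n hn hnI => hkill n hn ((hI n).1 hnI)) n hn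
    exact sub_eq_zero.1 h3
  calc Nat.card (Z1Char η) ≤ Nat.card (PsiSet1 p k κ (cc om η φ) 1) * Nat.card k :=
        hA3 p k Γ η N hNn hidx _ (fun f Ψ => IsPsi ζ N T rd (p : L) f Ψ.1) hex hinj
    _ ≤ Nat.card k * Nat.card k := Nat.mul_le_mul_right _ (hE7 p k κ (cc om η φ) 1 one_ne_zero)
    _ = Nat.card k ^ 2 := (sq _).symm

end Fermat.Agent.TW56.Count

end
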