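/-
TEAM TW56 -> S56, block COUNT : CNT-G1 `Stmt_x2Data`.
-/
import Fermat.Agent.TW56.Count.Interface2

set_option autoImplicit false

noncomputable section

namespace Fermat.Agent.TW56.Count

open Fermat.Agent.CFT.Local Fermat.Agent.TW56.Flat

namespace X2Data

/-- `a = b^p`, `b = a^p` in a commutative group. -/
theorem pow_sq_sub_one {G : Type*} [CommGroup G] {p : ℕ} (hp : 1 ≤ p) {a b : G} (h1 : b = a ^ p)
    (h2 : a = b ^ p) : a ^ (p ^ 2 - 1) = 1 := by
  have h3 : a ^ (p ^ 2) = a := by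
    conv_rhs => rw [h2, h1]
    rw [← pow_mul, sq]
  have h4 : 1 ≤ p ^ 2 := Nat.one_le_pow _ _ hp
  have h5 : a ^ (p ^ 2 - 1) * a = 1 * a := by
    rw [← pow_succ, Nat.sub_add_cancel h4, h3, one_mul]
  exact mul_right_cancel h5

end X2Data

theorem stmt_x2Data (h0 : Stmt_cycFix) (h8 : Stmt_omSurj) : Stmt_x2Data := by
  intro p _ hp2 k _ _ _ Γ L _ _ _ _ ζ hC om χ χ' φ hX T hT
  have hp : p.Prime := Fact.out
  have hp1 : 1 ≤ p := hp.one_lt.le
  obtain ⟨-, hfix, -⟩ := h0 p k Γ L ζ hC.ne_one hC.pow_p om hX.cyc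
  refine ⟨⟨hX.cyc, inferInstance, ?_, ?_, hT⟩, ?_, ?_, ?_, ?_⟩
  · intro n hn
    have h1 : χ n = 1 := hn.1
    have h2 : χ' n = 1 := hn.2
    rw [MonoidHom.div_apply, h1, h2, div_one]
  · intro n hn
    have h1 : χ n = 1 := hn.1
    have h2 : χ' n = 1 := hn.2
    apply hfix
    rw [← hX.mul, h1, h2, one_mul]
  · intro s hs
    refine Subgroup.mem_inf.2 ⟨?_, ?_⟩
    · rw [MonoidHom.mem_ker, map_pow]
      exact X2Data.pow_sq_sub_one hp1 (hX.pow s hs) (hX.pow' s hs)
    · rw [MonoidHom.mem_ker, map_pow]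
      exact X2Data.pow_sq_sub_one hp1 (hX.pow' s hs) (hX.pow s hs)
  · intro s hs
    have h3 : χ s ^ (p ^ 2) = χ s := by
      conv_rhs => rw [hX.pow' s hs, hX.pow s hs]
      rw [← pow_mul, sq]
    rw [MonoidHom.div_apply, hX.pow s hs, div_pow, div_eq_one, ← pow_mul]
    have h4 : p * (p + 1) = p ^ 2 + p := by ring
    rw [h4, pow_add (χ s) (p ^ 2) p, h3, pow_succ, mul_comm]
  · by_contra hcon
    have hall : ∀ s : Γ, IsIn L s → χ' s ^ 2 = 1 := by
      intro s hs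
      by_contra h1
      apply hcon
      refine ⟨s, hs, ?_⟩
      intro h2
      apply h1
      have h3 : om s / (χ / χ') s = 1 := Units.val_eq_one.1 h2
      rw [MonoidHom.div_apply, ← hX.mul] at h3
      rw [← h3, sq]
      rw [eq_div_iff_mul_eq']
      rw [mul_assoc, mul_div_cancel, mul_comm]
    have hnd : ¬ p ∣ 2 := by
      intro h
      exact hp2 ((Nat.prime_dvd_prime_iff_eq hp Nat.prime_two).1 h)
    obtain ⟨s, hs, hsζ⟩ := h8 p Γ L ζ hC 2 hnd
    have h1 : ((om s : kˣ) : k) = ((2 : ℕ) : k) := hX.cyc s 2 hsζ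
    have hodd : Odd p := hp.odd_of_ne_two hp2
    obtain ⟨m, hm⟩ := hodd
    have h2 : om s = 1 := by
      rw [← hX.mul, hX.pow' s hs, ← pow_succ, hm]
      have : 2 * m + 1 + 1 = 2 * (m + 1) := by ring
      rw [this, pow_mul, hall s hs, one_pow]
    rw [h2, Units.val_one] at h1
    have h3 : (1 : k) = 0 := by
      have h4 : (1 : k) + 1 = 1 + 0 := by
        rw [add_zero]
        conv_rhs => rw [h1]
        norm_num
      exact add_left_cancel h4
    exact one_ne_zero h3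
  · obtain ⟨s, -, hs⟩ := hX.ne
    refine ⟨s, ?_⟩
    rw [MonoidHom.div_apply]
    intro h
    exact hs (div_eq_one.1 h)

end Fermat.Agent.TW56.Count

end
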