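/-
TEAM TW56 -> S56, block COUNT (architect helper68), leaf CNT-G3: the level `‖y‖ = 1/p` is not a jump.
-/
import Fermat.Agent.TW56.Count.Interface2

set_option autoImplicit false

noncomputable section

namespace Fermat.Agent.TW56.Count

open Fermat.Agent.CFT.Local Fermat.Agent.TW56.Flat

namespace X2One

/-- inertia acts trivially to first order on elements of norm `‖p‖`. -/
theorem first_order (p : ℕ) [Fact p.Prime] (Γ L : Type) [Group Γ] [NormedField L]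
    [MulSemiringAction Γ L] (hnp : ‖(p : L)‖ = (p : ℝ)⁻¹) (s : Γ) (hs : IsIn L s) (y : L)
    (hy : ‖y‖ = (p : ℝ)⁻¹) : ‖s • y - y‖ < ‖y‖ := by
  have hp0 : (0 : ℝ) < (p : ℝ)⁻¹ := by
    have : (0 : ℝ) < (p : ℝ) := by exact_mod_cast (Fact.out : p.Prime).pos
    positivity
  have hpL : (p : L) ≠ 0 := by
    intro h
    rw [h, norm_zero] at hnp
    exact absurd hnp (ne_of_lt hp0)
  set u : L := y / (p : L) with hu
  have hyu : y = (p : L) * u := by rw [hu]; field_simp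
  have hun : ‖u‖ = 1 := by
    rw [hu, norm_div, hy, hnp]
    exact div_self (ne_of_gt hp0)
  have hsp : s • (p : L) = (p : L) := map_natCast (MulSemiringAction.toRingHom Γ L s) p
  have h1 : s • y - y = (p : L) * (s • u - u) := by
    rw [hyu, smul_mul', hsp]; ring
  rw [h1, norm_mul, hnp, hy]
  have := hs u (le_of_eq hun)
  calc (p : ℝ)⁻¹ * ‖s • u - u‖ < (p : ℝ)⁻¹ * 1 := by
        exact mul_lt_mul_of_pos_left this hp0
    _ = (p : ℝ)⁻¹ := mul_one _

theorem coprime_sq_sub_one (p : ℕ) (hp : p.Prime) : Nat.Coprime (p ^ 2 - 1) p := by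
  rw [Nat.coprime_comm, Nat.Prime.coprime_iff_not_dvd hp]
  intro h
  have h1 : 1 ≤ p ^ 2 := Nat.one_le_pow _ _ hp.pos
  have h2 : p ∣ p ^ 2 := dvd_pow_self p (by norm_num)
  have h3 : p ∣ 1 := by
    have := (Nat.dvd_sub_iff_right h1 h2).1 h
    exact this
  exact hp.one_lt.ne' (Nat.dvd_one.1 h3)

end X2One

/-- CNT-G3. -/
theorem stmt_x2One (hG1 : Stmt_x2Data) (hv : Stmt_hval) (hs : Stmt_stepLin) : Stmt_x2One := by
  intro p _ hp2 k _ _ _ Γ L _ _ _ _ ζ hC om χ χ' φ hX T hT f hf hlev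
  obtain ⟨hKD, hpowN, _, ⟨s, hsI, hcc⟩, _⟩ := hG1 p hp2 k Γ L ζ hC om χ χ' φ hX T hT
  have hp : p.Prime := Fact.out
  have hpos : 0 < p ^ 2 - 1 := by
    have : 2 ^ 2 ≤ p ^ 2 := Nat.pow_le_pow_left hp.two_le 2
    omega
  have hHV : HVal p L (χ.ker ⊓ χ'.ker) (p ^ 2 - 1) :=
    hv p Γ L ζ hC _ _ (X2One.coprime_sq_sub_one p hp) hpowN
  have key := hs p k Γ L ζ hC om (χ / χ') (χ.ker ⊓ χ'.ker) T hKD (p ^ 2 - 1) hpos hHV f hf
    (p ^ 2 - 1) s 1 hpos ?_ (by simpa using hcc) hlev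
  · have e : p ^ 2 - 1 + 1 = p ^ 2 := by omega
    rwa [e] at key
  · intro y _ hy
    have hp0 : (0 : ℝ) ≤ (p : ℝ)⁻¹ := by positivity
    have hyn : ‖y‖ = (p : ℝ)⁻¹ :=
      (pow_left_inj₀ (norm_nonneg y) hp0 hpos.ne').1 hy
    have := X2One.first_order p Γ L hC.normp s hsI y hyn
    simpa using this

end Fermat.Agent.TW56.Count

end
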