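/-
TEAM TW56 -> S56, block COUNT, CNT-G2 : the levels `j` with `(p-1) ∤ (j-2)` are not jumps (`Stmt_x2Step`).
-/
import Fermat.Agent.TW56.Count.Interface2

set_option autoImplicit false

noncomputable section

namespace Fermat.Agent.TW56.Count

open Fermat.Agent.CFT.Local Fermat.Agent.TW56.Flat

namespace X2Step

/-- a primitive root modulo `p`, seen in a field of characteristic `p`. -/
lemma exists_prim (p : ℕ) [Fact p.Prime] (k : Type) [Field k] [CharP k p] :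
    ∃ a : ℕ, ¬ p ∣ a ∧ ∀ n : ℕ, (a : k) ^ n = 1 → (p - 1) ∣ n := by
  obtain ⟨g, hg⟩ := IsCyclic.exists_generator (α := (ZMod p)ˣ)
  have hord : orderOf g = p - 1 := by
    rw [orderOf_eq_card_of_forall_mem_zpowers hg, Nat.card_eq_fintype_card, ZMod.card_units]
  refine ⟨(g : ZMod p).val, ?_, ?_⟩
  · intro h
    have h1 := (ZMod.natCast_eq_zero_iff _ p).2 h
    rw [ZMod.natCast_zmod_val] at h1
    exact g.ne_zero h1
  · intro n hn
    rw [← hord]
    apply orderOf_dvd_of_pow_eq_one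
    apply Units.ext
    rw [Units.val_pow_eq_pow_val, Units.val_one]
    have h1 : (((g : ZMod p).val ^ n : ℕ) : k) = ((1 : ℕ) : k) := by push_cast; exact hn
    have h2 := (CharP.natCast_eq_natCast k p).1 h1
    have h3 := (CharP.natCast_eq_natCast (ZMod p) p).2 h2
    push_cast at h3
    rwa [ZMod.natCast_zmod_val] at h3

end X2Step

theorem stmt_x2Step (h0 : Stmt_cycFix) (hG1 : Stmt_x2Data) (h8 : Stmt_omSurj) (h7 : Stmt_theta1)
    (h5 : Stmt_thetaPow) (hv : Stmt_hval) (hs : Stmt_stepLin) : Stmt_x2Step := by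
  intro p _ hp2 k _ _ _ Γ L _ _ _ _ ζ hC om χ χ' φ hX T hT f hf j hj hnd hlev
  have hp : p.Prime := Fact.out
  have hp2' : 2 ≤ p := hp.two_le
  obtain ⟨hKD, hpowN, hη, -, -⟩ := hG1 p hp2 k Γ L ζ hC om χ χ' φ hX T hT
  obtain ⟨-, -, hom⟩ := h0 p k Γ L ζ hC.ne_one hC.pow_p om hX.cyc
  have h4 : 4 ≤ p ^ 2 := by nlinarith
  have he0 : 0 < p ^ 2 - 1 := by omega
  have hcop : Nat.Coprime (p ^ 2 - 1) p := by
    rw [Nat.coprime_comm, Nat.Prime.coprime_iff_not_dvd hp]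
    intro h
    have h1 : p ∣ p ^ 2 := dvd_pow_self p two_ne_zero
    have h2 : p ∣ p ^ 2 - (p ^ 2 - 1) := Nat.dvd_sub h1 h
    have h3 : p ^ 2 - (p ^ 2 - 1) = 1 := by omega
    rw [h3] at h2
    exact hp.one_lt.ne' (Nat.dvd_one.1 h2)
  have hHV : HVal p L (χ.ker ⊓ χ'.ker) (p ^ 2 - 1) := hv p Γ L ζ hC _ _ hcop hpowN
  obtain ⟨a, hpa, hord⟩ := X2Step.exists_prim p k
  obtain ⟨s, hsI, hsζ⟩ := h8 p Γ L ζ hC a hpa
  have homs : ((om s : kˣ) : k) = (a : k) := hX.cyc s a hsζ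
  refine hs p k Γ L ζ hC om (χ / χ') _ T hKD _ he0 hHV f hf j (s ^ (p + 1)) (a ^ j) (by omega)
    ?_ ?_ hlev
  · intro y _ hy
    have hy0 : y ≠ 0 := by
      rintro rfl
      rw [norm_zero, zero_pow he0.ne'] at hy
      exact (pow_pos (inv_pos.2 (Nat.cast_pos.2 hp.pos)) j).ne hy
    have hY : ‖y ^ (p + 1)‖ ^ (p - 1) = ((p : ℝ)⁻¹) ^ j := by
      rw [norm_pow, ← pow_mul, ← hy]
      congr 1
      obtain ⟨r, rfl⟩ := Nat.exists_eq_add_of_le hp2'
      have e1 : 2 + r - 1 = r + 1 := by omega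
      have e2 : (2 + r) ^ 2 = (2 + r + 1) * (r + 1) + 1 := by ring
      rw [e1, e2, Nat.add_sub_cancel]
    have h1 := h7 p Γ L hC.act hC.normp ζ hC.ne_one hC.pow_p (y ^ (p + 1)) j s a
      (pow_ne_zero _ hy0) hY hsI hsζ
    have h2 := (h5 Γ L hC.act s y ((a : L) ^ j) (p + 1) hsI hy0).1 h1
    rwa [Nat.cast_pow]
  · intro hcc
    have hcc' : cc om (χ / χ') (s ^ (p + 1)) = (a : k) ^ 2 := by
      unfold cc
      rw [map_pow, map_pow, hη s hsI, div_one]
      have e : om s ^ (p + 1) = om s ^ 2 := by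
        have e1 : p + 1 = 2 + (p - 1) := by omega
        rw [e1, pow_add, hom s, mul_one]
      rw [e, Units.val_pow_eq_pow_val, homs]
    rw [hcc', Nat.cast_pow] at hcc
    have ha0 : (a : k) ≠ 0 := by rw [← homs]; exact Units.ne_zero _
    have h1 : (a : k) ^ (j - 2) = 1 := by
      have e : (a : k) ^ j = (a : k) ^ 2 * (a : k) ^ (j - 2) := by
        rw [← pow_add]; congr 1; omega
      rw [e] at hcc
      exact (mul_eq_left₀ (pow_ne_zero _ ha0)).1 hcc.symm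
    exact hnd (hord _ h1)

end Fermat.Agent.TW56.Count

end
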