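/-
TEAM TW56 -> S56, block COUNT, CNT-G6 (task 1646, helper58): the tame character at the level `p² + 1`.
-/
import Fermat.Agent.TW56.Count.Interface2

set_option autoImplicit false

noncomputable section

namespace Fermat.Agent.TW56.Count

open Fermat.Agent.CFT.Local Fermat.Agent.TW56.Flat

namespace X2Theta

variable {L κ : Type} [NormedField L] [Field κ]

theorem rd_pow {rd : L → κ} (h : IsRd rd) {u : L} (hu : ‖u‖ ≤ 1) (n : ℕ) :
    rd (u ^ n) = rd u ^ n := by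
  induction n with
  | zero => rw [pow_zero, pow_zero, h.one]
  | succ n ih =>
    rw [pow_succ, pow_succ, h.mul _ _ (by rw [norm_pow]; exact pow_le_one₀ (norm_nonneg _) hu) hu,
      ih]

/-- `rd x = 1 ↔ ‖x - 1‖ < 1` for `‖x‖ ≤ 1`, `‖x - 1‖ ≤ 1`. -/
theorem rd_eq_one_iff {rd : L → κ} (h : IsRd rd) {x : L} (hx1 : ‖x - 1‖ ≤ 1) :
    rd x = 1 ↔ ‖x - 1‖ < 1 := by
  have h1 : rd x = rd (x - 1) + 1 := by
    have := h.add (x - 1) 1 hx1 (by rw [norm_one])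
    rw [sub_add_cancel, h.one] at this
    exact this
  rw [h1, ← h.zero_iff _ hx1]
  constructor
  · intro h2
    exact add_eq_right.mp h2
  · intro h2
    rw [h2, zero_add]

theorem arith (p : ℕ) (hp : 2 ≤ p) (j : ℤ) (h : j * ((p : ℤ) + 1) = (p : ℤ) ^ 2 + 1) : False := by
  have hp' : (2 : ℤ) ≤ (p : ℤ) := by exact_mod_cast hp
  have h1 : (j - ((p : ℤ) - 1)) * ((p : ℤ) + 1) = 2 := by linear_combination h
  have h2 : ((p : ℤ) + 1) ∣ 2 := Dvd.intro_left _ h1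
  have h3 := Int.le_of_dvd (by norm_num) h2
  omega

end X2Theta

open X2Theta in
theorem stmt_x2Theta (h5 : Stmt_thetaPow) (h4 : Stmt_firstZ) : Stmt_x2Theta := by
  intro p _ _hp2 κ _ Γ L _ _ _ _ ζ hctx N hN rd hrd y₁ hfix hnorm
  have hp : p.Prime := Fact.out
  have hultra : IsUltrametricDist L := hctx.act.loc.ultra
  have hppos : (0 : ℝ) < (p : ℝ)⁻¹ := inv_pos.mpr (by exact_mod_cast hp.pos)
  have hy0 : y₁ ≠ 0 := by
    rintro rfl
    have he : p ^ 2 - 1 ≠ 0 := by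
      have : 2 ^ 2 ≤ p ^ 2 := Nat.pow_le_pow_left hp.two_le 2
      omega
    rw [norm_zero, zero_pow he] at hnorm
    exact absurd hnorm (pow_pos hppos _).ne
  have hny : 0 < ‖y₁‖ := norm_pos_iff.mpr hy0
  have hu : ∀ s : Γ, ‖s • y₁ / y₁‖ = 1 := fun s => by
    rw [norm_div, hctx.act.isom, div_self hny.ne']
  have hu1 : ∀ (s : Γ) (n : ℕ), ‖(s • y₁ / y₁) ^ n - 1‖ ≤ 1 := fun s n => by
    rw [sub_eq_add_neg]
    refine (IsUltrametricDist.norm_add_le_max _ _).trans ?_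
    rw [norm_pow, hu, one_pow, norm_neg, norm_one, max_self]
  -- `‖s (y^n) - y^n‖ < ‖y^n‖ ↔ rd u ^ n = 1`
  have key : ∀ (s : Γ) (n : ℕ), ‖s • (y₁ ^ n) - y₁ ^ n‖ < ‖y₁ ^ n‖ ↔ rd (s • y₁ / y₁) ^ n = 1 := by
    intro s n
    rw [← rd_pow hrd (hu s).le, rd_eq_one_iff hrd (hu1 s n)]
    have hyn : y₁ ^ n ≠ 0 := pow_ne_zero n hy0
    have h1 : (s • y₁ / y₁) ^ n - 1 = (s • (y₁ ^ n) - y₁ ^ n) / y₁ ^ n := by
      rw [smul_pow', div_pow, sub_div, div_self hyn]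
    rw [h1, norm_div, div_lt_one (norm_pos_iff.mpr hyn)]
  have ht0 : ∀ s : Γ, rd (s • y₁ / y₁) ≠ 0 := fun s h0 => by
    have := (hrd.zero_iff _ (hu s).le).mp h0
    rw [hu] at this
    exact lt_irrefl _ this
  have hp2 : 1 ≤ p ^ 2 := Nat.one_le_pow _ _ hp.pos
  refine ⟨?_, ?_⟩
  · intro s hs
    have h1 : ‖s • (y₁ ^ (p ^ 2 - 1)) - 1 * y₁ ^ (p ^ 2 - 1)‖ < ‖y₁ ^ (p ^ 2 - 1)‖ := by
      rw [h5 Γ L hctx.act s y₁ 1 (p ^ 2 - 1) hs hy0, hfix _ (hN s hs), one_mul, sub_self, norm_zero]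
      exact hny
    rw [one_mul, key] at h1
    calc rd (s • y₁ / y₁) ^ (p ^ 2) = rd (s • y₁ / y₁) ^ (p ^ 2 - 1 + 1) := by
          rw [Nat.sub_add_cancel hp2]
      _ = rd (s • y₁ / y₁) := by rw [pow_succ, h1, one_mul]
  · by_contra hcon
    push Not at hcon
    have h1 : ∀ s : Γ, IsIn L s → ‖s • (y₁ ^ (p - 1)) - y₁ ^ (p - 1)‖ < ‖y₁ ^ (p - 1)‖ := by
      intro s hs
      rw [key]
      have h2 := hcon s hs
      have h3 : rd (s • y₁ / y₁) ^ (p - 1) * rd (s • y₁ / y₁) = 1 * rd (s • y₁ / y₁) := by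
        rw [← pow_succ, Nat.sub_add_cancel hp.one_le, h2, one_mul]
      exact mul_right_cancel₀ (ht0 s) h3
    have hcop : Nat.Coprime (p ^ 2 - 1) p := by
      rw [Nat.coprime_comm, Nat.Prime.coprime_iff_not_dvd hp]
      intro hd
      have h2 : p ∣ p ^ 2 := Dvd.intro_left (p ^ 1) (by ring)
      have h3 : p ∣ 1 := by
        have := (Nat.dvd_sub h2 hd)
        rwa [Nat.sub_sub_self hp2] at this
      exact hp.one_lt.ne' (Nat.dvd_one.mp h3)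
    obtain ⟨j, hj⟩ := h4 p Γ L ζ hctx N (p ^ 2 - 1) hcop hN (y₁ ^ (p - 1)) (pow_ne_zero _ hy0)
      (fun n hn => by rw [smul_pow', hfix n hn]) h1
    have h6 : ((p : ℝ)⁻¹) ^ (j * ((p : ℤ) + 1)) = ((p : ℝ)⁻¹) ^ (((p : ℤ) ^ 2 + 1 : ℤ)) := by
      have h7 : (p ^ 2 - 1 : ℕ) = (p - 1) * (p + 1) := by
        obtain ⟨m, rfl⟩ : ∃ m, p = m + 1 := ⟨p - 1, (Nat.sub_add_cancel hp.one_le).symm⟩
        simp only [Nat.add_sub_cancel]
        have : (m + 1) ^ 2 = m * (m + 1 + 1) + 1 := by ring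
        omega
      have h8 : ((p : ℤ) ^ 2 + 1 : ℤ) = ((p ^ 2 + 1 : ℕ) : ℤ) := by push_cast; ring
      have h9 : ((p : ℤ) + 1) = ((p + 1 : ℕ) : ℤ) := by push_cast; ring
      rw [h8, zpow_natCast, ← hnorm, h7, pow_mul, ← norm_pow, hj, h9, zpow_mul, zpow_natCast]
    have hp1 : (p : ℝ)⁻¹ ≠ 1 := by
      have : (1 : ℝ) < (p : ℝ) := by exact_mod_cast hp.one_lt
      exact (inv_lt_one_of_one_lt₀ this).ne
    exact arith p hp.two_le j (zpow_right_injective₀ hppos hp1 h6)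

end Fermat.Agent.TW56.Count

end
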