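/-
TEAM TW56 -> S56, block COUNT, CNT-G4 / CNT-G5 : level arithmetic for the case `x2`
(`Stmt_x2Up`, `Stmt_x2Down`).
-/
import Fermat.Agent.TW56.Count.Interface2

set_option autoImplicit false

noncomputable section

namespace Fermat.Agent.TW56.Count

open Fermat.Agent.CFT.Local Fermat.Agent.TW56.Flat

namespace X2Up

lemma ndvd {m a r : ℕ} (h0 : 0 < r) (h1 : r < m) : ¬ m ∣ m * a + r := by
  intro h
  have h2 : m ∣ r := (Nat.dvd_add_right (Dvd.intro a rfl)).1 h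
  exact absurd (Nat.le_of_dvd h0 h2) (not_le.2 h1)

lemma coprime_sq_sub_one {p : ℕ} (hp : p.Prime) : Nat.Coprime (p ^ 2 - 1) p := by
  refine Nat.Coprime.symm ((Nat.Prime.coprime_iff_not_dvd hp).2 fun h => ?_)
  have h0 : 0 < p ^ 2 := pow_pos hp.pos 2
  have h1 : p ^ 2 - 1 + 1 = p * p := by rw [← sq]; omega
  have h2 : p ∣ 1 := (Nat.dvd_add_right h).1 (h1 ▸ dvd_mul_right p p)
  exact hp.one_lt.ne' (Nat.dvd_one.1 h2)

lemma three_or_five {p : ℕ} (hp : p.Prime) (hp2 : p ≠ 2) : p = 3 ∨ 5 ≤ p := by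
  have h2 := hp.two_le
  have h4 : p ≠ 4 := by
    rintro rfl
    exact absurd hp (by norm_num)
  omega

/-- the arithmetic of the case `p ≥ 5`. -/
lemma arith5 {p : ℕ} (h5 : 5 ≤ p) :
    (p ^ 2 - 2) * (p - 1) ^ 2 < p * (p - 2) * (p ^ 2 - 1) + (p - 1) ^ 2 ∧
    ¬ (p - 1) ∣ (p ^ 2 - 2 - 2) ∧ ¬ (p - 1) ∣ (p ^ 2 - 1 - 2) ∧ ¬ (p - 1) ∣ (p ^ 2 - 2) ∧
    p ^ 2 - 2 + 1 = p ^ 2 - 1 ∧ p ^ 2 - 1 + 1 = p ^ 2 ∧ 2 ≤ p ^ 2 - 2 := by
  obtain ⟨q, rfl⟩ := Nat.exists_eq_add_of_le h5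
  have e0 : (5 + q) ^ 2 = (q + 4) * (q + 5) + (q + 1) + 4 := by ring
  have e1 : 5 + q - 1 = q + 4 := by omega
  have e2 : 5 + q - 2 = q + 3 := by omega
  have e3 : (5 + q) ^ 2 - 2 - 2 = (q + 4) * (q + 5) + (q + 1) := by omega
  have e4 : (5 + q) ^ 2 - 1 - 2 = (q + 4) * (q + 5) + (q + 2) := by omega
  have e5 : (5 + q) ^ 2 - 2 = (q + 4) * (q + 5) + (q + 3) := by omega
  have e6 : (5 + q) ^ 2 - 1 = (q + 4) * (q + 5) + (q + 4) := by omega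
  refine ⟨?_, ?_, ?_, ?_, by omega, by omega, by omega⟩
  · rw [e1, e2, e5, e6]
    have h : (5 + q) * (q + 3) * ((q + 4) * (q + 5) + (q + 4)) + (q + 4) ^ 2
        = ((q + 4) * (q + 5) + (q + 3)) * (q + 4) ^ 2 + (q + 4) * (q + 2) := by ring
    rw [h]
    exact Nat.lt_add_of_pos_right (by positivity)
  · rw [e1, e3]; exact ndvd (by omega) (by omega)
  · rw [e1, e4]; exact ndvd (by omega) (by omega)
  · rw [e1, e5]; exact ndvd (by omega) (by omega)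

/-- the arithmetic of `x2Down`. -/
lemma arithDown {p : ℕ} (h3 : 3 ≤ p) (i : ℕ) (hi : i + 2 < p) :
    ¬ (p - 1) ∣ (p ^ 2 + 2 + i - 2) := by
  obtain ⟨q, rfl⟩ := Nat.exists_eq_add_of_le h3
  have e0 : (3 + q) ^ 2 = (q + 2) * (q + 4) + 1 := by ring
  have e1 : 3 + q - 1 = q + 2 := by omega
  have e2 : (3 + q) ^ 2 + 2 + i - 2 = (q + 2) * (q + 4) + (1 + i) := by omega
  rw [e1, e2]
  exact ndvd (by omega) (by omega)

lemma arithEnd {p : ℕ} (h3 : 3 ≤ p) : p * (p ^ 2 - 1) ≤ (p ^ 2 + 2 + (p - 2)) * (p - 1) := by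
  obtain ⟨q, rfl⟩ := Nat.exists_eq_add_of_le h3
  have e0 : (3 + q) ^ 2 = (q + 2) * (q + 4) + 1 := by ring
  have e1 : 3 + q - 1 = q + 2 := by omega
  have e2 : 3 + q - 2 = q + 1 := by omega
  have e3 : (3 + q) ^ 2 - 1 = (q + 2) * (q + 4) := by omega
  rw [e1, e2, e3]
  exact le_of_eq (by ring)

end X2Up

/-- CNT-G4. every cocycle reaches the level `p² + 1`. -/
theorem stmt_x2Up (hG1 : Stmt_x2Data) (hv : Stmt_hval) (hl : Stmt_lev0) (hp : Stmt_stepPow)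
    (hG2 : Stmt_x2Step) (hG3 : Stmt_x2One) : Stmt_x2Up := by
  intro p _ hp2 k _ _ _ Γ L _ _ _ _ ζ hC om χ χ' φ hX T hT f hf
  have hpp : p.Prime := Fact.out
  obtain ⟨hKD, hpow, -, -, -⟩ := hG1 p hp2 k Γ L ζ hC om χ χ' φ hX T hT
  have hcop : Nat.Coprime (p ^ 2 - 1) p := X2Up.coprime_sq_sub_one hpp
  have hHV : HVal p L (χ.ker ⊓ χ'.ker) (p ^ 2 - 1) :=
    hv p Γ L ζ hC (χ.ker ⊓ χ'.ker) (p ^ 2 - 1) hcop hpow
  have he : 0 < p ^ 2 - 1 := by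
    have : 2 ^ 2 ≤ p ^ 2 := Nat.pow_le_pow_left hpp.two_le 2
    omega
  have step := hG2 p hp2 k Γ L ζ hC om χ χ' φ hX T hT f hf
  have lev0 := hl p k Γ L ζ hC om (χ / χ') (χ.ker ⊓ χ'.ker) T hKD (p ^ 2 - 1) he hHV f hf
  rcases X2Up.three_or_five hpp hp2 with rfl | h5
  · have l6 : LevJ ζ (χ.ker ⊓ χ'.ker) T f (3 ^ 2 - 1) 6 := lev0 6 (by norm_num)
    have l7 : LevJ ζ (χ.ker ⊓ χ'.ker) T f (3 ^ 2 - 1) 7 :=
      hp 3 hp2 k Γ L ζ hC (χ.ker ⊓ χ'.ker) T (3 ^ 2 - 1) hcop hHV f 6 (by norm_num) (by norm_num)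
        (by norm_num) l6
    have l8 : LevJ ζ (χ.ker ⊓ χ'.ker) T f (3 ^ 2 - 1) 8 := step 7 (by norm_num) (by norm_num) l7
    have l9 : LevJ ζ (χ.ker ⊓ χ'.ker) T f (3 ^ 2 - 1) 9 :=
      hG3 3 hp2 k Γ L ζ hC om χ χ' φ hX T hT f hf l8
    exact step 9 (by norm_num) (by norm_num) l9
  · obtain ⟨a0, a1, a2, a3, a4, a5, a6⟩ := X2Up.arith5 h5
    have l0 := lev0 (p ^ 2 - 2) a0
    have l1 := step (p ^ 2 - 2) (by omega) a1 l0
    rw [a4] at l1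
    have l2 := step (p ^ 2 - 1) (by omega) a2 l1
    rw [a5] at l2
    exact step (p ^ 2) (by omega) a3 l2

/-- CNT-G5. a cocycle of level `p² + 2` kills `I ∩ N`. -/
theorem stmt_x2Down (hG1 : Stmt_x2Data) (hG2 : Stmt_x2Step) (he : Stmt_levEnd) : Stmt_x2Down := by
  intro p _ hp2 k _ _ _ Γ L _ _ _ _ ζ hC om χ χ' φ hX T hT f hf hlev
  have hpp : p.Prime := Fact.out
  have h3 : 3 ≤ p := by
    have := hpp.two_le
    omega
  obtain ⟨hKD, -, -, -, -⟩ := hG1 p hp2 k Γ L ζ hC om χ χ' φ hX T hT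
  have he0 : 0 < p ^ 2 - 1 := by
    have : 2 ^ 2 ≤ p ^ 2 := Nat.pow_le_pow_left hpp.two_le 2
    omega
  have step := hG2 p hp2 k Γ L ζ hC om χ χ' φ hX T hT f hf
  have key : ∀ i : ℕ, i + 2 ≤ p → LevJ ζ (χ.ker ⊓ χ'.ker) T f (p ^ 2 - 1) (p ^ 2 + 2 + i) := by
    intro i
    induction i with
    | zero => intro _; exact hlev
    | succ i ih =>
      intro hi
      exact step (p ^ 2 + 2 + i) (by omega) (X2Up.arithDown h3 i (by omega)) (ih (by omega))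
  exact he p k Γ L ζ hC om (χ / χ') (χ.ker ⊓ χ'.ker) T hKD f (p ^ 2 - 1) (p ^ 2 + 2 + (p - 2)) he0
    (X2Up.arithEnd h3) (key (p - 2) (by omega))

end Fermat.Agent.TW56.Count

end
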