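/-
TEAM TW56 -> S56, block COUNT, package CNT-G7 (helper48): `x2` in the abstract context.
-/
import Fermat.Agent.TW56.Count.Interface2

set_option autoImplicit false

noncomputable section

namespace Fermat.Agent.TW56.Count

open Fermat.Agent.CFT.Local Fermat.Agent.TW56.Flat

namespace X2abs

theorem comm_mem {Γ : Type} [Group Γ] (I : Subgroup Γ) [I.Normal] (φ : Γ)
    (hgen : ∀ g : Γ, ∃ n : ℕ, ∃ s ∈ I, g = φ ^ n * s) (g h : Γ) : g * h * g⁻¹ * h⁻¹ ∈ I := by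
  rw [← QuotientGroup.eq_one_iff]
  obtain ⟨n, s, hs, rfl⟩ := hgen g
  obtain ⟨m, t, ht, rfl⟩ := hgen h
  have hs' : ((s : Γ) : Γ ⧸ I) = 1 := (QuotientGroup.eq_one_iff s).2 hs
  have ht' : ((t : Γ) : Γ ⧸ I) = 1 := (QuotientGroup.eq_one_iff t).2 ht
  simp only [QuotientGroup.mk_mul, QuotientGroup.mk_inv, QuotientGroup.mk_pow, hs', ht', mul_one]
  have hc : Commute ((φ : Γ ⧸ I) ^ n) ((φ : Γ ⧸ I) ^ m) :=
    (Commute.refl (φ : Γ ⧸ I)).pow_pow n m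
  rw [hc.eq]
  group

theorem sub_mem_Z1 {k Γ : Type} [Field k] [Group Γ] (η : Γ →* kˣ) {f f' : Γ → k}
    (hf : f ∈ Z1Char η) (hf' : f' ∈ Z1Char η) : (fun g => f g - f' g) ∈ Z1Char η := by
  intro σ τ
  have h1 : f (σ * τ) = f σ + (η σ : k) * f τ := hf σ τ
  have h2 : f' (σ * τ) = f' σ + (η σ : k) * f' τ := hf' σ τ
  show f (σ * τ) - f' (σ * τ) = f σ - f' σ + (η σ : k) * (f τ - f' τ)
  rw [h1, h2]; ring

theorem arith (p : ℕ) (hp : 2 ≤ p) : (p ^ 2 + 1) * (p - 1) < p * (p ^ 2 - 1) := by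
  obtain ⟨m, rfl⟩ : ∃ m, p = m + 2 := ⟨p - 2, by omega⟩
  have h1 : m + 2 - 1 = m + 1 := by omega
  have h2 : (m + 2) ^ 2 - 1 = m ^ 2 + 4 * m + 3 := by
    have : (m + 2) ^ 2 = m ^ 2 + 4 * m + 3 + 1 := by ring
    omega
  rw [h1, h2]
  nlinarith

end X2abs

open X2abs

/-- CNT-G7 -/
theorem stmt_X2abs (h1 : Stmt_tameSub) (h9 : Stmt_rdEx) (ht : Stmt_trace) (hv : Stmt_hval)
    (hG1 : Stmt_x2Data) (hG4 : Stmt_x2Up) (hG5 : Stmt_x2Down) (hG6 : Stmt_x2Theta)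
    (hE2 : Stmt_psiAdd) (hE3 : Stmt_psiAct) (hE4 : Stmt_psiInj) (hE5 : Stmt_stepVoid)
    (hE8 : Stmt_count2) (hA2 : Stmt_killN) (hA3 : Stmt_fibre) (hA4 : Stmt_indexKer) :
    Stmt_X2abs := by
  intro p _ hp2 k _ _ _ Γ L _ _ _ _ ζ hctx om χ χ' φ hX
  have hpp : p.Prime := Fact.out
  have hp2' : 2 ≤ p := hpp.two_le
  obtain ⟨T, hT⟩ := ht p k
  obtain ⟨hK, hpow, -, -, hηne⟩ := hG1 p hp2 k Γ L ζ hctx om χ χ' φ hX T hT
  set η : Γ →* kˣ := χ / χ' with hη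
  set N : Subgroup Γ := χ.ker ⊓ χ'.ker with hN
  have hsq : p ^ 2 - 1 + 1 = p ^ 2 := Nat.sub_add_cancel (Nat.one_le_pow _ _ hpp.pos)
  have hepos : 0 < p ^ 2 - 1 := by
    have : 2 ^ 2 ≤ p ^ 2 := Nat.pow_le_pow_left hp2' 2
    omega
  have hcop : Nat.Coprime (p ^ 2 - 1) p := by
    refine ((Nat.Prime.coprime_iff_not_dvd hpp).2 ?_).symm
    intro hd
    have h2 : p ∣ p ^ 2 - 1 + 1 := by rw [hsq]; exact dvd_pow_self p two_ne_zero
    exact hpp.one_lt.ne' (Nat.dvd_one.1 ((Nat.dvd_add_right hd).1 h2))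
  have hval : HVal p L N (p ^ 2 - 1) := hv p Γ L ζ hctx N _ hcop hpow
  obtain ⟨I, -, hIn, -, -, hI, -⟩ := h1 Γ L hctx.act
  have hcomm : ∀ g h : Γ, g * h * g⁻¹ * h⁻¹ ∈ I := by
    refine comm_mem I φ ?_
    intro g
    obtain ⟨n, s, hs, hg⟩ := hX.gen g
    exact ⟨n, s, (hI s).2 hs, hg⟩
  have hidx : ¬ p ∣ N.index := hA4 p k Γ χ χ'
  have hNn : N.Normal := hK.normal
  -- a cocycle of level `p² + 2` vanishes on `N`
  have hkill : ∀ f ∈ Z1Char η, LevJ ζ N T f (p ^ 2 - 1) (p ^ 2 + 2) → ∀ n ∈ N, f n = 0 := by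
    intro f hf hlev
    have h3 := hG5 p hp2 k Γ L ζ hctx om χ χ' φ hX T hT f hf hlev
    exact hA2 k Γ η I N hNn hcomm hK.eta hηne f hf (fun n hn hnI => h3 n hn ((hI n).1 hnI))
  have hup : ∀ f ∈ Z1Char η, LevJ ζ N T f (p ^ 2 - 1) (p ^ 2 + 1) := fun f hf =>
    hG4 p hp2 k Γ L ζ hctx om χ χ' φ hX T hT f hf
  have hkpos : 0 < Nat.card k := Nat.card_pos
  by_cases hy : ∃ y : L, (∀ n ∈ N, n • y = y) ∧ ‖y‖ ^ (p ^ 2 - 1) = ((p : ℝ)⁻¹) ^ (p ^ 2 + 1)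
  · obtain ⟨y₁, hyfix, hynorm⟩ := hy
    obtain ⟨κ, _, _, _, rd, hrd⟩ := h9 p L hctx.act.loc hctx.normp
    have hy0 : y₁ ≠ 0 := by
      rintro rfl
      rw [norm_zero, zero_pow hepos.ne'] at hynorm
      have : (0 : ℝ) < ((p : ℝ)⁻¹) ^ (p ^ 2 + 1) := by
        have : (0 : ℝ) < (p : ℝ) := by exact_mod_cast hpp.pos
        positivity
      linarith
    have hJ : Jump p N (p ^ 2 - 1) (p ^ 2 + 1) y₁ :=
      { epos := hepos
        hval := hval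
        one_le := Nat.le_add_left 1 _
        ndvd := by
          intro hd
          exact hpp.one_lt.ne'
            (Nat.dvd_one.1 ((Nat.dvd_add_right (dvd_pow_self p two_ne_zero)).1 hd))
        lt := arith p hp2'
        fix := hyfix
        norm := hynorm }
    obtain ⟨htp2, s₁, hs₁, hs₁ne⟩ := hG6 p hp2 κ Γ L ζ hctx N hpow rd hrd y₁ hyfix hynorm
    have hu : rd (φ • y₁ / y₁) ≠ 0 := by
      have hn1 : ‖φ • y₁ / y₁‖ = 1 := by
        rw [norm_div, hctx.act.isom, div_self (norm_ne_zero_iff.2 hy0)]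
      intro h0
      have := (hrd.zero_iff _ hn1.le).1 h0
      rw [hn1] at this
      exact lt_irrefl _ this
    have hcard := hE8 p k κ (cc om η s₁) (cc om η φ) (rd (s₁ • y₁ / y₁)) (rd (φ • y₁ / y₁)) hu
      hs₁ne (htp2 s₁ hs₁)
    have hmain := hA3 p k Γ η N hNn hidx
      (PsiSet2 p k κ (cc om η s₁) (cc om η φ) (rd (s₁ • y₁ / y₁)) (rd (φ • y₁ / y₁)))
      (fun f Ψ => IsPsi ζ N T rd y₁ f Ψ.1) ?_ ?_
    · calc Nat.card (Z1Char η) ≤ _ := hmain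
        _ ≤ Nat.card k * Nat.card k := Nat.mul_le_mul_right _ hcard
        _ = Nat.card k ^ 2 := (sq _).symm
    · intro f hf
      have hlev := hup f hf
      choose α hα using hlev
      have hpsi : IsPsi ζ N T rd y₁ f (fun x => rd ((α x ^ p - 1) / y₁)) := by
        intro x
        refine ⟨α x, (hα x).1, ?_, rfl⟩
        have h3 := (hα x).2
        rw [← hynorm] at h3
        exact (pow_le_pow_iff_left₀ (norm_nonneg _) (norm_nonneg _) hepos.ne').1 h3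
      refine ⟨⟨fun x => rd ((α x ^ p - 1) / y₁), ?_, ?_, ?_⟩, hpsi⟩
      · exact hE2 p k κ Γ L ζ hctx N T rd hrd _ _ y₁ hJ f _ hpsi
      · intro x
        have h3 := hE3 p k κ Γ L ζ hctx om η N T hK rd hrd _ _ y₁ hJ f hf _ hpsi s₁ 1
          (fun z hz => by rw [pow_one]; exact hs₁ z hz) x
        rw [pow_one] at h3
        exact h3
      · intro x
        exact hE3 p k κ Γ L ζ hctx om η N T hK rd hrd _ _ y₁ hJ f hf _ hpsi φ (p ^ 2) hX.frob x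
    · intro f hf f' hf' Ψ hΨ hΨ' n hn
      have h3 := hE4 p k κ Γ L ζ hctx N T rd hrd _ _ y₁ hJ f f' Ψ.1 hΨ hΨ'
      have h4 := hkill _ (sub_mem_Z1 η hf hf') h3 n hn
      exact sub_eq_zero.1 h4
  · have hmain := hA3 p k Γ η N hNn hidx Unit (fun _ _ => True) (fun _ _ => ⟨(), trivial⟩) ?_
    · calc Nat.card (Z1Char η) ≤ _ := hmain
        _ = Nat.card k := by rw [Nat.card_unique, one_mul]
        _ ≤ Nat.card k ^ 2 := by nlinarith
    · intro f hf f' hf' _ _ _ n hn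
      have h3 : ∀ g ∈ Z1Char η, ∀ n ∈ N, g n = 0 := fun g hg =>
        hkill g hg (hE5 p k Γ L ζ hctx.pow_p N T _ hepos hval g _ hy (hup g hg))
      rw [h3 f hf n hn, h3 f' hf' n hn]

end Fermat.Agent.TW56.Count

end
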