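/-
TEAM TW56 -> S56, block COUNT (architect helper68).  Assembly: `Flat.Stmt_COUNT`, unconditionally.
-/
import Fermat.Agent.TW56.Count.TameAll
import Fermat.Agent.TW56.Count.AS
import Fermat.Agent.TW56.Count.CharTame
import Fermat.Agent.TW56.Count.ChiP
import Fermat.Agent.TW56.Count.CobN
import Fermat.Agent.TW56.Count.Count1
import Fermat.Agent.TW56.Count.Count2
import Fermat.Agent.TW56.Count.CountSemi
import Fermat.Agent.TW56.Count.CtxM
import Fermat.Agent.TW56.Count.CtxSub
import Fermat.Agent.TW56.Count.CycFix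
import Fermat.Agent.TW56.Count.Final
import Fermat.Agent.TW56.Count.Fibre
import Fermat.Agent.TW56.Count.FirstZ
import Fermat.Agent.TW56.Count.FrobM
import Fermat.Agent.TW56.Count.HVal
import Fermat.Agent.TW56.Count.Hom2abs
import Fermat.Agent.TW56.Count.IndexKer
import Fermat.Agent.TW56.Count.KillN
import Fermat.Agent.TW56.Count.KumAct
import Fermat.Agent.TW56.Count.KumAlg
import Fermat.Agent.TW56.Count.KumEx
import Fermat.Agent.TW56.Count.Lev0
import Fermat.Agent.TW56.Count.LevEnd
import Fermat.Agent.TW56.Count.LocAxAbs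
import Fermat.Agent.TW56.Count.NoJump1
import Fermat.Agent.TW56.Count.NormPi
import Fermat.Agent.TW56.Count.OmSurj
import Fermat.Agent.TW56.Count.PsiAct
import Fermat.Agent.TW56.Count.PsiAdd
import Fermat.Agent.TW56.Count.PsiInj
import Fermat.Agent.TW56.Count.PsiUniq
import Fermat.Agent.TW56.Count.RdEx
import Fermat.Agent.TW56.Count.StepLin
import Fermat.Agent.TW56.Count.StepPow
import Fermat.Agent.TW56.Count.Theta1
import Fermat.Agent.TW56.Count.ThetaPow
import Fermat.Agent.TW56.Count.UnrZ
import Fermat.Agent.TW56.Count.WellDef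
import Fermat.Agent.TW56.Count.X1abs
import Fermat.Agent.TW56.Count.X1pabs
import Fermat.Agent.TW56.Count.X2Data
import Fermat.Agent.TW56.Count.X2One
import Fermat.Agent.TW56.Count.X2Step
import Fermat.Agent.TW56.Count.X2Theta
import Fermat.Agent.TW56.Count.X2Up
import Fermat.Agent.TW56.Count.X2abs
import Fermat.Agent.TW56.Flat.RamInst
import Fermat.Agent.TW56.Flat.AbsInert
import Fermat.Agent.TW56.Flat.InertSub

set_option autoImplicit false

namespace Fermat.Agent.TW56.Count

theorem all_AS : Stmt_AS := stmt_AS stmt_normPi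
theorem all_kumAct : Stmt_kumAct := stmt_kumAct stmt_cycFix
theorem all_firstZ : Stmt_firstZ := stmt_firstZ tameAll_tameSub tameAll_wildP tameAll_tameAvg stmt_unrZ
theorem all_hval : Stmt_hval := stmt_hval stmt_thetaPow all_firstZ
theorem all_theta1 : Stmt_theta1 := stmt_theta1 stmt_normPi
theorem all_omSurj : Stmt_omSurj := stmt_omSurj tameAll_tameSub stmt_normPi stmt_unrZ
theorem all_lev0 : Stmt_lev0 := stmt_lev0 stmt_kumEx stmt_kumAlg
theorem all_stepLin : Stmt_stepLin := stmt_stepLin all_kumAct stmt_kumAlg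
theorem all_levEnd : Stmt_levEnd := stmt_levEnd stmt_normPi all_AS
theorem all_psiUniq : Stmt_psiUniq := stmt_psiUniq stmt_kumAlg stmt_wellDef
theorem all_psiAdd : Stmt_psiAdd := stmt_psiAdd stmt_kumAlg all_psiUniq
theorem all_psiAct : Stmt_psiAct := stmt_psiAct all_kumAct all_psiUniq
theorem all_psiInj : Stmt_psiInj := stmt_psiInj stmt_kumAlg
theorem all_stepVoid : Stmt_stepVoid := stmt_stepVoid stmt_kumAlg
theorem all_count1 : Stmt_count1 := stmt_count1 stmt_countSemi
theorem all_count2 : Stmt_count2 := stmt_count2 stmt_countSemi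
theorem all_charTame : Stmt_charTame := stmt_charTame tameAll_wildP tameAll_frobConj
theorem all_noJump1 : Stmt_noJump1 :=
  stmt_noJump1 stmt_cycFix stmt_trace all_hval all_lev0 all_stepLin all_levEnd
theorem all_hom2abs : Stmt_hom2abs := stmt_hom2abs stmt_cycFix tameAll_tameSub all_omSurj all_noJump1
theorem all_x2Data : Stmt_x2Data := stmt_x2Data stmt_cycFix all_omSurj
theorem all_x2Step : Stmt_x2Step :=
  stmt_x2Step stmt_cycFix all_x2Data all_omSurj all_theta1 stmt_thetaPow all_hval all_stepLin
theorem all_x2One : Stmt_x2One := stmt_x2One all_x2Data all_hval all_stepLin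
theorem all_x2Down : Stmt_x2Down := stmt_x2Down all_x2Data all_x2Step all_levEnd
theorem all_x2Theta : Stmt_x2Theta := stmt_x2Theta stmt_thetaPow all_firstZ
theorem all_chiP : Stmt_chiP := stmt_chiP tameAll_tameSub all_charTame
theorem all_ramInst : Flat.Stmt_RamInst := Flat.ramInst Flat.absInert
theorem all_ctxM : Stmt_ctxM := stmt_ctxM all_ramInst Flat.inertSub
theorem all_frobM : Stmt_frobM := stmt_frobM all_ramInst tameAll_frob

/-- COUNT from `fibre` and `stepPow` -/
theorem count_of (hfib : Stmt_fibre) (hpow : Stmt_stepPow) : Flat.Stmt_COUNT :=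
  have hX1 : Stmt_X1abs := stmt_X1abs tameAll_tameSub all_charTame all_noJump1 all_hom2abs stmt_killN
    hfib stmt_indexKer stmt_homCyc
  have hX1' : Stmt_X1'abs := stmt_X1'abs stmt_cycFix tameAll_tameSub all_omSurj stmt_rdEx stmt_trace
    all_hval all_lev0 all_levEnd all_psiAdd all_psiAct all_psiInj all_count1 stmt_killN hfib stmt_indexKer hX1
  have hUp : Stmt_x2Up := stmt_x2Up all_x2Data all_hval all_lev0 hpow all_x2Step all_x2One
  have hX2 : Stmt_X2abs := stmt_X2abs tameAll_tameSub stmt_rdEx stmt_trace all_hval all_x2Data hUp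
    all_x2Down all_x2Theta all_psiAdd all_psiAct all_psiInj all_stepVoid all_count2 stmt_killN hfib
    stmt_indexKer
  have hLoc : Stmt_locAxAbs := stmt_locAxAbs tameAll_tameSub tameAll_wildP tameAll_tameCyc all_omSurj
    hX1 hX1' all_hom2abs hX2 stmt_ctxSub stmt_frobSub all_chiP
  count_of_abs all_ctxM all_frobM hLoc

theorem all_fibre : Stmt_fibre := stmt_fibre stmt_cobN
theorem all_stepPow : Stmt_stepPow := stmt_stepPow stmt_kumAlg stmt_rdEx

/-- **the block COUNT** : the Kummer bound implies `LocAx`. -/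
theorem count : Flat.Stmt_COUNT := count_of all_fibre all_stepPow

end Fermat.Agent.TW56.Count
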