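/-
TEAM TW56 -> S56, block COUNT, CNT-B0 (helper6): basic facts on the cyclotomic character.
-/
import Fermat.Agent.TW56.Count.Interface2

set_option autoImplicit false

noncomputable section

namespace Fermat.Agent.TW56.Count

open Fermat.Agent.CFT.Local Fermat.Agent.TW56.Flat

namespace CycFix

theorem exists_exp (p : ℕ) [Fact p.Prime] (k : Type) [Field k] [CharP k p] (Γ L : Type) [Group Γ]
    [NormedField L] [MulSemiringAction Γ L] (ζ : L) (h1 : ζ ≠ 1) (hp : ζ ^ p = 1) (om : Γ →* kˣ)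
    (hom : IsCyc ζ om) (g : Γ) :
    ∃ a : ℕ, ¬ p ∣ a ∧ g • ζ = ζ ^ a ∧ ((om g : kˣ) : k) = (a : k) := by
  have hpp : p.Prime := Fact.out
  have hord : orderOf ζ = p := orderOf_eq_prime hp h1
  have hprim : IsPrimitiveRoot ζ p := by
    have := IsPrimitiveRoot.orderOf ζ
    rwa [hord] at this
  have : NeZero p := ⟨hpp.ne_zero⟩
  have hg : (g • ζ) ^ p = 1 := by rw [← smul_pow', hp, smul_one]
  obtain ⟨a, -, ha⟩ := hprim.eq_pow_of_pow_eq_one hg
  refine ⟨a, fun hdvd => ?_, ha.symm, hom g a ha.symm⟩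
  obtain ⟨b, rfl⟩ := hdvd
  rw [pow_mul, hp, one_pow] at ha
  apply h1
  have h2 : g⁻¹ • (g • ζ) = g⁻¹ • (1 : L) := by rw [← ha]
  rwa [inv_smul_smul, smul_one] at h2

end CycFix

/-- CNT-B0. -/
theorem stmt_cycFix : Stmt_cycFix := by
  intro p _ k _ _ Γ L _ _ _ ζ h1 hp om hom
  have hpp : p.Prime := Fact.out
  have hord : orderOf ζ = p := orderOf_eq_prime hp h1
  refine ⟨CycFix.exists_exp p k Γ L ζ h1 hp om hom, fun g hg => ?_, fun g => ?_⟩
  · obtain ⟨a, -, ha, hk⟩ := CycFix.exists_exp p k Γ L ζ h1 hp om hom g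
    rw [hg, Units.val_one] at hk
    have h2 : ((1 : ℕ) : k) = (a : k) := by rw [Nat.cast_one]; exact hk
    have h3 : 1 ≡ a [MOD p] := (CharP.natCast_eq_natCast k p).1 h2
    rw [ha]
    have h4 : ζ ^ a = ζ ^ 1 := by
      rw [← pow_mod_orderOf ζ a, ← pow_mod_orderOf ζ 1, hord]
      exact congrArg (fun n => ζ ^ n) h3.symm
    rw [h4, pow_one]
  · obtain ⟨a, hpa, -, hk⟩ := CycFix.exists_exp p k Γ L ζ h1 hp om hom g
    apply Units.ext
    rw [Units.val_pow_eq_pow_val, hk, Units.val_one]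
    have hc : Nat.Coprime a p := ((Nat.Prime.coprime_iff_not_dvd hpp).2 hpa).symm
    have h5 : a ^ (p - 1) ≡ 1 [MOD p] := by
      have := Nat.ModEq.pow_totient hc
      rwa [Nat.totient_prime hpp] at this
    have h6 := (CharP.natCast_eq_natCast k p).2 h5
    rwa [Nat.cast_pow, Nat.cast_one] at h6

end Fermat.Agent.TW56.Count

end
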