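/-
TEAM TW56 -> S56, block COUNT, task CNT-H6 (helper54): the abstract form of `LocAx`.
-/
import Fermat.Agent.TW56.Count.Interface2

set_option autoImplicit false

noncomputable section

namespace Fermat.Agent.TW56.Count

open Fermat.Agent.CFT.Local Fermat.Agent.TW56.Flat

namespace LocAxAbs

variable {Γ L k : Type} [Group Γ] [NormedField L] [MulSemiringAction Γ L] [Field k]

lemma isIn_sub {G' : Subgroup Γ} (s : G') : IsIn L s ↔ IsIn L (s : Γ) := Iff.rfl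

lemma isCyc_sub {ζ : L} {om : Γ →* kˣ} (h : IsCyc ζ om) (G' : Subgroup Γ) :
    IsCyc ζ (om.comp G'.subtype) := fun g a hg => h (g : Γ) a hg

end LocAxAbs

open LocAxAbs in
/-- CNT-H6. the abstract form of `LocAx`. -/
theorem stmt_locAxAbs (h1 : Stmt_tameSub) (hw : Stmt_wildP) (hcy : Stmt_tameCyc)
    (h8 : Stmt_omSurj) (hX1 : Stmt_X1abs) (hX1' : Stmt_X1'abs) (hh : Stmt_hom2abs)
    (hX2 : Stmt_X2abs) (hS : Stmt_ctxSub) (hfS : Stmt_frobSub) (hchi : Stmt_chiP) :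
    Stmt_locAxAbs := by
  intro p _ hp2 k _ _ _ Γ L _ _ _ _ ζ hC om φ I hcyc hφ hgen hI
  have hp : p.Prime := Fact.out
  obtain ⟨I', P, hI'n, hPn, hPI, hI', hP⟩ := h1 Γ L hC.act
  have hII : I' = I := by
    ext g
    rw [hI', hI]
  subst hII
  have hp1 : ‖(p : L)‖ < 1 := by
    rw [hC.normp]
    exact inv_lt_one_of_one_lt₀ (Nat.one_lt_cast.2 hp.one_lt)
  refine
    { normal := hI'n
      cyc := ?_
      tame := ?_
      omI := ?_
      x1 := ?_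
      x1' := ?_
      hom2 := ?_
      x2 := ?_ }
  · refine ⟨φ, fun g => ?_⟩
    obtain ⟨n, s, hs, hg⟩ := hgen g
    exact ⟨n, s, (hI s).2 hs, hg⟩
  · refine ⟨P, hPI, hPn, ?_, ?_⟩
    · intro u
      obtain ⟨m, hm⟩ := hw Γ L hC.act p hp hp1 (u : Γ) ((hP _).1 u.2)
      exact ⟨m, Subtype.ext hm⟩
    · obtain ⟨s₀, hs₀, h⟩ := hcy Γ L hC.act
      refine ⟨s₀, (hI s₀).2 hs₀, fun s hs => ?_⟩
      obtain ⟨n, u, hu, hsu⟩ := h s ((hI s).1 hs)
      exact ⟨n, u, (hP u).2 hu, hsu⟩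
  · have h2 : ¬ p ∣ 2 := by
      intro h
      exact hp2 ((Nat.prime_dvd_prime_iff_eq hp Nat.prime_two).1 h)
    obtain ⟨s, hs, hsζ⟩ := h8 p Γ L ζ hC 2 h2
    refine ⟨s, (hI s).2 hs, fun h => ?_⟩
    have h3 := hcyc s 2 hsζ
    rw [h, Units.val_one] at h3
    have h4 : (1 : k) = 1 + 1 := by
      refine h3.trans ?_
      norm_num
    exact one_ne_zero (left_eq_add.1 h4)
  · rintro η ⟨s, hs, hne⟩
    exact hX1 p hp2 k Γ L ζ hC om φ hcyc hφ hgen η ⟨s, (hI s).1 hs, hne⟩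
  · intro η
    exact hX1' p hp2 k Γ L ζ hC om φ hcyc hφ hgen η
  · intro G' hIG _ f hf s hs
    have hsub : ∀ s : Γ, IsIn L s → s ∈ G' := fun s hs => hIG ((hI s).2 hs)
    have hC' : Ctx p G' L ζ := hS p Γ L ζ hC G' hsub
    refine hh p hp2 k G' L ζ hC' (om.comp G'.subtype) (isCyc_sub hcyc G') (fun g => f g) ?_
      ⟨s, hIG hs⟩ ((hI s).1 hs)
    intro σ τ
    show f ((σ : Γ) * (τ : Γ)) = f σ + (((1 : G' →* kˣ) σ : kˣ) : k) * f τ
    rw [hf σ σ.2 τ τ.2, MonoidHom.one_apply, Units.val_one, one_mul]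
  · intro G' hIG hidx ψ hψ χ χ' hconj hmul hne
    have hsub : ∀ s : Γ, IsIn L s → s ∈ G' := fun s hs => hIG ((hI s).2 hs)
    have hC' : Ctx p G' L ζ := hS p Γ L ζ hC G' hsub
    obtain ⟨-, φ', -, hφ'Q, hφ'g⟩ := hfS Γ L hC.act φ p hφ hgen G' hsub hidx
    have hpw := hchi p k Γ L hC.act hC.normp φ hφ hgen G' hsub hidx ψ hψ χ χ' hconj
    obtain ⟨s, hs, hsne⟩ := hne
    refine hX2 p hp2 k G' L ζ hC' (om.comp G'.subtype) χ χ' φ'
      { cyc := isCyc_sub hcyc G'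
        mul := hmul
        pow := fun s hs => (hpw s hs).1
        pow' := fun s hs => (hpw s hs).2
        ne := ⟨s, (hI s).1 hs, hsne⟩
        frob := hφ'Q
        gen := hφ'g }

end Fermat.Agent.TW56.Count

end
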